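import Fermat.Agent.CycloIndex.Main
import Mathlib.LinearAlgebra.Matrix.SchurComplement

/-!
# Maillet's determinant

`M = (R(a b⁻¹))`, `1 ≤ a, b ≤ m = (p-1)/2`, `R` the least positive residue. With `g = R - p/2`, which is odd,
`M = G (1 + E)` for a rank one `E` with `det (1 + E) = -2`, and the odd characters diagonalise `G`.
-/

set_option autoImplicit false

noncomputable section

open Finset Matrix
open scoped Classical ComplexConjugate

namespace FA.CycloIndex

variable (p : ℕ) [Fact p.Prime]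

/-- The entry `R(a b⁻¹)`, with `i ↦ i + 1`. -/
def mailletEntry {m : ℕ} (i j : Fin m) : ℕ := (((i.1 + 1 : ℕ) : ZMod p) * (((j.1 + 1 : ℕ) : ZMod p))⁻¹).val

/-- **Maillet's matrix**. -/
def mailletMatrix (m : ℕ) : Matrix (Fin m) (Fin m) ℤ := Matrix.of fun i j => (mailletEntry p i j : ℤ)

/-- `R(x) - p/2`. -/
def oddResidue (x : ZMod p) : ℝ := (x.val : ℝ) - p / 2

/-- The odd characters modulo `p`. -/
abbrev OddChar : Type := {χ : DirichletCharacter ℂ p // χ.Odd}

variable {p}

theorem halfVal {m : ℕ} (hm : p = 2 * m + 1) (i : Fin m) : ((i.1 + 1 : ℕ) : ZMod p).val = i.1 + 1 :=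
  ZMod.val_natCast_of_lt (by have := i.2; omega)

theorem halfVal_ne_zero {m : ℕ} (hm : p = 2 * m + 1) (i : Fin m) : ((i.1 + 1 : ℕ) : ZMod p) ≠ 0 := fun h => by
  have := halfVal hm i
  rw [h, ZMod.val_zero] at this
  omega

theorem oddResidue_neg {x : ZMod p} (hx : x ≠ 0) : oddResidue p (-x) = -oddResidue p x := by
  rw [oddResidue, oddResidue, ZMod.neg_val, if_neg hx, Nat.cast_sub (ZMod.val_lt x).le]
  ring

/-- A sum of an even function over nonzero residues is twice the half sum. -/
theorem sum_eq_two_mul_half {m : ℕ} (hm : p = 2 * m + 1) {F : ZMod p → ℂ} (h0 : F 0 = 0)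
    (hF : ∀ x, F (-x) = F x) : ∑ x, F x = 2 * ∑ i : Fin m, F ((i.1 + 1 : ℕ) : ZMod p) := by
  have hp : p.Prime := Fact.out
  have : NeZero p := ⟨hp.ne_zero⟩
  have h1 : ∑ x, F x = ∑ r ∈ range p, F (r : ZMod p) := by
    refine (Finset.sum_nbij (fun r : ℕ => (r : ZMod p)) (fun r _ => mem_univ _) (fun a ha b hb h => ?_)
      (fun x _ => ⟨x.val, mem_range.mpr (ZMod.val_lt x), ZMod.natCast_zmod_val x⟩) fun r _ => rfl).symm
    rw [coe_range, Set.mem_Iio] at ha hb
    have := congrArg ZMod.val h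
    rwa [ZMod.val_natCast_of_lt ha, ZMod.val_natCast_of_lt hb] at this
  have h2 : ∑ r ∈ range p, F (r : ZMod p) =
      (∑ r ∈ range m, F ((r + 1 : ℕ) : ZMod p)) + ∑ r ∈ range m, F ((m + r + 1 : ℕ) : ZMod p) := by
    rw [show range p = range (2 * m + 1) by rw [← hm], Finset.sum_range_succ', Nat.cast_zero, h0, add_zero, two_mul,
      Finset.sum_range_add]
  have h3 : ∑ r ∈ range m, F ((m + r + 1 : ℕ) : ZMod p) = ∑ r ∈ range m, F ((r + 1 : ℕ) : ZMod p) := by
    rw [← Finset.sum_range_reflect]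
    refine Finset.sum_congr rfl fun r hr => ?_
    rw [mem_range] at hr
    rw [← hF]
    congr 1
    rw [neg_eq_iff_add_eq_zero, ← Nat.cast_add, show m + (m - 1 - r) + 1 + (r + 1) = p by omega, ZMod.natCast_self]
  rw [h1, h2, h3, ← Fin.sum_univ_eq_sum_range (fun r => F ((r + 1 : ℕ) : ZMod p)) m, two_mul]

variable (p) in
theorem two_mul_card_oddChar (hp2 : p ≠ 2) : 2 * Fintype.card (OddChar p) = p - 1 := by
  have hp : p.Prime := Fact.out
  have h1 := two_mul_card_evenChar p hp2
  have hall : Fintype.card (DirichletCharacter ℂ p) = p - 1 := by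
    have : NeZero p := ⟨hp.ne_zero⟩
    rw [← Nat.card_eq_fintype_card, DirichletCharacter.card_eq_totient_of_hasEnoughRootsOfUnity ℂ p,
      Nat.totient_prime hp]
  have h2 : Fintype.card (OddChar p) = Fintype.card {χ : DirichletCharacter ℂ p // ¬ χ.Even} :=
    Fintype.card_congr (Equiv.subtypeEquivRight fun χ => ⟨fun ho he => by
      have a1 : χ (-1) = 1 := he
      have a2 : χ (-1) = -1 := ho
      rw [a1] at a2
      norm_num at a2, fun h => (DirichletCharacter.even_or_odd χ).resolve_left h⟩)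
  rw [h2, Fintype.card_subtype_compl, hall]
  change 2 * Fintype.card {χ : DirichletCharacter ℂ p // χ.Even} = p - 1 at h1
  rw [← Nat.card_eq_fintype_card] at h1 ⊢
  omega

variable (p) in
/-- `G = (g(a b⁻¹))`. -/
def oddMatrix (m : ℕ) : Matrix (Fin m) (Fin m) ℝ :=
  Matrix.of fun i j => oddResidue p (((i.1 + 1 : ℕ) : ZMod p) * (((j.1 + 1 : ℕ) : ZMod p))⁻¹)

/-- The odd characters diagonalise `G`. -/
theorem abs_det_oddMatrix {m : ℕ} (hm : p = 2 * m + 1) :
    |(oddMatrix p m).det| * 2 ^ m = ∏ t : OddChar p, ‖∑ a : ZMod p, t.1 a * (a.val : ℂ)‖ := by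
  have hp : p.Prime := Fact.out
  have : NeZero p := ⟨hp.ne_zero⟩
  have hp2 : p ≠ 2 := by omega
  obtain ⟨e⟩ := Fintype.truncEquivOfCardEq (α := Fin m) (β := OddChar p) (by
    have := two_mul_card_oddChar p hp2
    rw [Fintype.card_fin]
    omega) |>.nonempty
  set X : Matrix (Fin m) (Fin m) ℂ := Matrix.of fun i j => (e j).1 ((i.1 + 1 : ℕ) : ZMod p) with hX
  set S : OddChar p → ℂ := fun t => ∑ a : ZMod p, t.1⁻¹ a * (a.val : ℂ) with hS
  have horth : (X.map conj)ᵀ * X = (m : ℂ) • (1 : Matrix (Fin m) (Fin m) ℂ) := by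
    ext i j
    rw [mul_apply, Matrix.smul_apply, one_apply]
    simp only [hX, transpose_apply, map_apply, of_apply, starRingEnd_apply, MulChar.star_apply', smul_eq_mul,
      mul_ite, mul_one, mul_zero]
    have hev : ((e i).1⁻¹ * (e j).1).Even := by
      show ((e i).1⁻¹ * (e j).1) (-1) = 1
      have a1 : (e i).1 (-1) = -1 := (e i).2
      have a2 : (e j).1 (-1) = -1 := (e j).2
      rw [MulChar.mul_apply, MulChar.inv_apply', inv_neg_one, a1, a2]
      norm_num
    have h := sum_eq_two_mul_half hm (F := fun x => ((e i).1⁻¹ * (e j).1) x) (MulChar.map_zero _)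
      hev.eval_neg
    simp only [MulChar.mul_apply] at h
    split_ifs with hij
    · subst hij
      simp only [← MulChar.mul_apply, inv_mul_cancel, MulChar.one_apply (Ne.isUnit (halfVal_ne_zero hm _)),
        sum_const, card_univ, Fintype.card_fin, nsmul_eq_mul, mul_one]
    · have hne : (e i).1⁻¹ * (e j).1 ≠ 1 := fun h' => hij (e.injective (Subtype.ext (inv_mul_eq_one.mp h')))
      have h0 := MulChar.sum_eq_zero_of_ne_one hne
      simp only [MulChar.mul_apply] at h0
      rw [h0] at h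
      exact (mul_eq_zero.mp h.symm).resolve_left two_ne_zero
  have hXne : X.det ≠ 0 := by
    intro h0
    have h := congrArg Matrix.det horth
    rw [det_mul, h0, mul_zero, det_smul, det_one, mul_one, Fintype.card_fin] at h
    exact pow_ne_zero _ (Nat.cast_ne_zero.mpr (by have := hp.two_le; omega)) h.symm
  have hGX : (oddMatrix p m).map ((↑) : ℝ → ℂ) * X = X * diagonal fun j => S (e j) / 2 := by
    ext i j
    rw [mul_diagonal, mul_apply]
    simp only [map_apply, oddMatrix, hX, of_apply, hS]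
    set a : ZMod p := ((i.1 + 1 : ℕ) : ZMod p) with ha
    have ha0 : a ≠ 0 := halfVal_ne_zero hm i
    set χ := (e j).1
    have hodd : χ.Odd := (e j).2
    have h := sum_eq_two_mul_half hm (F := fun x => (oddResidue p (a * x⁻¹) : ℂ) * χ x)
      (by rw [MulChar.map_zero, mul_zero]) fun x => by
        by_cases hx : x = 0
        · rw [hx, neg_zero]
        · rw [inv_neg, mul_neg, oddResidue_neg (mul_ne_zero ha0 (inv_ne_zero hx)), hodd.eval_neg]
          push_cast
          ring
    have hval : ∑ x, (oddResidue p (a * x⁻¹) : ℂ) * χ x = χ a * ∑ y : ZMod p, χ⁻¹ y * (y.val : ℂ) := by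
      have h1 : ∑ x, (oddResidue p (a * x⁻¹) : ℂ) * χ x = ∑ y, (oddResidue p y : ℂ) * χ (a * y⁻¹) :=
        Fintype.sum_bijective (fun x => a * x⁻¹)
          (Function.Involutive.bijective fun x => by rw [mul_inv, inv_inv, ← mul_assoc, mul_inv_cancel₀ ha0, one_mul])
          _ _ fun x => by
            show _ = (oddResidue p (a * x⁻¹) : ℂ) * χ (a * (a * x⁻¹)⁻¹)
            rw [mul_inv, inv_inv, ← mul_assoc, mul_inv_cancel₀ ha0, one_mul]
      have hne : χ⁻¹ ≠ 1 := fun h' => by
        have h2 : χ (-1) = -1 := hodd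
        rw [inv_eq_one.mp h', MulChar.one_apply isUnit_one.neg] at h2
        norm_num at h2
      rw [h1, mul_sum]
      have h3 : ∑ y : ZMod p, χ a * (χ⁻¹ y * ((p : ℂ) / 2)) = 0 := by
        rw [← mul_sum, ← sum_mul, MulChar.sum_eq_zero_of_ne_one hne, zero_mul, mul_zero]
      rw [← sub_zero (∑ y : ZMod p, χ a * (χ⁻¹ y * (y.val : ℂ))), ← h3, ← Finset.sum_sub_distrib]
      refine Finset.sum_congr rfl fun y _ => ?_
      rw [map_mul, MulChar.inv_apply', oddResidue]
      push_cast
      ring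
    rw [hval] at h
    linear_combination -(h / 2)
  have h := congrArg (fun M : Matrix (Fin m) (Fin m) ℂ => ‖M.det‖) hGX
  simp only [det_mul, norm_mul, det_diagonal, norm_prod, norm_div, Complex.norm_ofNat] at h
  rw [mul_comm ‖X.det‖] at h
  have h4 := mul_right_cancel₀ (norm_ne_zero_iff.mpr hXne) h
  rw [show ((oddMatrix p m).map ((↑) : ℝ → ℂ)).det = (((oddMatrix p m).det : ℝ) : ℂ) from
    (Complex.ofRealHom.map_det _).symm, Complex.norm_real, Real.norm_eq_abs] at h4
  rw [h4, prod_div_distrib, prod_const, card_univ, Fintype.card_fin,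
    div_mul_cancel₀ _ (pow_ne_zero _ two_ne_zero), e.prod_comp (fun t => ‖S t‖)]
  let inv' : OddChar p → OddChar p := fun t => ⟨t.1⁻¹, show t.1⁻¹ (-1) = -1 by
    rw [MulChar.inv_apply', inv_neg_one]; exact t.2⟩
  have hinv : Function.Involutive inv' := fun t => Subtype.ext (inv_inv t.1)
  refine Fintype.prod_bijective inv' hinv.bijective _ _ fun t => ?_
  simp only [hS, inv']

/-- `|det M| = 2 |det G|`. -/
theorem abs_det_mailletMatrix {m : ℕ} (hm : p = 2 * m + 1) (hm2 : 2 ≤ m) :
    (((mailletMatrix p m).det).natAbs : ℝ) = 2 * |(oddMatrix p m).det| := by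
  have hp : p.Prime := Fact.out
  have : NeZero p := ⟨hp.ne_zero⟩
  set j1 : Fin m := ⟨0, by omega⟩
  set jm : Fin m := ⟨m - 1, by omega⟩
  have hj : j1 ≠ jm := fun h => by
    have := congrArg Fin.val h
    simp only [j1, jm] at this
    omega
  set v : Fin m → ℝ := fun j => if j = j1 then -2 else if j = jm then -1 else 0 with hv
  have hjm : (((jm.1 + 1 : ℕ) : ZMod p))⁻¹ = -2 := by
    refine inv_eq_of_mul_eq_one_right ?_
    have e : ((2 * m + 1 : ℕ) : ZMod p) = 0 := by rw [← hm, ZMod.natCast_self]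
    rw [show jm.1 + 1 = m by simp only [jm]; omega]
    push_cast at e
    linear_combination -e
  have hcol : ∀ i : Fin m, ∑ j, oddMatrix p m i j * v j = p / 2 := fun i => by
    rw [← Finset.sum_subset (subset_univ {j1, jm}) (fun j _ hj' => ?_), sum_pair hj]
    · simp only [hv, oddMatrix, of_apply]
      simp only [if_true, if_neg hj.symm]
      rw [hjm, show (((j1.1 + 1 : ℕ) : ZMod p))⁻¹ = 1 by simp [j1], mul_one,
        show ((i.1 + 1 : ℕ) : ZMod p) * -2 = -(((i.1 + 1 : ℕ) : ZMod p) * 2) from mul_neg _ _, oddResidue_neg (mul_ne_zero (halfVal_ne_zero hm i) fun h2 => by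
          have h2' : ((2 : ℕ) : ZMod p) = 0 := by exact_mod_cast h2
          have := Nat.le_of_dvd two_pos ((ZMod.natCast_eq_zero_iff 2 p).mp h2')
          omega),
        oddResidue, oddResidue, halfVal hm i]
      have e2 : (((i.1 + 1 : ℕ) : ZMod p) * 2).val = 2 * (i.1 + 1) := by
        rw [show ((i.1 + 1 : ℕ) : ZMod p) * 2 = ((2 * (i.1 + 1) : ℕ) : ZMod p) by push_cast; ring]
        exact ZMod.val_natCast_of_lt (by have := i.2; omega)
      rw [e2]
      push_cast
      ring
    · simp only [Finset.mem_insert, Finset.mem_singleton, not_or] at hj'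
      simp [hv, hj'.1, hj'.2]
  have hfac : (mailletMatrix p m).map (Int.cast : ℤ → ℝ) =
      oddMatrix p m * (1 + replicateCol Unit v * replicateRow Unit fun _ => (1 : ℝ)) := by
    ext i j
    rw [Matrix.mul_add, Matrix.mul_one, ← Matrix.mul_assoc, Matrix.add_apply, mul_apply]
    simp only [mul_apply, replicateCol_apply, replicateRow_apply, Finset.univ_unique, Finset.sum_singleton, mul_one,
      hcol i]
    simp only [mailletMatrix, mailletEntry, oddMatrix, oddResidue, map_apply, of_apply, Int.cast_natCast]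
    ring
  have hdet := congrArg Matrix.det hfac
  rw [det_mul, det_one_add_replicateCol_mul_replicateRow] at hdet
  have hsum : (fun _ : Fin m => (1 : ℝ)) ⬝ᵥ v = -3 := by
    simp only [dotProduct, one_mul, hv]
    rw [← Finset.sum_subset (subset_univ {j1, jm}) (fun j _ hj' => ?_), sum_pair hj]
    · rw [if_pos rfl, if_neg hj.symm, if_pos rfl]; norm_num
    · simp only [Finset.mem_insert, Finset.mem_singleton, not_or] at hj'
      simp [hj'.1, hj'.2]
  rw [hsum, show ((mailletMatrix p m).map (Int.cast : ℤ → ℝ)).det = (((mailletMatrix p m).det : ℤ) : ℝ) from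
    ((Int.castRingHom ℝ).map_det _).symm] at hdet
  rw [Nat.cast_natAbs, Int.cast_abs, hdet, abs_mul]
  norm_num
  ring

open NumberField in
/-- **Carlitz and Olson**: `|det M| h⁺ = p^((p-3)/2) h`. -/
theorem maillet_classNumber (K : Type*) [Field K] [NumberField K] [IsCyclotomicExtension {p} ℚ K] {m : ℕ}
    (hm : p = 2 * m + 1) (hm2 : 2 ≤ m) :
    ((mailletMatrix p m).det).natAbs * classNumber (maximalRealSubfield K) =
      p ^ (m - 1) * classNumber K := by
  have hp : p.Prime := Fact.out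
  have : NeZero p := ⟨hp.ne_zero⟩
  have : IsCMField K := IsCyclotomicExtension.Rat.isCMField K (S := {p}) ⟨p, rfl, by omega⟩
  have h := FA.Regular.minus_formula_sq p K (show p ≠ 2 by omega)
  rw [indexRealUnits_eq_one p K (by omega), Nat.cast_one, mul_one, show (p - 1) / 2 - 1 = m - 1 by omega,
    ← Int.cast_abs, Int.abs_eq_natAbs, natAbs_discr_real p K (by omega), show (p - 3) / 2 = m - 1 by omega,
    Finset.prod_pow, ← mul_pow] at h
  rw [Finset.prod_subtype _ (p := fun χ : DirichletCharacter ℂ p => χ.Odd) (fun χ => by simp),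
    ← abs_det_oddMatrix hm] at h
  have e4 : (4 : ℝ) ^ (m - 1) = ((2 : ℝ) ^ (m - 1)) ^ 2 := by rw [← pow_mul, mul_comm, pow_mul]; norm_num
  push_cast at h
  rw [e4, show ((2 : ℝ) ^ (m - 1)) ^ 2 * (p : ℝ) ^ (m - 1) * (p : ℝ) ^ (m - 1) * (classNumber K : ℝ) ^ 2 =
    ((2 : ℝ) ^ (m - 1) * (p : ℝ) ^ (m - 1) * classNumber K) ^ 2 by ring] at h
  have h2 := (sq_eq_sq₀ (by positivity) (by positivity)).mp h
  have h3 : ((((mailletMatrix p m).det).natAbs * classNumber (maximalRealSubfield K) : ℕ) : ℝ) =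
      ((p ^ (m - 1) * classNumber K : ℕ) : ℝ) := by
    rw [Nat.cast_mul, abs_det_mailletMatrix hm hm2]
    push_cast
    refine mul_left_cancel₀ (pow_ne_zero (m - 1) (two_ne_zero (α := ℝ))) ?_
    rw [show (2 : ℝ) ^ (m - 1) * (2 * |(oddMatrix p m).det| * (classNumber (maximalRealSubfield K) : ℝ)) =
      (classNumber (maximalRealSubfield K) : ℝ) * (|(oddMatrix p m).det| * (2 ^ (m - 1) * 2)) by ring,
      ← pow_succ, Nat.sub_add_cancel (show 1 ≤ m by omega)]
    linear_combination h2
  exact_mod_cast h3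

end FA.CycloIndex
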