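import Mathlib.LinearAlgebra.Matrix.Determinant.Basic
import Mathlib.LinearAlgebra.Matrix.NonsingularInverse
import Mathlib.Analysis.Complex.Basic

/-!
# The Dedekind–Frobenius determinant, reduced form
-/

set_option autoImplicit false

noncomputable section

open Matrix Finset
open scoped ComplexConjugate

namespace FA.CycloIndex

variable {W T : Type*} [Fintype W] [DecidableEq W] [Fintype T] [DecidableEq T]

/-- If the characters `X · t` turn `A` into `(conj X - 1) diag S`, then `|det A| = |W| ∏ |S|`. -/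
theorem abs_det_eq_card_mul_prod {w₀ : W} {t₀ : T} (e : W ≃ T) (A : Matrix W W ℝ) (X : Matrix W T ℂ)
    (S : T → ℂ) (hA : ∀ w, A w₀ w = 1) (hX₀ : ∀ w, X w t₀ = 1) (hXw : ∀ t, X w₀ t = 1)
    (hsum : ∀ t, t ≠ t₀ → ∑ w, X w t = 0)
    (horth : ∀ i j, ∑ w, conj (X w i) * X w j = if i = j then (Fintype.card W : ℂ) else 0)
    (hrow : ∀ i, i ≠ w₀ → ∀ t, ∑ w, (A i w : ℂ) * X w t = (conj (X i t) - 1) * S t) :
    |A.det| = Fintype.card W * ∏ t ∈ univ.erase t₀, ‖S t‖ := by
  set Xs : Matrix W W ℂ := of fun w j => X w (e j) with hXs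
  set D : W → ℂ := fun j => if e j = t₀ then (Fintype.card W : ℂ) else S (e j) with hD
  set Z : Matrix W W ℂ := of fun i j =>
    if i = w₀ then (if e j = t₀ then 1 else 0) else conj (X i (e j)) - 1 with hZ
  have hAX : A.map ((↑) : ℝ → ℂ) * Xs = Z * diagonal D := by
    ext i j
    rw [mul_diagonal, mul_apply]
    simp only [map_apply, hXs, hZ, hD, of_apply]
    by_cases hi : i = w₀
    · rw [if_pos hi, hi]
      simp only [hA, Complex.ofReal_one, one_mul]
      by_cases hj : e j = t₀
      · simp [hj, hX₀]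
      · rw [if_neg hj, zero_mul, hsum _ hj]
    · rw [if_neg hi, hrow i hi]
      by_cases hj : e j = t₀
      · simp [hj, hX₀]
      · rw [if_neg hj]
  -- `det Z = det (conj X)`
  set Z' : Matrix W W ℂ := of fun i j => conj (X i (e j)) - if i = w₀ then 0 else 1 with hZ'
  have h1 : (Xs.map conj).det = Z'.det := by
    refine det_eq_of_forall_row_eq_smul_add_const (fun i => if i = w₀ then 0 else 1) w₀ (if_pos rfl) fun i j => ?_
    simp only [hZ', hXs, of_apply, map_apply, hXw, map_one, if_pos]
    split_ifs <;> simp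
  have h2 : Z'.det = Z.det := by
    set r : W → ℂ := fun j => if e j = t₀ then 0 else 1 with hr
    have e1 : Z' = Z.updateRow w₀ (Z w₀ + r) := by
      ext i j
      by_cases hi : i = w₀
      · subst hi
        rw [updateRow_self]
        simp only [hZ', hZ, hr, of_apply, if_pos, Pi.add_apply, hXw, map_one]
        split_ifs <;> simp
      · rw [updateRow_ne hi]
        simp [hZ', hZ, hi]
    rw [e1, det_updateRow_add, updateRow_eq_self, add_eq_left]
    refine det_eq_zero_of_column_eq_zero (e.symm t₀) fun i => ?_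
    by_cases hi : i = w₀
    · rw [hi, updateRow_self, hr]
      simp
    · rw [updateRow_ne hi]
      simp [hZ, hi, hX₀]
  have hne : Xs.det ≠ 0 := by
    intro h0
    have h := congrArg Matrix.det (show (Xs.map conj)ᵀ * Xs = (Fintype.card W : ℂ) • (1 : Matrix W W ℂ) by
      ext i j
      rw [mul_apply, Matrix.smul_apply, one_apply]
      simp only [hXs, transpose_apply, map_apply, of_apply, horth, e.apply_eq_iff_eq, smul_eq_mul, mul_ite, mul_one,
        mul_zero])
    rw [det_mul, h0, mul_zero, det_smul, det_one, mul_one] at h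
    have : Nonempty W := ⟨w₀⟩
    exact pow_ne_zero _ (Nat.cast_ne_zero.mpr Fintype.card_ne_zero) h.symm
  have h3 := congrArg (fun M : Matrix W W ℂ => ‖M.det‖) hAX
  simp only [det_mul, norm_mul, det_diagonal] at h3
  rw [← h2, ← h1, show (Xs.map conj).det = conj Xs.det from ((starRingEnd ℂ).map_det Xs).symm,
    RCLike.norm_conj, mul_comm ‖Xs.det‖] at h3
  have h4 := mul_right_cancel₀ (norm_ne_zero_iff.mpr hne) h3
  rw [show (A.map ((↑) : ℝ → ℂ)).det = ((A.det : ℝ) : ℂ) from (Complex.ofRealHom.map_det A).symm,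
    Complex.norm_real, Real.norm_eq_abs] at h4
  rw [h4, norm_prod]
  have h5 : ∀ j, ‖D j‖ = (fun t => if t = t₀ then (Fintype.card W : ℝ) else ‖S t‖) (e j) := fun j => by
    simp only [hD]; split_ifs <;> simp
  rw [Finset.prod_congr rfl fun j _ => h5 j, e.prod_comp (fun t => if t = t₀ then (Fintype.card W : ℝ) else ‖S t‖),
    ← mul_prod_erase univ _ (mem_univ t₀), if_pos rfl]
  exact congrArg _ (Finset.prod_congr rfl fun t ht => if_neg (ne_of_mem_erase ht))

end FA.CycloIndex
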