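import Fermat.Agent.Regular.CriterionConverse
import Fermat.Agent.Regular.VandiverReal

/-!
# The discriminant and the unit index of `ℚ(ζ_p)⁺`

`|d⁺| = p^((p-3)/2)` by tame total ramification, and `[E : E⁺ μ] = 1`.
-/

set_option autoImplicit false

noncomputable section

open NumberField

namespace FA.CycloIndex

variable (p : ℕ) [Fact p.Prime] (K : Type*) [Field K] [NumberField K] [IsCyclotomicExtension {p} ℚ K]
  [IsCMField K]

local notation "L" => maximalRealSubfield K

theorem complexConj_coe (x : 𝓞 K) :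
    IsCMField.complexConj K (x : K) = ((FA.Regular.cj p K x : 𝓞 K) : K) := by
  rw [FA.Regular.cj, FA.Ext.sigma_coe, FA.Regular.sigmaK_neg_one_eq]

theorem exists_real_eq {x : 𝓞 K} (hx : FA.Regular.cj p K x = x) : ∃ y : 𝓞 L, algebraMap (𝓞 L) (𝓞 K) y = x :=
  ((IsCMField.RingOfIntegers.complexConj_eq_self_iff K x).mp (by rw [complexConj_coe p K, hx])).imp
    fun _ hy => RingOfIntegers.ext hy

/-- `r^((p-1)/2) ∣ p` in the real field, `N(r) = p`. -/
theorem exists_real_prime_element (h3 : 3 ≤ p) :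
    ∃ r : 𝓞 L, r ^ ((p - 1) / 2) ∣ (p : 𝓞 L) ∧ Ideal.absNorm (Ideal.span {r}) = p := by
  have hp : p.Prime := Fact.out
  obtain ⟨g, hg, hgp⟩ := FA.Regular.exists_realUnit_prime p K h3
  obtain ⟨r, hr⟩ := exists_real_eq p K (FA.Regular.cj_realLam p K)
  obtain ⟨u, hu⟩ := exists_real_eq p K hg
  obtain ⟨u', hu'⟩ := exists_real_eq p K (x := ((g⁻¹ : (𝓞 K)ˣ) : 𝓞 K)) (by
    have h1 := congrArg (FA.Regular.cj p K) g.inv_mul
    rw [map_mul, hg, map_one] at h1
    exact mul_right_cancel₀ g.ne_zero (h1.trans g.inv_mul.symm))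
  have hinj : Function.Injective (algebraMap (𝓞 L) (𝓞 K)) := FaithfulSMul.algebraMap_injective _ _
  have hprod : r ^ ((p - 1) / 2) * u = (p : 𝓞 L) :=
    hinj (by rw [map_mul, map_pow, hr, hu, hgp, map_natCast])
  have huu : IsUnit u := IsUnit.of_mul_eq_one u' (hinj (by rw [map_mul, hu, hu', Units.mul_inv, map_one]))
  refine ⟨r, ⟨u, hprod.symm⟩, ?_⟩
  set N := Ideal.absNorm (Ideal.span {r})
  have h1 : N ^ ((p - 1) / 2) = p ^ ((p - 1) / 2) := by
    rw [← map_pow, Ideal.span_singleton_pow, ← Ideal.span_singleton_mul_right_unit huu, hprod,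
      Ideal.absNorm_span_singleton, ← map_natCast (algebraMap ℤ (𝓞 L)) p, Algebra.norm_algebraMap, Int.natAbs_pow,
      Int.natAbs_natCast, RingOfIntegers.rank]
    congr 1
    have h := Module.finrank_mul_finrank ℚ L K
    rw [Algebra.IsQuadraticExtension.finrank_eq_two L K, IsCyclotomicExtension.Rat.finrank p K,
      Nat.totient_prime hp] at h
    omega
  exact Nat.pow_left_injective (by omega) h1

/-- **The discriminant of the real field.** -/
theorem natAbs_discr_real (h3 : 3 ≤ p) : (discr L).natAbs = p ^ ((p - 3) / 2) := by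
  have hp : p.Prime := Fact.out
  have hodd : p % 2 = 1 := hp.eq_two_or_odd.resolve_left (by omega)
  obtain ⟨e, he, hde⟩ := (Nat.dvd_prime_pow hp).mp
    ((dvd_pow_self _ two_ne_zero).trans (FA.Regular.natAbs_discr_real_sq_dvd (p := p) (K := K)))
  have hup : 2 * e ≤ p - 2 := by
    have h := FA.Regular.natAbs_discr_real_sq_dvd (p := p) (K := K)
    rw [hde, ← pow_mul] at h
    have := (Nat.pow_dvd_pow_iff_le_right hp.one_lt).mp h
    omega
  obtain ⟨r, hr, hN⟩ := exists_real_prime_element p K h3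
  have : (Ideal.span {(p : ℤ)}).IsMaximal :=
    PrincipalIdealRing.isMaximal_of_irreducible (Nat.prime_iff_prime_int.mp hp).irreducible
  have hlow : (p - 1) / 2 - 1 ≤ e := by
    have h := pow_sub_one_dvd_differentIdeal ℤ (p := Ideal.span {(p : ℤ)}) (Ideal.span {r}) ((p - 1) / 2)
      (by simpa using hp.ne_zero) (by
        rw [Ideal.map_span, Set.image_singleton, map_natCast, Ideal.span_singleton_pow]
        exact Ideal.dvd_span_singleton.mpr (Ideal.mem_span_singleton.mpr hr))
    have h2 := map_dvd Ideal.absNorm h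
    rw [map_pow, hN, absNorm_differentIdeal L, hde] at h2
    exact (Nat.pow_dvd_pow_iff_le_right hp.one_lt).mp h2
  rw [hde]
  congr 1
  omega

/-- **Every unit is a real unit times a root of unity.** -/
theorem indexRealUnits_eq_one (h3 : 3 ≤ p) : IsCMField.indexRealUnits K = 1 := by
  have hp : p.Prime := Fact.out
  refine (IsCMField.indexRealUnits_eq_one_or_two K).resolve_right fun h => ?_
  obtain ⟨u, hu⟩ := (IsCMField.indexRealUnits_eq_two_iff K).mp h
  set w := IsCMField.unitsMulComplexConjInv K u with hw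
  -- `conj u = ζ^j u`
  set cu : (𝓞 K)ˣ := FA.Ext.sigmaU p K (-1) u
  obtain ⟨j, hj⟩ := FA.Regular.exists_conj_eq_zeta_pow p K h3 (x := (u : 𝓞 K))
    (fun hd => (FA.Regular.cycloRing_zetaInt p K h3).lam_prime.not_isUnit (isUnit_of_dvd_unit hd u.isUnit))
    (cu * u⁻¹) (by rw [Units.val_mul, mul_assoc, Units.inv_mul, mul_one]; rfl)
  have hzp := (FA.Ext.zetaInt_spec p K).pow_eq_one
  have hwp : w ^ p = 1 := by
    refine Subtype.ext (Units.ext (RingOfIntegers.ext ?_))
    have hcu : ((cu : (𝓞 K)ˣ) : 𝓞 K) ^ p = (u : 𝓞 K) ^ p := by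
      rw [show ((cu : (𝓞 K)ˣ) : 𝓞 K) = FA.Ext.zetaInt p K ^ j * (u : 𝓞 K) from hj, mul_pow, ← pow_mul,
        mul_comm j, pow_mul, hzp, one_pow, one_mul]
    rw [SubmonoidClass.coe_pow, hw, IsCMField.unitsMulComplexConjInv_apply]
    show (((u * (IsCMField.unitsComplexConj K u)⁻¹) ^ p : (𝓞 K)ˣ) : 𝓞 K).val = _
    have hcc : IsCMField.unitsComplexConj K u = cu := Units.ext (RingOfIntegers.ext (complexConj_coe p K (u : 𝓞 K)))
    rw [hcc, mul_pow, inv_pow, show cu ^ p = u ^ p from Units.ext (by simpa using hcu), mul_inv_cancel]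
    rfl
  have h1 : Nat.card (Units.torsion K) ≤ p := by
    rw [← orderOf_eq_card_of_forall_mem_zpowers (g := w) (fun x => hu ▸ Subgroup.mem_top x)]
    exact Nat.le_of_dvd hp.pos (orderOf_dvd_of_pow_eq_one hwp)
  have hodd : p % 2 = 1 := hp.eq_two_or_odd.resolve_left (by omega)
  have h2 : Units.torsionOrder K = 2 * p := by
    rw [IsCyclotomicExtension.Rat.torsionOrder_eq (n := p) (K := K), if_neg (by rw [Nat.even_iff]; omega)]
  rw [Units.torsionOrder] at h2
  omega

end FA.CycloIndex
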