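import Fermat.Agent.CycloIndex.Maillet

/-!
# Maillet's determinant for `p ≤ 23`

Triangular certificates `L M' = U`, `M'` the rows of `M` permuted; all checked by the kernel.
-/

set_option autoImplicit false

noncomputable section

namespace FA.CycloIndex

theorem mailletEntry_eq {p : ℕ} [Fact p.Prime] {m : ℕ} (hm : p = 2 * m + 1) {i j : Fin m} {n : ℕ}
    (h : n < p ∧ n * (j.1 + 1) % p = (i.1 + 1) % p) : mailletEntry p i j = n := by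
  have : NeZero p := ⟨(Fact.out : p.Prime).ne_zero⟩
  have e : ((n : ℕ) : ZMod p) * ((j.1 + 1 : ℕ) : ZMod p) = ((i.1 + 1 : ℕ) : ZMod p) := by
    rw [← Nat.cast_mul]; exact (ZMod.natCast_eq_natCast_iff' _ _ _).mpr h.2
  rw [mailletEntry, ← e, mul_assoc, mul_inv_cancel₀ (halfVal_ne_zero hm j), mul_one, ZMod.val_natCast_of_lt h.1]

theorem natAbs_det_of_cert {m : ℕ} {σ : Fin m → Fin m} (hσ : Function.Bijective σ)
    {M L U : Matrix (Fin m) (Fin m) ℤ} (hL : ∀ i j, i < j → L i j = 0) (hU : ∀ i j, j < i → U i j = 0)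
    (hLU : ∀ i j, ∑ k, L i k * M (σ k) j = U i j) {d : ℕ}
    (hd : (∏ i, L i i).natAbs * d = (∏ i, U i i).natAbs) (h0 : (∏ i, L i i) ≠ 0) : M.det.natAbs = d := by
  have h : L * M.submatrix (Equiv.ofBijective σ hσ) id = U := by
    ext i j
    simp only [Matrix.mul_apply, Matrix.submatrix_apply, Equiv.ofBijective_apply, id_eq, hLU]
  have h1 := congrArg (fun A : Matrix (Fin m) (Fin m) ℤ => A.det.natAbs) h
  rw [Matrix.det_mul, Matrix.det_permute, Matrix.det_of_lowerTriangular L (fun i j hij => hL i j hij),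
    Matrix.det_of_upperTriangular (M := U) (fun i j hij => hU i j hij), Int.natAbs_mul, Int.natAbs_mul] at h1
  rcases Int.units_eq_one_or (Equiv.Perm.sign (Equiv.ofBijective σ hσ)) with hs | hs <;>
    simp only [hs, Units.val_one, Units.val_neg, Int.cast_one, Int.cast_neg, Int.natAbs_neg, Int.natAbs_one,
      one_mul] at h1 <;>
    exact Nat.eq_of_mul_eq_mul_left (Int.natAbs_pos.mpr h0) (h1.trans hd.symm)

theorem natAbs_det_maillet_5 [Fact (Nat.Prime 5)] : (mailletMatrix 5 2).det.natAbs = 5 := by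
  have hM : mailletMatrix 5 2 = !![1, 3;
    2, 1] := by
    have hc : ∀ i j : Fin 2, 0 ≤ (!![1, 3;
    2, 1] : Matrix (Fin 2) (Fin 2) ℤ) i j ∧
        ((!![1, 3;
    2, 1] : Matrix (Fin 2) (Fin 2) ℤ) i j).natAbs < 5 ∧
        ((!![1, 3;
    2, 1] : Matrix (Fin 2) (Fin 2) ℤ) i j).natAbs * (j.1 + 1) % 5 = (i.1 + 1) % 5 := by
      decide +kernel
    ext i j
    rw [mailletMatrix, Matrix.of_apply, mailletEntry_eq (by norm_num) (hc i j).2]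
    exact Int.natAbs_of_nonneg (hc i j).1
  rw [hM]
  exact natAbs_det_of_cert (σ := ![0, 1]) (by decide +kernel)
    (L := !![1, 0;
    -2, 1])
    (U := !![1, 3;
    0, -5])
    (by decide +kernel) (by decide +kernel) (by decide +kernel) (by decide +kernel) (by decide +kernel)

theorem natAbs_det_maillet_7 [Fact (Nat.Prime 7)] : (mailletMatrix 7 3).det.natAbs = 49 := by
  have hM : mailletMatrix 7 3 = !![1, 4, 5;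
    2, 1, 3;
    3, 5, 1] := by
    have hc : ∀ i j : Fin 3, 0 ≤ (!![1, 4, 5;
    2, 1, 3;
    3, 5, 1] : Matrix (Fin 3) (Fin 3) ℤ) i j ∧
        ((!![1, 4, 5;
    2, 1, 3;
    3, 5, 1] : Matrix (Fin 3) (Fin 3) ℤ) i j).natAbs < 7 ∧
        ((!![1, 4, 5;
    2, 1, 3;
    3, 5, 1] : Matrix (Fin 3) (Fin 3) ℤ) i j).natAbs * (j.1 + 1) % 7 = (i.1 + 1) % 7 := by
      decide +kernel
    ext i j
    rw [mailletMatrix, Matrix.of_apply, mailletEntry_eq (by norm_num) (hc i j).2]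
    exact Int.natAbs_of_nonneg (hc i j).1
  rw [hM]
  exact natAbs_det_of_cert (σ := ![0, 1, 2]) (by decide +kernel)
    (L := !![1, 0, 0;
    -2, 1, 0;
    -1, -1, 1])
    (U := !![1, 4, 5;
    0, -7, -7;
    0, 0, -7])
    (by decide +kernel) (by decide +kernel) (by decide +kernel) (by decide +kernel) (by decide +kernel)

theorem natAbs_det_maillet_11 [Fact (Nat.Prime 11)] : (mailletMatrix 11 5).det.natAbs = 14641 := by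
  have hM : mailletMatrix 11 5 = !![1, 6, 4, 3, 9;
    2, 1, 8, 6, 7;
    3, 7, 1, 9, 5;
    4, 2, 5, 1, 3;
    5, 8, 9, 4, 1] := by
    have hc : ∀ i j : Fin 5, 0 ≤ (!![1, 6, 4, 3, 9;
    2, 1, 8, 6, 7;
    3, 7, 1, 9, 5;
    4, 2, 5, 1, 3;
    5, 8, 9, 4, 1] : Matrix (Fin 5) (Fin 5) ℤ) i j ∧
        ((!![1, 6, 4, 3, 9;
    2, 1, 8, 6, 7;
    3, 7, 1, 9, 5;
    4, 2, 5, 1, 3;
    5, 8, 9, 4, 1] : Matrix (Fin 5) (Fin 5) ℤ) i j).natAbs < 11 ∧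
        ((!![1, 6, 4, 3, 9;
    2, 1, 8, 6, 7;
    3, 7, 1, 9, 5;
    4, 2, 5, 1, 3;
    5, 8, 9, 4, 1] : Matrix (Fin 5) (Fin 5) ℤ) i j).natAbs * (j.1 + 1) % 11 = (i.1 + 1) % 11 := by
      decide +kernel
    ext i j
    rw [mailletMatrix, Matrix.of_apply, mailletEntry_eq (by norm_num) (hc i j).2]
    exact Int.natAbs_of_nonneg (hc i j).1
  rw [hM]
  exact natAbs_det_of_cert (σ := ![0, 1, 2, 3, 4]) (by decide +kernel)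
    (L := !![1, 0, 0, 0, 0;
    -2, 1, 0, 0, 0;
    -1, -1, 1, 0, 0;
    1, -1, -1, 1, 0;
    -1, 0, 0, -1, 1])
    (U := !![1, 6, 4, 3, 9;
    0, -11, 0, 0, -11;
    0, 0, -11, 0, -11;
    0, 0, 0, -11, 0;
    0, 0, 0, 0, -11])
    (by decide +kernel) (by decide +kernel) (by decide +kernel) (by decide +kernel) (by decide +kernel)

theorem natAbs_det_maillet_13 [Fact (Nat.Prime 13)] : (mailletMatrix 13 6).det.natAbs = 371293 := by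
  have hM : mailletMatrix 13 6 = !![1, 7, 9, 10, 8, 11;
    2, 1, 5, 7, 3, 9;
    3, 8, 1, 4, 11, 7;
    4, 2, 10, 1, 6, 5;
    5, 9, 6, 11, 1, 3;
    6, 3, 2, 8, 9, 1] := by
    have hc : ∀ i j : Fin 6, 0 ≤ (!![1, 7, 9, 10, 8, 11;
    2, 1, 5, 7, 3, 9;
    3, 8, 1, 4, 11, 7;
    4, 2, 10, 1, 6, 5;
    5, 9, 6, 11, 1, 3;
    6, 3, 2, 8, 9, 1] : Matrix (Fin 6) (Fin 6) ℤ) i j ∧
        ((!![1, 7, 9, 10, 8, 11;
    2, 1, 5, 7, 3, 9;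
    3, 8, 1, 4, 11, 7;
    4, 2, 10, 1, 6, 5;
    5, 9, 6, 11, 1, 3;
    6, 3, 2, 8, 9, 1] : Matrix (Fin 6) (Fin 6) ℤ) i j).natAbs < 13 ∧
        ((!![1, 7, 9, 10, 8, 11;
    2, 1, 5, 7, 3, 9;
    3, 8, 1, 4, 11, 7;
    4, 2, 10, 1, 6, 5;
    5, 9, 6, 11, 1, 3;
    6, 3, 2, 8, 9, 1] : Matrix (Fin 6) (Fin 6) ℤ) i j).natAbs * (j.1 + 1) % 13 = (i.1 + 1) % 13 := by
      decide +kernel
    ext i j
    rw [mailletMatrix, Matrix.of_apply, mailletEntry_eq (by norm_num) (hc i j).2]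
    exact Int.natAbs_of_nonneg (hc i j).1
  rw [hM]
  exact natAbs_det_of_cert (σ := ![0, 1, 2, 3, 4, 5]) (by decide +kernel)
    (L := !![1, 0, 0, 0, 0, 0;
    -2, 1, 0, 0, 0, 0;
    -1, -1, 1, 0, 0, 0;
    0, -2, 0, 1, 0, 0;
    0, -1, -1, 0, 1, 0;
    1, -2, -1, 0, 0, 1])
    (U := !![1, 7, 9, 10, 8, 11;
    0, -13, -13, -13, -13, -13;
    0, 0, -13, -13, 0, -13;
    0, 0, 0, -13, 0, -13;
    0, 0, 0, 0, -13, -13;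
    0, 0, 0, 0, 0, -13])
    (by decide +kernel) (by decide +kernel) (by decide +kernel) (by decide +kernel) (by decide +kernel)

theorem natAbs_det_maillet_17 [Fact (Nat.Prime 17)] : (mailletMatrix 17 8).det.natAbs = 410338673 := by
  have hM : mailletMatrix 17 8 = !![1, 9, 6, 13, 7, 3, 5, 15;
    2, 1, 12, 9, 14, 6, 10, 13;
    3, 10, 1, 5, 4, 9, 15, 11;
    4, 2, 7, 1, 11, 12, 3, 9;
    5, 11, 13, 14, 1, 15, 8, 7;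
    6, 3, 2, 10, 8, 1, 13, 5;
    7, 12, 8, 6, 15, 4, 1, 3;
    8, 4, 14, 2, 5, 7, 6, 1] := by
    have hc : ∀ i j : Fin 8, 0 ≤ (!![1, 9, 6, 13, 7, 3, 5, 15;
    2, 1, 12, 9, 14, 6, 10, 13;
    3, 10, 1, 5, 4, 9, 15, 11;
    4, 2, 7, 1, 11, 12, 3, 9;
    5, 11, 13, 14, 1, 15, 8, 7;
    6, 3, 2, 10, 8, 1, 13, 5;
    7, 12, 8, 6, 15, 4, 1, 3;
    8, 4, 14, 2, 5, 7, 6, 1] : Matrix (Fin 8) (Fin 8) ℤ) i j ∧
        ((!![1, 9, 6, 13, 7, 3, 5, 15;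
    2, 1, 12, 9, 14, 6, 10, 13;
    3, 10, 1, 5, 4, 9, 15, 11;
    4, 2, 7, 1, 11, 12, 3, 9;
    5, 11, 13, 14, 1, 15, 8, 7;
    6, 3, 2, 10, 8, 1, 13, 5;
    7, 12, 8, 6, 15, 4, 1, 3;
    8, 4, 14, 2, 5, 7, 6, 1] : Matrix (Fin 8) (Fin 8) ℤ) i j).natAbs < 17 ∧
        ((!![1, 9, 6, 13, 7, 3, 5, 15;
    2, 1, 12, 9, 14, 6, 10, 13;
    3, 10, 1, 5, 4, 9, 15, 11;
    4, 2, 7, 1, 11, 12, 3, 9;
    5, 11, 13, 14, 1, 15, 8, 7;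
    6, 3, 2, 10, 8, 1, 13, 5;
    7, 12, 8, 6, 15, 4, 1, 3;
    8, 4, 14, 2, 5, 7, 6, 1] : Matrix (Fin 8) (Fin 8) ℤ) i j).natAbs * (j.1 + 1) % 17 = (i.1 + 1) % 17 := by
      decide +kernel
    ext i j
    rw [mailletMatrix, Matrix.of_apply, mailletEntry_eq (by norm_num) (hc i j).2]
    exact Int.natAbs_of_nonneg (hc i j).1
  rw [hM]
  exact natAbs_det_of_cert (σ := ![0, 1, 2, 5, 4, 6, 3, 7]) (by decide +kernel)
    (L := !![1, 0, 0, 0, 0, 0, 0, 0;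
    -2, 1, 0, 0, 0, 0, 0, 0;
    -1, -1, 1, 0, 0, 0, 0, 0;
    2, -1, -2, 1, 0, 0, 0, 0;
    0, -1, -1, 0, 1, 0, 0, 0;
    1, -1, -2, 0, 0, 1, 0, 0;
    1, -1, -1, 0, 0, 0, 1, 0;
    2, -1, 0, 0, -1, -1, 1, 1])
    (U := !![1, 9, 6, 13, 7, 3, 5, 15;
    0, -17, 0, -17, 0, 0, 0, -17;
    0, 0, -17, -17, -17, 0, 0, -17;
    0, 0, 0, 17, 0, -17, -17, 0;
    0, 0, 0, 0, -17, 0, -17, -17;
    0, 0, 0, 0, 0, -17, -34, -17;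
    0, 0, 0, 0, 0, 0, -17, 0;
    0, 0, 0, 0, 0, 0, 0, 17])
    (by decide +kernel) (by decide +kernel) (by decide +kernel) (by decide +kernel) (by decide +kernel)

theorem natAbs_det_maillet_19 [Fact (Nat.Prime 19)] : (mailletMatrix 19 9).det.natAbs = 16983563041 := by
  have hM : mailletMatrix 19 9 = !![1, 10, 13, 5, 4, 16, 11, 12, 17;
    2, 1, 7, 10, 8, 13, 3, 5, 15;
    3, 11, 1, 15, 12, 10, 14, 17, 13;
    4, 2, 14, 1, 16, 7, 6, 10, 11;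
    5, 12, 8, 6, 1, 4, 17, 3, 9;
    6, 3, 2, 11, 5, 1, 9, 15, 7;
    7, 13, 15, 16, 9, 17, 1, 8, 5;
    8, 4, 9, 2, 13, 14, 12, 1, 3;
    9, 14, 3, 7, 17, 11, 4, 13, 1] := by
    have hc : ∀ i j : Fin 9, 0 ≤ (!![1, 10, 13, 5, 4, 16, 11, 12, 17;
    2, 1, 7, 10, 8, 13, 3, 5, 15;
    3, 11, 1, 15, 12, 10, 14, 17, 13;
    4, 2, 14, 1, 16, 7, 6, 10, 11;
    5, 12, 8, 6, 1, 4, 17, 3, 9;
    6, 3, 2, 11, 5, 1, 9, 15, 7;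
    7, 13, 15, 16, 9, 17, 1, 8, 5;
    8, 4, 9, 2, 13, 14, 12, 1, 3;
    9, 14, 3, 7, 17, 11, 4, 13, 1] : Matrix (Fin 9) (Fin 9) ℤ) i j ∧
        ((!![1, 10, 13, 5, 4, 16, 11, 12, 17;
    2, 1, 7, 10, 8, 13, 3, 5, 15;
    3, 11, 1, 15, 12, 10, 14, 17, 13;
    4, 2, 14, 1, 16, 7, 6, 10, 11;
    5, 12, 8, 6, 1, 4, 17, 3, 9;
    6, 3, 2, 11, 5, 1, 9, 15, 7;
    7, 13, 15, 16, 9, 17, 1, 8, 5;
    8, 4, 9, 2, 13, 14, 12, 1, 3;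
    9, 14, 3, 7, 17, 11, 4, 13, 1] : Matrix (Fin 9) (Fin 9) ℤ) i j).natAbs < 19 ∧
        ((!![1, 10, 13, 5, 4, 16, 11, 12, 17;
    2, 1, 7, 10, 8, 13, 3, 5, 15;
    3, 11, 1, 15, 12, 10, 14, 17, 13;
    4, 2, 14, 1, 16, 7, 6, 10, 11;
    5, 12, 8, 6, 1, 4, 17, 3, 9;
    6, 3, 2, 11, 5, 1, 9, 15, 7;
    7, 13, 15, 16, 9, 17, 1, 8, 5;
    8, 4, 9, 2, 13, 14, 12, 1, 3;
    9, 14, 3, 7, 17, 11, 4, 13, 1] : Matrix (Fin 9) (Fin 9) ℤ) i j).natAbs * (j.1 + 1) % 19 = (i.1 + 1) % 19 := by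
      decide +kernel
    ext i j
    rw [mailletMatrix, Matrix.of_apply, mailletEntry_eq (by norm_num) (hc i j).2]
    exact Int.natAbs_of_nonneg (hc i j).1
  rw [hM]
  exact natAbs_det_of_cert (σ := ![0, 1, 2, 3, 4, 7, 6, 5, 8]) (by decide +kernel)
    (L := !![1, 0, 0, 0, 0, 0, 0, 0, 0;
    -2, 1, 0, 0, 0, 0, 0, 0, 0;
    -1, -1, 1, 0, 0, 0, 0, 0, 0;
    0, -2, 0, 1, 0, 0, 0, 0, 0;
    0, 1, -1, -1, 1, 0, 0, 0, 0;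
    1, 0, 0, -1, -1, 1, 0, 0, 0;
    0, -1, 0, 0, -1, 0, 1, 0, 0;
    1, -1, 0, 0, -1, 0, 0, 1, 0;
    0, 2, -1, 0, 1, -1, -1, 0, 1])
    (U := !![1, 10, 13, 5, 4, 16, 11, 12, 17;
    0, -19, -19, 0, 0, -19, -19, -19, -19;
    0, 0, -19, 0, 0, -19, 0, 0, -19;
    0, 0, 0, -19, 0, -19, 0, 0, -19;
    0, 0, 0, 0, -19, 0, 0, -19, 0;
    0, 0, 0, 0, 0, 19, 0, 0, 0;
    0, 0, 0, 0, 0, 0, -19, 0, -19;
    0, 0, 0, 0, 0, 0, 0, 19, 0;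
    0, 0, 0, 0, 0, 0, 0, 0, 19])
    (by decide +kernel) (by decide +kernel) (by decide +kernel) (by decide +kernel) (by decide +kernel)

theorem natAbs_det_maillet_23 [Fact (Nat.Prime 23)] : (mailletMatrix 23 11).det.natAbs = 124279533640947 := by
  have hM : mailletMatrix 23 11 = !![1, 12, 8, 6, 14, 4, 10, 3, 18, 7, 21;
    2, 1, 16, 12, 5, 8, 20, 6, 13, 14, 19;
    3, 13, 1, 18, 19, 12, 7, 9, 8, 21, 17;
    4, 2, 9, 1, 10, 16, 17, 12, 3, 5, 15;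
    5, 14, 17, 7, 1, 20, 4, 15, 21, 12, 13;
    6, 3, 2, 13, 15, 1, 14, 18, 16, 19, 11;
    7, 15, 10, 19, 6, 5, 1, 21, 11, 3, 9;
    8, 4, 18, 2, 20, 9, 11, 1, 6, 10, 7;
    9, 16, 3, 8, 11, 13, 21, 4, 1, 17, 5;
    10, 5, 11, 14, 2, 17, 8, 7, 19, 1, 3;
    11, 17, 19, 20, 16, 21, 18, 10, 14, 8, 1] := by
    have hc : ∀ i j : Fin 11, 0 ≤ (!![1, 12, 8, 6, 14, 4, 10, 3, 18, 7, 21;
    2, 1, 16, 12, 5, 8, 20, 6, 13, 14, 19;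
    3, 13, 1, 18, 19, 12, 7, 9, 8, 21, 17;
    4, 2, 9, 1, 10, 16, 17, 12, 3, 5, 15;
    5, 14, 17, 7, 1, 20, 4, 15, 21, 12, 13;
    6, 3, 2, 13, 15, 1, 14, 18, 16, 19, 11;
    7, 15, 10, 19, 6, 5, 1, 21, 11, 3, 9;
    8, 4, 18, 2, 20, 9, 11, 1, 6, 10, 7;
    9, 16, 3, 8, 11, 13, 21, 4, 1, 17, 5;
    10, 5, 11, 14, 2, 17, 8, 7, 19, 1, 3;
    11, 17, 19, 20, 16, 21, 18, 10, 14, 8, 1] : Matrix (Fin 11) (Fin 11) ℤ) i j ∧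
        ((!![1, 12, 8, 6, 14, 4, 10, 3, 18, 7, 21;
    2, 1, 16, 12, 5, 8, 20, 6, 13, 14, 19;
    3, 13, 1, 18, 19, 12, 7, 9, 8, 21, 17;
    4, 2, 9, 1, 10, 16, 17, 12, 3, 5, 15;
    5, 14, 17, 7, 1, 20, 4, 15, 21, 12, 13;
    6, 3, 2, 13, 15, 1, 14, 18, 16, 19, 11;
    7, 15, 10, 19, 6, 5, 1, 21, 11, 3, 9;
    8, 4, 18, 2, 20, 9, 11, 1, 6, 10, 7;
    9, 16, 3, 8, 11, 13, 21, 4, 1, 17, 5;
    10, 5, 11, 14, 2, 17, 8, 7, 19, 1, 3;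
    11, 17, 19, 20, 16, 21, 18, 10, 14, 8, 1] : Matrix (Fin 11) (Fin 11) ℤ) i j).natAbs < 23 ∧
        ((!![1, 12, 8, 6, 14, 4, 10, 3, 18, 7, 21;
    2, 1, 16, 12, 5, 8, 20, 6, 13, 14, 19;
    3, 13, 1, 18, 19, 12, 7, 9, 8, 21, 17;
    4, 2, 9, 1, 10, 16, 17, 12, 3, 5, 15;
    5, 14, 17, 7, 1, 20, 4, 15, 21, 12, 13;
    6, 3, 2, 13, 15, 1, 14, 18, 16, 19, 11;
    7, 15, 10, 19, 6, 5, 1, 21, 11, 3, 9;
    8, 4, 18, 2, 20, 9, 11, 1, 6, 10, 7;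
    9, 16, 3, 8, 11, 13, 21, 4, 1, 17, 5;
    10, 5, 11, 14, 2, 17, 8, 7, 19, 1, 3;
    11, 17, 19, 20, 16, 21, 18, 10, 14, 8, 1] : Matrix (Fin 11) (Fin 11) ℤ) i j).natAbs * (j.1 + 1) % 23 = (i.1 + 1) % 23 := by
      decide +kernel
    ext i j
    rw [mailletMatrix, Matrix.of_apply, mailletEntry_eq (by norm_num) (hc i j).2]
    exact Int.natAbs_of_nonneg (hc i j).1
  rw [hM]
  exact natAbs_det_of_cert (σ := ![0, 1, 2, 3, 4, 5, 7, 8, 6, 9, 10]) (by decide +kernel)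
    (L := !![1, 0, 0, 0, 0, 0, 0, 0, 0, 0, 0;
    -2, 1, 0, 0, 0, 0, 0, 0, 0, 0, 0;
    -1, -1, 1, 0, 0, 0, 0, 0, 0, 0, 0;
    1, -1, -1, 1, 0, 0, 0, 0, 0, 0, 0;
    -1, 0, 0, -1, 1, 0, 0, 0, 0, 0, 0;
    1, 0, -1, -1, 0, 1, 0, 0, 0, 0, 0;
    -1, 0, 1, -1, 0, -1, 1, 0, 0, 0, 0;
    -1, 1, 1, -1, -1, -2, 1, 1, 0, 0, 0;
    0, 0, 0, 1, -1, -1, 0, 0, 1, 0, 0;
    3, -1, -1, 3, -3, -2, -1, -1, 2, 2, 0;
    -1, -1, -1, -1, 1, 2, -1, -1, -2, -2, 4])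
    (U := !![1, 12, 8, 6, 14, 4, 10, 3, 18, 7, 21;
    0, -23, 0, 0, -23, 0, 0, 0, -23, 0, -23;
    0, 0, -23, 0, 0, 0, -23, 0, -23, 0, -23;
    0, 0, 0, -23, 0, 0, 0, 0, 0, -23, 0;
    0, 0, 0, 0, -23, 0, -23, 0, 0, 0, -23;
    0, 0, 0, 0, 0, -23, 0, 0, 23, 0, 0;
    0, 0, 0, 0, 0, 0, -23, -23, -23, 0, -23;
    0, 0, 0, 0, 0, 0, 0, -46, -46, 0, -23;
    0, 0, 0, 0, 0, 0, 0, 0, -23, -23, 0;
    0, 0, 0, 0, 0, 0, 0, 0, 0, -92, 23;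
    0, 0, 0, 0, 0, 0, 0, 0, 0, 0, -69])
    (by decide +kernel) (by decide +kernel) (by decide +kernel) (by decide +kernel) (by decide +kernel)

end FA.CycloIndex
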