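import Fermat.Agent.CycloIndex.Places
import Fermat.Agent.CycloIndex.Discriminant
import Fermat.Agent.CycloIndex.Determinant
import Fermat.Agent.Regular.CyclotomicUnitIndex
import Fermat.Agent.Regular.MinusFormula

/-!
# Kummer's index theorem: `[E : C] = h⁺`

The regulator of the cyclotomic units is `2^(m-1) ∏ |S_χ|` and the class number formula of the real field
gives `R⁺ h⁺ = ∏ |S_χ|`, the products over the nontrivial even characters, `m = (p-1)/2`.
-/

set_option autoImplicit false

noncomputable section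

open NumberField FA.Ext Finset Matrix
open scoped Classical ComplexConjugate

namespace FA.CycloIndex

variable (p : ℕ) [Fact p.Prime] (K : Type*) [Field K] [NumberField K] [IsCyclotomicExtension {p} ℚ K]

/-- The even characters modulo `p`. -/
abbrev EvenChar : Type := {χ : DirichletCharacter ℂ p // χ.Even}

/-- `∑ log |1 - ζ^d| χ(d)` over the places. -/
def charSum (t : EvenChar p) : ℂ := ∑ w : InfinitePlace K, (logDist p (rep p w) : ℂ) * t.1 (rep p w : ZMod p)

variable {p K}

theorem sum_units_eq {M : Type*} [AddCommMonoid M] (F : ZMod p → M) (h0 : F 0 = 0) :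
    ∑ d : (ZMod p)ˣ, F (d : ZMod p) = ∑ a : ZMod p, F a := by
  rw [← Finset.sum_erase (f := F) univ h0]
  refine Finset.sum_bij (fun d _ => (d : ZMod p)) (fun d _ => mem_erase.mpr ⟨d.ne_zero, mem_univ _⟩)
    (fun d _ e _ h => Units.ext h) (fun a ha => ⟨Units.mk0 a (mem_erase.mp ha).1, mem_univ _, rfl⟩) fun d _ => rfl

theorem two_mul_card_places (hp2 : p ≠ 2) : 2 * Fintype.card (InfinitePlace K) = p - 1 := by
  have h := sum_eq_two_mul_sum_places (p := p) (K := K) hp2 (fun _ => (1 : ℕ)) fun _ => rfl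
  simp only [Finset.sum_const, Finset.card_univ, smul_eq_mul, mul_one] at h
  rw [← h, ZMod.card_units p]

variable (K) in
theorem sum_places_eq_zero (hp2 : p ≠ 2) {χ : DirichletCharacter ℂ p} (hev : χ.Even) (hne : χ ≠ 1) :
    ∑ w : InfinitePlace K, χ (rep p w : ZMod p) = 0 := by
  have h := sum_eq_two_mul_sum_places (p := p) (K := K) hp2 (fun d => χ (d : ZMod p)) fun d => by
    rw [Units.val_neg, hev.eval_neg]
  rw [sum_units_eq (fun a => χ a) (MulChar.map_zero _), MulChar.sum_eq_zero_of_ne_one hne] at h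
  exact (mul_eq_zero.mp h.symm).resolve_left two_ne_zero

omit [Fact p.Prime] in
theorem even_one : (1 : DirichletCharacter ℂ p).Even := MulChar.one_apply isUnit_one.neg

theorem even_inv {χ : DirichletCharacter ℂ p} (h : χ.Even) : (χ⁻¹).Even := by
  show χ⁻¹ (-1) = 1
  rw [MulChar.inv_apply', inv_neg_one]
  exact h

theorem orthogonality (hp2 : p ≠ 2) (s t : EvenChar p) :
    ∑ w : InfinitePlace K, conj (s.1 (rep p w : ZMod p)) * t.1 (rep p w : ZMod p) =
      if s = t then (Fintype.card (InfinitePlace K) : ℂ) else 0 := by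
  simp only [starRingEnd_apply, MulChar.star_apply']
  split_ifs with h
  · subst h
    simp only [← MulChar.mul_apply, inv_mul_cancel, MulChar.one_apply (Units.isUnit _), sum_const, card_univ,
      nsmul_eq_mul, mul_one]
  · simp only [← MulChar.mul_apply]
    refine sum_places_eq_zero K hp2 ?_ fun e => h (Subtype.ext (inv_mul_eq_one.mp e))
    show (s.1⁻¹ * t.1) (-1) = 1
    rw [MulChar.mul_apply, even_inv s.2, t.2, one_mul]

variable (p) in
theorem two_mul_card_evenChar (hp2 : p ≠ 2) : 2 * Fintype.card (EvenChar p) = p - 1 := by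
  have hp : p.Prime := Fact.out
  have : NeZero p := ⟨hp.ne_zero⟩
  have hne : (-1 : ZMod p) ≠ 1 := by
    intro e
    have h2 : ((2 : ℕ) : ZMod p) = 0 := by push_cast; linear_combination -e
    rw [ZMod.natCast_eq_zero_iff] at h2
    have := Nat.le_of_dvd two_pos h2
    have := hp.two_le
    omega
  have hsum := DirichletCharacter.sum_characters_eq_zero ℂ hne
  have hval : ∀ χ : DirichletCharacter ℂ p, χ (-1) = if χ.Even then (1 : ℂ) else -1 := fun χ => by
    rcases DirichletCharacter.even_or_odd χ with h | h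
    · rw [if_pos h, h]
    · rw [if_neg (fun h' => by
        have h1 : χ (-1) = 1 := h'
        have h2 : χ (-1) = -1 := h
        rw [h1] at h2
        norm_num at h2), h]
  rw [Finset.sum_congr rfl fun χ _ => hval χ, Finset.sum_ite, sum_const, sum_const, nsmul_eq_mul, nsmul_eq_mul,
    mul_one, mul_neg_one, ← sub_eq_add_neg, sub_eq_zero, Nat.cast_inj] at hsum
  have hall : (univ : Finset (DirichletCharacter ℂ p)).card = p - 1 := by
    rw [card_univ, ← Nat.card_eq_fintype_card, DirichletCharacter.card_eq_totient_of_hasEnoughRootsOfUnity ℂ p,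
      Nat.totient_prime hp]
  have hadd := Finset.card_filter_add_card_filter_not (s := (univ : Finset (DirichletCharacter ℂ p))) (fun χ => χ.Even)
  rw [← hsum, hall] at hadd
  rw [Fintype.card_subtype, two_mul, hadd]

variable (K) in
theorem translate_sum (hp2 : p ≠ 2) (a : (ZMod p)ˣ) (t : EvenChar p) :
    ∑ w : InfinitePlace K, (logDist p (a * rep p w) : ℂ) * t.1 (rep p w : ZMod p) =
      conj (t.1 (a : ZMod p)) * charSum p K t := by
  have h1 := sum_eq_two_mul_sum_places (p := p) (K := K) hp2
    (fun d => (logDist p (a * d) : ℂ) * t.1 (d : ZMod p)) fun d => by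
      rw [mul_neg, logDist_neg, Units.val_neg, t.2.eval_neg]
  have h2 := sum_eq_two_mul_sum_places (p := p) (K := K) hp2
    (fun d => (logDist p d : ℂ) * t.1 (d : ZMod p)) fun d => by rw [logDist_neg, Units.val_neg, t.2.eval_neg]
  have h3 : ∑ d : (ZMod p)ˣ, (logDist p (a * d) : ℂ) * t.1 (d : ZMod p) =
      conj (t.1 (a : ZMod p)) * ∑ d : (ZMod p)ˣ, (logDist p d : ℂ) * t.1 (d : ZMod p) := by
    rw [mul_sum]
    refine Fintype.sum_equiv (Equiv.mulLeft a) _ _ fun d => ?_
    rw [Equiv.coe_mulLeft, Units.val_mul, map_mul]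
    have e : conj (t.1 (a : ZMod p)) * t.1 (a : ZMod p) = 1 := by
      rw [starRingEnd_apply, MulChar.star_apply', ← MulChar.mul_apply, inv_mul_cancel, MulChar.one_apply a.isUnit]
    linear_combination (-((logDist p (a * d) : ℂ) * t.1 (d : ZMod p))) * e
  rw [h1, h2, mul_left_comm] at h3
  exact mul_left_cancel₀ two_ne_zero h3

theorem place_cycU (d : (ZMod p)ˣ) {a : ℕ} (au : (ZMod p)ˣ) (hau : (a : ZMod p) = (au : ZMod p))
    (ha : (a : ZMod p) ≠ 0) :
    Real.log (place p K d ((FA.Regular.cycU p K ha : 𝓞 K) : K)) = logDist p (au * d) - logDist p d := by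
  have hP : p.Prime := Fact.out
  have : NeZero p := ⟨hP.ne_zero⟩
  set b := (d : ZMod p).val
  have hb : (b : ZMod p) = (d : ZMod p) := ZMod.natCast_zmod_val _
  have hprod : (zetaInt p K ^ b - 1) * sigma p K d (FA.Regular.cycU p K ha : 𝓞 K) = zetaInt p K ^ (b * a) - 1 := by
    rw [FA.Regular.cycU, IsUnit.unit_spec, map_sum, Finset.sum_congr rfl fun i _ => by rw [map_pow, sigma_zetaInt],
      mul_geom_sum, ← pow_mul]
  have hn := congrArg (fun y : 𝓞 K => ‖stdEmb p K (y : K)‖) hprod
  simp only [RingOfIntegers.coe_eq_algebraMap, map_mul, norm_mul] at hn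
  simp only [← RingOfIntegers.coe_eq_algebraMap] at hn
  have hne : ∀ (j : ℕ) (e : (ZMod p)ˣ), (j : ZMod p) = (e : ZMod p) →
      ‖stdEmb p K ((zetaInt p K ^ j - 1 : 𝓞 K) : K)‖ ≠ 0 := fun j e he => by
    rw [norm_ne_zero_iff, map_ne_zero, RingOfIntegers.coe_ne_zero_iff, sub_ne_zero]
    intro h
    have := ((zetaInt_spec p K).pow_eq_one_iff_dvd j).mp h
    exact e.ne_zero (he ▸ (ZMod.natCast_eq_zero_iff _ _).mpr this)
  have hba : ((b * a : ℕ) : ZMod p) = ((au * d : (ZMod p)ˣ) : ZMod p) := by
    rw [Nat.cast_mul, hb, hau, Units.val_mul, mul_comm]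
  rw [place_coe, ← log_norm_zeta_pow_sub_one (K := K) hba, ← log_norm_zeta_pow_sub_one (K := K) hb, ← hn,
    Real.log_mul (hne b d hb) ?_]
  · ring
  · intro h0
    rw [h0, mul_zero] at hn
    exact hne (b * a) _ hba hn.symm

variable (K)

/-- A generating family of cyclotomic units. -/
theorem exists_family (hp5 : 5 ≤ p) : ∃ u : Fin (Units.rank K) → (𝓞 K)ˣ,
    Subgroup.closure (Set.range u) ⊔ Units.torsion K = FA.Regular.cycloUnits p K ∧
      Units.regOfFamily u = 2 ^ Units.rank K * ∏ t ∈ univ.erase (⟨1, even_one⟩ : EvenChar p), ‖charSum p K t‖ := by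
  have hp : p.Prime := Fact.out
  have : NeZero p := ⟨hp.ne_zero⟩
  have hp2 : p ≠ 2 := by omega
  set w₁ : InfinitePlace K := place p K 1 with hw₁
  have hcardW : Fintype.card {w : InfinitePlace K // w ≠ w₁} = Fintype.card (Fin (Units.rank K)) := by
    rw [Fintype.card_fin, Fintype.card_subtype_compl, Fintype.card_subtype_eq]
    rfl
  obtain ⟨e⟩ := Fintype.truncEquivOfCardEq hcardW |>.nonempty
  have hane : ∀ d : (ZMod p)ˣ, (((d : ZMod p).val : ℕ) : ZMod p) ≠ 0 := fun d => by
    rw [ZMod.natCast_zmod_val]; exact d.ne_zero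
  set u : Fin (Units.rank K) → (𝓞 K)ˣ := fun j => FA.Regular.cycU p K (hane (rep p (e.symm j).1)) with hu
  refine ⟨u, ?_, ?_⟩
  · refine le_antisymm (sup_le ?_ le_sup_left) (sup_le le_sup_right ?_)
    · rw [Subgroup.closure_le]
      rintro - ⟨j, rfl⟩
      exact FA.Regular.cycU_mem_cycloUnits p K _
    rw [Subgroup.closure_le]
    rintro - ⟨⟨a, ha⟩, rfl⟩
    show FA.Regular.cycU p K ha ∈ Subgroup.closure (Set.range u) ⊔ Units.torsion K
    set au : (ZMod p)ˣ := Units.mk0 (a : ZMod p) ha
    set b : (ZMod p)ˣ := if place p K au = w₁ then 1 else rep p (place p K au) with hb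
    have hab : au = b ∨ au = -b := by
      rw [hb]
      split_ifs with h
      · exact place_eq_iff.mp h
      · exact place_eq_iff.mp (place_rep _).symm
    have hz := (zetaInt_spec p K)
    have hne1 : zetaInt p K - 1 ≠ 0 := sub_ne_zero.mpr (hz.ne_one hp.one_lt)
    have hgeom : ∀ (n : ℕ) (hn : (n : ZMod p) ≠ 0),
        (zetaInt p K - 1) * (FA.Regular.cycU p K hn : 𝓞 K) = zetaInt p K ^ n - 1 := fun n hn => by
      rw [FA.Regular.cycU, IsUnit.unit_spec, mul_geom_sum]
    have hpow : ∀ m n : ℕ, (m : ZMod p) = (n : ZMod p) → zetaInt p K ^ m = zetaInt p K ^ n := fun m n h => by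
      rw [pow_eq_pow_mod m hz.pow_eq_one, pow_eq_pow_mod n hz.pow_eq_one, (ZMod.natCast_eq_natCast_iff' m n p).mp h]
    -- the unit of `b`
    have hmem : FA.Regular.cycU p K (hane b) ∈ Subgroup.closure (Set.range u) ⊔ Units.torsion K := by
      rcases eq_or_ne (place p K au) w₁ with h | h
      · have e1 : FA.Regular.cycU p K (hane b) = 1 := by
          refine Units.ext (mul_left_cancel₀ hne1 ?_)
          rw [hgeom, Units.val_one, mul_one, hpow _ 1 (by rw [ZMod.natCast_zmod_val, hb, if_pos h]; simp), pow_one]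
        rw [e1]
        exact one_mem _
      · refine Subgroup.mem_sup_left (Subgroup.subset_closure ⟨e ⟨_, h⟩, ?_⟩)
        refine Units.ext (mul_left_cancel₀ hne1 ?_)
        rw [hu, hgeom, hgeom]
        congr 1
        exact hpow _ _ (by rw [Equiv.symm_apply_apply, hb, if_neg h])
    rcases hab with h | h
    · have e1 : FA.Regular.cycU p K ha = FA.Regular.cycU p K (hane b) := by
        refine Units.ext (mul_left_cancel₀ hne1 ?_)
        rw [hgeom, hgeom, hpow a (b : ZMod p).val (by rw [ZMod.natCast_zmod_val, ← h]; rfl)]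
      exact e1 ▸ hmem
    · obtain ⟨t, ht⟩ := ((hz.isUnit hp.ne_zero).pow a).neg
      have e1 : FA.Regular.cycU p K ha = t * FA.Regular.cycU p K (hane b) := by
        refine Units.ext (mul_left_cancel₀ hne1 ?_)
        have hone : zetaInt p K ^ a * zetaInt p K ^ (b : ZMod p).val = 1 := by
          rw [← pow_add, hpow _ 0 (by
            rw [Nat.cast_add, ZMod.natCast_zmod_val, Nat.cast_zero, show (a : ZMod p) = (au : ZMod p) from rfl, h,
              Units.val_neg, neg_add_cancel]), pow_zero]
        rw [hgeom, Units.val_mul, ht, mul_left_comm, hgeom]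
        linear_combination hone
      rw [e1]
      refine mul_mem (Subgroup.mem_sup_right ?_) hmem
      refine (CommGroup.mem_torsion (G := (𝓞 K)ˣ) t).mpr (isOfFinOrder_iff_pow_eq_one.mpr
        ⟨2 * p, by omega, Units.ext ?_⟩)
      rw [Units.val_pow_eq_pow_val, ht, pow_mul, neg_sq, ← pow_mul, ← pow_mul, show a * (2 * p) = p * (2 * a) by ring,
        pow_mul, hz.pow_eq_one, one_pow, Units.val_one]
  -- the determinant
  set A : Matrix (InfinitePlace K) (InfinitePlace K) ℝ := of fun i w =>
    if i = w₁ then 1 else logDist p (rep p i * rep p w) - logDist p (rep p w) with hA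
  have hcplx : ∀ w : InfinitePlace K, (w.mult : ℝ) = 2 := fun w => by
    have : IsTotallyComplex K := IsCyclotomicExtension.Rat.isTotallyComplex (n := p) K (by omega)
    rw [InfinitePlace.mult, if_neg (InfinitePlace.not_isReal_iff_isComplex.mpr (IsTotallyComplex.isComplex w))]
    norm_num
  have hM := Units.finrank_mul_regOfFamily_eq_det u w₁ e
  have hMA : (of (fun i w : InfinitePlace K =>
      if h : i = w₁ then (w.mult : ℝ) else w.mult * (w (u (e ⟨i, h⟩) : K)).log)) = (2 : ℝ) • A := by
    ext i w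
    rw [Matrix.smul_apply, hA, of_apply, of_apply, hcplx, smul_eq_mul]
    by_cases h : i = w₁
    · rw [dif_pos h, if_pos h, mul_one]
    · rw [dif_neg h, if_neg h]
      congr 1
      conv_lhs => rw [← place_rep (p := p) w]
      exact place_cycU (rep p w) (rep p i) (by rw [Equiv.symm_apply_apply, ZMod.natCast_zmod_val]) _
  have hrep1 : ∀ t : EvenChar p, t.1 (rep p w₁ : ZMod p) = 1 := fun t => by
    rcases place_eq_iff.mp (place_rep (p := p) w₁) with h | h
    · rw [h, Units.val_one, map_one]
    · rw [h, Units.val_neg, Units.val_one]; exact t.2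
  have hcard : Fintype.card (InfinitePlace K) = Fintype.card (EvenChar p) := by
    have := two_mul_card_places (K := K) hp2
    have := two_mul_card_evenChar p hp2
    omega
  obtain ⟨e'⟩ := Fintype.truncEquivOfCardEq hcard |>.nonempty
  have hdet := abs_det_eq_card_mul_prod (t₀ := (⟨1, even_one⟩ : EvenChar p)) e' A
    (fun w t => t.1 (rep p w : ZMod p)) (charSum p K) (w₀ := w₁) (fun w => if_pos rfl)
    (fun w => MulChar.one_apply (Units.isUnit _)) hrep1
    (fun t ht => sum_places_eq_zero K hp2 t.2 fun h => ht (Subtype.ext h))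
    (fun i j => orthogonality hp2 i j) (fun i hi t => by
      simp only [hA, of_apply, if_neg hi, Complex.ofReal_sub, sub_mul, Finset.sum_sub_distrib,
        translate_sum K hp2 (rep p i) t]
      rw [charSum, one_mul])
  rw [hMA, det_smul, abs_mul, hdet, abs_pow, abs_two,
    show Module.finrank ℚ K = 2 * Fintype.card (InfinitePlace K) by
      rw [IsCyclotomicExtension.Rat.finrank p K, Nat.totient_prime hp, two_mul_card_places hp2]] at hM
  have hpos : Fintype.card (InfinitePlace K) = Units.rank K + 1 := by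
    have : 0 < Fintype.card (InfinitePlace K) := Fintype.card_pos
    rw [Units.rank]; omega
  rw [hpos, pow_succ] at hM
  push_cast at hM
  refine mul_left_cancel₀ (show (2 : ℝ) * ((Units.rank K : ℝ) + 1) ≠ 0 by positivity) ?_
  linear_combination hM

/-- The class number formula of the real field in these terms. -/
theorem regulator_mul_classNumber_real [IsCMField K] (hp5 : 5 ≤ p) :
    Units.regulator (maximalRealSubfield K) * classNumber (maximalRealSubfield K) =
      ∏ t ∈ univ.erase (⟨1, even_one⟩ : EvenChar p), ‖charSum p K t‖ := by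
  have hp : p.Prime := Fact.out
  have : NeZero p := ⟨hp.ne_zero⟩
  have hp2 : p ≠ 2 := by omega
  have hodd : p % 2 = 1 := hp.eq_two_or_odd.resolve_left hp2
  set k := (p - 3) / 2 with hk
  have hpk : p = 2 * k + 3 := by omega
  set T := ((univ : Finset (DirichletCharacter ℂ p)).filter fun χ => χ.Even).erase 1 with hT
  -- `|L(1, χ)|`
  have hval : ∀ χ : DirichletCharacter ℂ p, ∀ hev : χ.Even, χ ≠ 1 →
      ‖DirichletCharacter.LFunction χ 1‖ = 2 / Real.sqrt p * ‖charSum p K ⟨χ⁻¹, even_inv hev⟩‖ := by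
    intro χ hev hne
    have hinv : χ⁻¹ ≠ 1 := inv_ne_one.mpr hne
    have hlog : ∑ a : ZMod p, χ⁻¹ a * Complex.log (1 - ZMod.stdAddChar (-a)) =
        2 * charSum p K ⟨χ⁻¹, even_inv hev⟩ := by
      have h2 := sum_eq_two_mul_sum_places (p := p) (K := K) hp2
        (fun d => (logDist p d : ℂ) * χ⁻¹ (d : ZMod p)) fun d => by
          rw [logDist_neg, Units.val_neg, (even_inv hev).eval_neg]
      have hU : ∑ d : (ZMod p)ˣ, (logDist p d : ℂ) * χ⁻¹ (d : ZMod p) =
          ∑ a : ZMod p, ((Real.log 2 : ℂ) + (FA.OrderTheta.sineLog p a : ℂ)) * χ⁻¹ a := by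
        rw [← sum_units_eq (fun a : ZMod p => ((Real.log 2 : ℂ) + (FA.OrderTheta.sineLog p a : ℂ)) * χ⁻¹ a)
          (by rw [MulChar.map_zero, mul_zero])]
        exact Finset.sum_congr rfl fun d _ => by rw [logDist, Complex.ofReal_add]
      rw [charSum, ← h2, hU]
      rw [← sub_eq_zero, ← Finset.sum_sub_distrib]
      refine Eq.trans (Finset.sum_congr rfl fun a _ => ?_)
        (FA.OrderTheta.sum_odd_eq_zero (f := fun a => -((Real.pi : ℂ) * Complex.I) *
          (χ⁻¹ a * (FA.OrderTheta.sawTooth p a : ℂ))) fun a => by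
            rw [FA.OrderTheta.sawTooth_neg, (even_inv hev).eval_neg]; push_cast; ring)
      by_cases ha : a = 0
      · rw [ha, MulChar.map_zero]; ring
      · rw [FA.OrderTheta.log_one_sub_stdAddChar (neg_ne_zero.mpr ha), FA.OrderTheta.sineLog_neg,
          FA.OrderTheta.sawTooth_neg]
        push_cast
        ring
    rw [FA.Summary.lFunction_one_closedForm hp.one_lt (FA.OrderTheta.isPrimitive_of_ne_one p hne), hlog]
    simp only [norm_mul, norm_neg, norm_div, Complex.norm_natCast, Complex.norm_ofNat]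
    have hs : ‖gaussSum χ ZMod.stdAddChar‖ = Real.sqrt p := by
      rw [← Real.sqrt_sq (norm_nonneg (gaussSum χ ZMod.stdAddChar)), FA.Regular.norm_sq_gaussSum hne]
    have hps : Real.sqrt p * Real.sqrt p = p := Real.mul_self_sqrt (Nat.cast_nonneg p)
    have hs0 : Real.sqrt p ≠ 0 := by rw [Real.sqrt_ne_zero']; exact_mod_cast hp.pos
    rw [hs]
    field_simp
    linear_combination ‖charSum p K ⟨χ⁻¹, even_inv hev⟩‖ * hps
  have hcardT : T.card = k := by
    have h1 := two_mul_card_evenChar p hp2
    rw [hT, card_erase_of_mem (mem_filter.mpr ⟨mem_univ _, even_one⟩), ← Fintype.card_subtype]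
    rw [← Nat.card_eq_fintype_card] at h1 ⊢
    change 2 * Nat.card {χ : DirichletCharacter ℂ p // χ.Even} = p - 1 at h1
    omega
  have hres := congrArg norm (FA.Regular.residue_real_eq_prod p K)
  rw [norm_prod, Complex.norm_real, Real.norm_eq_abs, abs_of_pos (dedekindZeta_residue_pos _),
    ← hT] at hres
  have hprod : ∏ χ ∈ T, ‖DirichletCharacter.LFunction χ 1‖ =
      (2 / Real.sqrt p) ^ k * ∏ t ∈ univ.erase (⟨1, even_one⟩ : EvenChar p), ‖charSum p K t‖ := by
    rw [Finset.prod_bij' (t := univ.erase (⟨1, even_one⟩ : EvenChar p))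
      (g := fun t => 2 / Real.sqrt p * ‖charSum p K t‖)
      (fun χ hχ => ⟨χ⁻¹, even_inv (mem_filter.mp (mem_erase.mp hχ).2).2⟩) (fun t _ => t.1⁻¹)
      (fun χ hχ => mem_erase.mpr ⟨fun h => (mem_erase.mp hχ).1 (inv_eq_one.mp (congrArg Subtype.val h)), mem_univ _⟩)
      (fun t ht => mem_erase.mpr ⟨fun h => (mem_erase.mp ht).1 (Subtype.ext (inv_eq_one.mp h)),
        mem_filter.mpr ⟨mem_univ _, even_inv t.2⟩⟩)
      (fun χ _ => inv_inv χ) (fun t _ => Subtype.ext (inv_inv t.1))
      (fun χ hχ => hval χ (mem_filter.mp (mem_erase.mp hχ).2).2 (mem_erase.mp hχ).1),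
      Finset.prod_mul_distrib, Finset.prod_const]
    congr 2
    rw [card_erase_of_mem (mem_univ _), card_univ]
    have h := two_mul_card_evenChar p hp2
    rw [← Nat.card_eq_fintype_card] at h ⊢
    change 2 * Nat.card {χ : DirichletCharacter ℂ p // χ.Even} = p - 1 at h
    omega
  -- the invariants
  have h0 : InfinitePlace.nrComplexPlaces (maximalRealSubfield K) = 0 := IsTotallyReal.nrComplexPlaces_eq_zero _
  have hrankK : Units.rank K = k := by
    have := two_mul_card_places (K := K) hp2
    rw [Units.rank]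
    omega
  have h1 := IsCMField.units_rank_eq_units_rank K
  rw [hrankK, Units.rank, InfinitePlace.card_eq_nrRealPlaces_add_nrComplexPlaces, h0] at h1
  have hpos : 0 < InfinitePlace.nrRealPlaces (maximalRealSubfield K) := by
    have := Fintype.card_pos (α := InfinitePlace (maximalRealSubfield K))
    rw [InfinitePlace.card_eq_nrRealPlaces_add_nrComplexPlaces, h0] at this
    omega
  have hd : (|(discr (maximalRealSubfield K) : ℝ)|) = (Real.sqrt p ^ k) ^ 2 := by
    rw [← pow_mul, mul_comm, pow_mul, Real.sq_sqrt (Nat.cast_nonneg p), ← Int.cast_abs, Int.abs_eq_natAbs,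
      natAbs_discr_real p K (by omega), ← hk]
    push_cast
    rfl
  rw [hprod, dedekindZeta_residue_def, FA.Regular.torsionOrder_eq_two_of_real hpos, h0,
    show InfinitePlace.nrRealPlaces (maximalRealSubfield K) = k + 1 by omega] at hres
  rw [hd, Real.sqrt_sq (by positivity)] at hres
  have hs0 : Real.sqrt p ≠ 0 := by rw [Real.sqrt_ne_zero']; exact_mod_cast hp.pos
  rw [div_pow, pow_zero, mul_one, pow_succ] at hres
  push_cast at hres
  field_simp at hres
  exact hres

/-- **Kummer's index theorem**: `[E : C] = h⁺`. -/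
theorem index_cycloUnits (hp5 : 5 ≤ p) :
    (FA.Regular.cycloUnits p K).index = classNumber (maximalRealSubfield K) := by
  have : NeZero p := ⟨(Fact.out : p.Prime).ne_zero⟩
  have : IsCMField K := IsCyclotomicExtension.Rat.isCMField K (S := {p}) ⟨p, rfl, by omega⟩
  obtain ⟨u, hu, hreg⟩ := exists_family K hp5
  have h := Units.regOfFamily_div_regulator u
  rw [hu, hreg, ← regulator_mul_classNumber_real K hp5] at h
  have hR := IsCMField.regulator_div_regulator_eq_two_pow_mul_indexRealUnits_inv K
  rw [indexRealUnits_eq_one p K (by omega), Nat.cast_one, inv_one, mul_one,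
    div_eq_iff (Units.regulator_ne_zero _)] at hR
  rw [hR, ← mul_assoc, mul_div_cancel_left₀ _ (mul_ne_zero (pow_ne_zero _ two_ne_zero) (Units.regulator_ne_zero _))] at h
  exact_mod_cast h.symm

end FA.CycloIndex
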