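import Fermat.Agent.ExtVanish.UnitEigen
import Fermat.Agent.Regular.FirstCaseBernoulli
import Fermat.Agent.ThetaOne.LValueOne

/-!
# The infinite places of `ℚ(ζ_p)` as `(ℤ/p)ˣ` up to sign
-/

set_option autoImplicit false

noncomputable section

open NumberField FA.Ext
open scoped Classical

namespace FA.CycloIndex

variable (p : ℕ) [Fact p.Prime] (K : Type*) [Field K] [NumberField K] [IsCyclotomicExtension {p} ℚ K]

theorem exists_stdEmb : ∃ φ : K →+* ℂ, φ (zetaInt p K : K) = ZMod.stdAddChar (1 : ZMod p) := by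
  have hp : p.Prime := Fact.out
  have : NeZero p := ⟨hp.ne_zero⟩
  have hζ := IsCyclotomicExtension.zeta_spec p ℚ K
  have hexp : IsPrimitiveRoot (ZMod.stdAddChar (1 : ZMod p)) p := by
    rw [ZMod.stdAddChar_apply, ZMod.toCircle_apply, ZMod.val_one_eq_one_mod, Nat.one_mod_eq_one.mpr hp.ne_one]
    convert Complex.isPrimitiveRoot_exp p hp.ne_zero using 2
    push_cast
    ring
  refine ⟨((hζ.embeddingsEquivPrimitiveRoots ℂ (Polynomial.cyclotomic.irreducible_rat hp.pos)).symm
    ⟨_, (mem_primitiveRoots hp.pos).mpr hexp⟩).toRingHom, ?_⟩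
  have h := congrArg Subtype.val ((hζ.embeddingsEquivPrimitiveRoots ℂ
    (Polynomial.cyclotomic.irreducible_rat hp.pos)).apply_symm_apply ⟨_, (mem_primitiveRoots hp.pos).mpr hexp⟩)
  exact h

/-- The embedding with `ζ ↦ e^(2πi/p)`. -/
def stdEmb : K →+* ℂ := Classical.choose (exists_stdEmb p K)

theorem stdEmb_zeta : stdEmb p K (zetaInt p K : K) = ZMod.stdAddChar (1 : ZMod p) :=
  Classical.choose_spec (exists_stdEmb p K)

theorem stdEmb_zeta_pow (j : ℕ) :
    stdEmb p K ((zetaInt p K ^ j : 𝓞 K) : K) = ZMod.stdAddChar (j : ZMod p) := by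
  have : NeZero p := ⟨(Fact.out : p.Prime).ne_zero⟩
  rw [RingOfIntegers.coe_eq_algebraMap, map_pow, map_pow, ← RingOfIntegers.coe_eq_algebraMap, stdEmb_zeta,
    ← AddChar.map_nsmul_eq_pow, nsmul_one]

/-- The embedding `stdEmb ∘ σ_d`. -/
def emb (d : (ZMod p)ˣ) : K →+* ℂ := (stdEmb p K).comp (sigmaK p K d).toRingEquiv.toRingHom

theorem emb_coe (d : (ZMod p)ˣ) (x : 𝓞 K) : emb p K d (x : K) = stdEmb p K (sigma p K d x : K) := rfl

theorem emb_zeta (d : (ZMod p)ˣ) : emb p K d (zetaInt p K : K) = ZMod.stdAddChar (d : ZMod p) := by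
  have : NeZero p := ⟨(Fact.out : p.Prime).ne_zero⟩
  rw [emb_coe, sigma_zetaInt, stdEmb_zeta_pow, ZMod.natCast_zmod_val]

theorem emb_neg (d : (ZMod p)ˣ) : emb p K (-d) = ComplexEmbedding.conjugate (emb p K d) := by
  refine RingHom.ext fun x => ?_
  show stdEmb p K (sigmaK p K (-d) x) = starRingEnd ℂ (stdEmb p K (sigmaK p K d x))
  rw [← FA.Regular.embedding_sigmaK_neg_one (p := p) (stdEmb p K), show -d = -1 * d by simp, map_mul]
  rfl

theorem emb_injective : Function.Injective (emb p K) := fun d e h => by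
  have : NeZero p := ⟨(Fact.out : p.Prime).ne_zero⟩
  have h1 := DFunLike.congr_fun h (zetaInt p K : K)
  rw [emb_zeta, emb_zeta] at h1
  exact Units.ext (ZMod.injective_stdAddChar h1)

theorem emb_surjective : Function.Surjective (emb p K) := fun φ => by
  have hp : p.Prime := Fact.out
  have : NeZero p := ⟨hp.ne_zero⟩
  have hζ := IsCyclotomicExtension.zeta_spec p ℚ K
  have hprim : IsPrimitiveRoot (φ (IsCyclotomicExtension.zeta p ℚ K)) p := hζ.map_of_injective φ.injective
  have hexp : IsPrimitiveRoot (stdEmb p K (IsCyclotomicExtension.zeta p ℚ K)) p :=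
    hζ.map_of_injective (stdEmb p K).injective
  obtain ⟨i, hi, hcop, hiz⟩ := (hexp.isPrimitiveRoot_iff).mp hprim
  refine ⟨ZMod.unitOfCoprime i hcop, ?_⟩
  suffices (emb p K (ZMod.unitOfCoprime i hcop)).toRatAlgHom = φ.toRatAlgHom from
    RingHom.ext fun x => DFunLike.congr_fun this x
  refine (hζ.powerBasis ℚ).algHom_ext ?_
  rw [IsPrimitiveRoot.powerBasis_gen]
  show emb p K _ (IsCyclotomicExtension.zeta p ℚ K) = φ (IsCyclotomicExtension.zeta p ℚ K)
  rw [← hiz, ← zetaInt_coe, emb_zeta, stdEmb_zeta, ← AddChar.map_nsmul_eq_pow, nsmul_one, ZMod.coe_unitOfCoprime]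

/-- The place of `σ_d`. -/
def place (d : (ZMod p)ˣ) : InfinitePlace K := InfinitePlace.mk (emb p K d)

theorem place_coe (d : (ZMod p)ˣ) (x : 𝓞 K) :
    place p K d (x : K) = ‖stdEmb p K (sigma p K d x : K)‖ := rfl

theorem place_surjective : Function.Surjective (place p K) := fun w => by
  obtain ⟨d, hd⟩ := emb_surjective p K w.embedding
  exact ⟨d, by rw [place, hd, InfinitePlace.mk_embedding]⟩

variable {p K}

theorem place_eq_iff {d e : (ZMod p)ˣ} : place p K d = place p K e ↔ d = e ∨ d = -e := by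
  rw [place, place, InfinitePlace.mk_eq_iff, ← emb_neg]
  refine ⟨fun h => h.elim (fun h => Or.inl (emb_injective p K h)) fun h => Or.inr ?_,
    fun h => h.elim (fun h => Or.inl (h ▸ rfl)) fun h => Or.inr (by rw [h, neg_neg])⟩
  rw [← emb_injective p K h, neg_neg]

variable (p) in
/-- A representative of a place. -/
def rep (w : InfinitePlace K) : (ZMod p)ˣ := Function.surjInv (place_surjective p K) w

theorem place_rep (w : InfinitePlace K) : place p K (rep p w) = w :=
  Function.surjInv_eq (place_surjective p K) w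

/-- An even sum over `(ℤ/p)ˣ` is twice the sum over the places. -/
theorem sum_eq_two_mul_sum_places {M : Type*} [CommSemiring M] (hp2 : p ≠ 2) (F : (ZMod p)ˣ → M)
    (hF : ∀ d, F (-d) = F d) : ∑ d, F d = 2 * ∑ w : InfinitePlace K, F (rep p w) := by
  rw [← Finset.sum_fiberwise Finset.univ (place p K) F, Finset.mul_sum]
  refine Finset.sum_congr rfl fun w _ => ?_
  have hne : rep p w ≠ -rep p w := fun e => by
    have h1 : ((rep p w : (ZMod p)ˣ) : ZMod p) = -((rep p w : (ZMod p)ˣ) : ZMod p) := by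
      rw [← Units.val_neg, ← e]
    have h2 : ((2 : ℕ) : ZMod p) * ((rep p w : (ZMod p)ˣ) : ZMod p) = 0 := by
      push_cast; linear_combination h1
    rcases mul_eq_zero.mp h2 with h3 | h3
    · have := Nat.le_of_dvd two_pos ((ZMod.natCast_eq_zero_iff 2 p).mp h3)
      have := (Fact.out : p.Prime).two_le
      omega
    · exact (Units.ne_zero _) h3
  have hfib : (Finset.univ.filter fun d => place p K d = w) = {rep p w, -rep p w} := by
    ext d
    simp only [Finset.mem_filter, Finset.mem_univ, true_and, Finset.mem_insert, Finset.mem_singleton]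
    conv_lhs => rw [← place_rep (p := p) w]
    exact place_eq_iff
  rw [hfib, Finset.sum_pair hne, hF, two_mul]

variable (p) in
/-- `log |1 - ζ^d|`. -/
def logDist (d : (ZMod p)ˣ) : ℝ := Real.log 2 + FA.OrderTheta.sineLog p (d : ZMod p)

theorem logDist_neg (d : (ZMod p)ˣ) : logDist p (-d) = logDist p d := by
  rw [logDist, logDist, Units.val_neg, FA.OrderTheta.sineLog_neg]

theorem log_norm_zeta_pow_sub_one {j : ℕ} {d : (ZMod p)ˣ} (hj : (j : ZMod p) = (d : ZMod p)) :
    Real.log ‖stdEmb p K ((zetaInt p K ^ j - 1 : 𝓞 K) : K)‖ = logDist p d := by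
  have h := congrArg Complex.re (FA.OrderTheta.log_one_sub_stdAddChar (p := p) d.ne_zero)
  rw [Complex.log_re] at h
  have e : stdEmb p K ((zetaInt p K ^ j - 1 : 𝓞 K) : K) = -(1 - ZMod.stdAddChar (d : ZMod p)) := by
    rw [RingOfIntegers.coe_eq_algebraMap, map_sub, map_one, map_sub, map_one, ← RingOfIntegers.coe_eq_algebraMap,
      stdEmb_zeta_pow, hj]
    ring
  rw [e, norm_neg, h, logDist]
  simp [Complex.log_re]

end FA.CycloIndex
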