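import Fermat.Agent.CycloIndex.Maillet
import Fermat.Agent.ExtVanish.Residue
import Mathlib.NumberTheory.NumberField.ClassNumber

/-!
# The class number of `ℚ(ζ_p)⁺` for small `p`

A prime of norm `N ≤` Minkowski's bound is over `p` and then principal, or has `N ≡ ± 1 (mod p)`; it is
principal when the conjugates of some real element multiply to `± N`.
-/

set_option autoImplicit false

noncomputable section

open NumberField FA.Ext Finset
open scoped nonZeroDivisors

namespace FA.CycloIndex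

variable {p : ℕ} [Fact p.Prime]

/-- The element `∑ c_i ζ^i`. -/
def ev (K : Type*) [Field K] [NumberField K] [IsCyclotomicExtension {p} ℚ K] (c : ZMod p → ℤ) : 𝓞 K :=
  ∑ i : ZMod p, (c i : 𝓞 K) * zetaInt p K ^ i.val

variable {K : Type*} [Field K] [NumberField K] [IsCyclotomicExtension {p} ℚ K]

theorem zeta_pow_val_add (i j : ZMod p) :
    zetaInt p K ^ i.val * zetaInt p K ^ j.val = zetaInt p K ^ (i + j).val := by
  have : NeZero p := ⟨(Fact.out : p.Prime).ne_zero⟩
  rw [← pow_add, ZMod.val_add, ← pow_eq_pow_mod _ (zetaInt_spec p K).pow_eq_one]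

/-- The cyclic convolution is the product. -/
theorem ev_mul {u v w : ZMod p → ℤ} (h : ∀ i, w i = ∑ j, u j * v (i - j)) : ev K w = ev K u * ev K v := by
  have : NeZero p := ⟨(Fact.out : p.Prime).ne_zero⟩
  rw [ev, ev, ev, sum_mul_sum]
  simp only [h, Int.cast_sum, Int.cast_mul, sum_mul]
  rw [sum_comm]
  refine sum_congr rfl fun j _ => (Fintype.sum_equiv (Equiv.addLeft j) _ _ fun k => ?_).symm
  rw [Equiv.coe_addLeft, add_sub_cancel_left, ← zeta_pow_val_add]
  ring

/-- `σ_d` permutes the coefficients. -/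
theorem sigma_ev (d : (ZMod p)ˣ) {c Y : ZMod p → ℤ} (h : ∀ i, Y ((d : ZMod p) * i) = c i) :
    sigma p K d (ev K c) = ev K Y := by
  have : NeZero p := ⟨(Fact.out : p.Prime).ne_zero⟩
  rw [ev, ev, map_sum]
  refine Fintype.sum_equiv (Units.mulLeft d) _ _ fun i => ?_
  rw [Units.mulLeft_apply, h, map_mul, map_intCast, map_pow, sigma_zetaInt, ← pow_mul, ZMod.val_mul,
    ← pow_eq_pow_mod _ (zetaInt_spec p K).pow_eq_one]

theorem cj_ev {c : ZMod p → ℤ} (h : ∀ i, c (-i) = c i) : FA.Regular.cj p K (ev K c) = ev K c :=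
  sigma_ev (-1) fun i => by rw [Units.val_neg, Units.val_one, neg_one_mul, h]

/-- A vector constant off `0` is an integer. -/
theorem ev_of_const {V : ZMod p → ℤ} {s t : ℤ} (h0 : V 0 = s + t) (h : ∀ i, i ≠ 0 → V i = t) :
    ev K V = (s : 𝓞 K) := by
  have hp : p.Prime := Fact.out
  have : NeZero p := ⟨hp.ne_zero⟩
  have hsum : ∑ i : ZMod p, zetaInt p K ^ i.val = 0 := by
    rw [← (zetaInt_spec p K).geom_sum_eq_zero hp.one_lt]
    exact Finset.sum_nbij (fun i => i.val) (fun i _ => mem_range.mpr (ZMod.val_lt i))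
      (fun a _ b _ e => ZMod.val_injective p e)
      (fun r hr => ⟨(r : ZMod p), mem_univ _, ZMod.val_natCast_of_lt (mem_range.mp hr)⟩) fun _ _ => rfl
  have hV : ∀ i, (V i : 𝓞 K) * zetaInt p K ^ i.val =
      (if i = 0 then (s : 𝓞 K) else 0) + (t : 𝓞 K) * zetaInt p K ^ i.val := fun i => by
    by_cases hi : i = 0
    · subst hi
      simp [h0]
    · rw [if_neg hi, zero_add, h i hi]
  rw [ev, Finset.sum_congr rfl fun i _ => hV i, sum_add_distrib, ← mul_sum, hsum, mul_zero, add_zero,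
    sum_ite_eq' univ (0 : ZMod p), if_pos (mem_univ _)]

theorem absNorm_map_sigma (d : (ZMod p)ˣ) (I : Ideal (𝓞 K)) :
    Ideal.absNorm (I.map (sigma p K d : 𝓞 K →+* 𝓞 K)) = Ideal.absNorm I := by
  rw [Ideal.absNorm_apply, Ideal.absNorm_apply, Submodule.cardQuot_apply, Submodule.cardQuot_apply]
  exact Nat.card_congr (Ideal.quotientEquiv I _ (sigma p K d) rfl).toEquiv.symm

variable [IsCMField K]

local notation "L" => maximalRealSubfield K

/-- A prime of norm `N` is principal if the conjugates of a real element multiply to `± N`. -/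
theorem isPrincipal_of_conjugates {m : ℕ} (hm : p = 2 * m + 1) {N : ℕ} {P : Ideal (𝓞 L)} [P.IsPrime]
    (hN : Ideal.absNorm P = N) (c : ZMod p → ℤ) (hc : ∀ i, c (-i) = c i) (d : Fin m → (ZMod p)ˣ) {s : ℤ}
    (hs : s.natAbs = N) (hprod : ∏ k, sigma p K (d k) (ev K c) = (s : 𝓞 K)) : P.IsPrincipal := by
  have hp : p.Prime := Fact.out
  have hcj : ∀ k, FA.Regular.cj p K (sigma p K (d k) (ev K c)) = sigma p K (d k) (ev K c) := fun k => by
    rw [FA.Regular.cj, ← sigma_mul_apply, mul_comm, sigma_mul_apply]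
    exact congrArg _ (cj_ev hc)
  choose y hy using fun k => exists_real_eq p K (hcj k)
  have hinj : Function.Injective (algebraMap (𝓞 L) (𝓞 K)) := FaithfulSMul.algebraMap_injective _ _
  have hyprod : ∏ k, y k = (s : 𝓞 L) := hinj (by rw [map_prod, map_intCast, ← hprod]; simp only [hy])
  obtain ⟨k, hk⟩ : ∃ k, y k ∈ P := by
    have hmem : ((s : ℤ) : 𝓞 L) ∈ P := by
      have h1 : ((N : ℕ) : 𝓞 L) ∈ P := hN ▸ Ideal.absNorm_mem P
      rcases Int.natAbs_eq s with e | e <;> rw [e, hs]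
      · simpa using h1
      · simpa using h1
    rw [← hyprod] at hmem
    obtain ⟨k, -, hk⟩ := Ideal.IsPrime.prod_mem_iff.mp hmem
    exact ⟨k, hk⟩
  -- every conjugate has norm `N²` in `K`
  set A := Ideal.absNorm (Ideal.span {ev K c}) with hA
  have hconj : ∀ j, Ideal.absNorm (Ideal.span {sigma p K (d j) (ev K c)}) = A := fun j => by
    rw [hA, ← absNorm_map_sigma (d j) (Ideal.span {ev K c}), Ideal.map_span, Set.image_singleton]
    rfl
  have hA2 : A = N ^ 2 := by
    have h := congrArg (fun x : 𝓞 K => Ideal.absNorm (Ideal.span {x})) hprod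
    simp only [← Ideal.prod_span_singleton, map_prod, hconj, prod_const, card_univ, Fintype.card_fin] at h
    rw [Ideal.absNorm_span_singleton, ← eq_intCast (algebraMap ℤ (𝓞 K)) s, Algebra.norm_algebraMap, Int.natAbs_pow,
      hs, RingOfIntegers.rank, IsCyclotomicExtension.Rat.finrank p K, Nat.totient_prime hp,
      show p - 1 = 2 * m by omega, pow_mul] at h
    exact Nat.pow_left_injective (by have := hp.two_le; omega) h
  have hnorm : Ideal.absNorm (Ideal.span {y k}) = N := by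
    have h := Ideal.absNorm_algebraMap (𝓞 L) (𝓞 K) (Ideal.span {y k})
    rw [Ideal.map_span, Set.image_singleton, hy, hconj, hA2, ← IsFractionRing.finrank_eq (𝓞 L) L (𝓞 K) K,
      Algebra.IsQuadraticExtension.finrank_eq_two L K] at h
    exact (Nat.pow_left_injective two_ne_zero h).symm
  have hle : Ideal.span {y k} ≤ P := (Ideal.span_singleton_le_iff_mem _).mpr hk
  obtain ⟨C, hC⟩ := Ideal.dvd_iff_le.mpr hle
  have h1 := congrArg Ideal.absNorm hC
  rw [map_mul, hnorm, hN] at h1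
  rcases eq_or_ne P ⊥ with rfl | hP
  · exact bot_isPrincipal
  have hN0 : N ≠ 0 := fun e => hP (Ideal.absNorm_eq_zero_iff.mp (hN.trans e))
  have hC1 : Ideal.absNorm C = 1 := by
    refine mul_left_cancel₀ hN0 ?_
    rw [mul_one]; exact h1.symm
  rw [Ideal.absNorm_eq_one_iff] at hC1
  rw [hC1, Ideal.mul_top] at hC
  exact ⟨⟨y k, hC.symm⟩⟩

/-- A prime of the real field over `ℓ ≠ p` has norm `± 1` modulo `p`. -/
theorem absNorm_mod_of_prime {P : Ideal (𝓞 L)} [P.IsPrime] (hP : P ≠ ⊥) (hpP : (p : 𝓞 L) ∉ P) :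
    Ideal.absNorm P % p = 1 ∨ Ideal.absNorm P % p = p - 1 := by
  have hp : p.Prime := Fact.out
  have : P.IsMaximal := Ideal.IsPrime.isMaximal inferInstance hP
  obtain ⟨Q, hQ, hQP⟩ := Ideal.exists_maximal_ideal_liesOver_of_isIntegral (S := 𝓞 K) P
  have hQ0 : Q ≠ ⊥ := fun e => hP (by
    rw [hQP.over, e, Ideal.under_def, Ideal.comap_bot_of_injective _ (FaithfulSMul.algebraMap_injective _ _)])
  have hQp : (p : 𝓞 K) ∉ Q := fun h => hpP (by
    rw [hQP.over, Ideal.under_def, Ideal.mem_comap, map_natCast]; exact h)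
  have hd := dvd_absNorm_sub_one (zetaInt_spec p K) ⟨Q, hQ.isPrime, hQ0⟩ hQp
  set N := Ideal.absNorm P
  obtain ⟨f, hf⟩ := Ideal.exists_relNorm_eq_pow_of_isPrime Q P
  have hQN : Ideal.absNorm Q = N ^ f := by rw [← Ideal.absNorm_relNorm (𝓞 L) (𝓞 K) Q, hf, map_pow]
  have hf2 : f ≤ 2 := by
    have hdvd : Q ∣ P.map (algebraMap (𝓞 L) (𝓞 K)) := Ideal.dvd_iff_le.mpr (Ideal.map_le_iff_le_comap.mpr hQP.over.le)
    have h2 := map_dvd (Ideal.relNorm (𝓞 L)) hdvd
    rw [hf, Ideal.relNorm_algebraMap, ← IsFractionRing.finrank_eq (𝓞 L) L (𝓞 K) K,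
      Algebra.IsQuadraticExtension.finrank_eq_two L K] at h2
    exact (pow_dvd_pow_iff hP (fun h => ‹P.IsPrime›.ne_top (Ideal.isUnit_iff.mp h))).mp h2
  have hd' : p ∣ N ^ f - 1 := hQN ▸ hd
  have hN0 : N ≠ 0 := fun e => hP (Ideal.absNorm_eq_zero_iff.mp e)
  have hN1 : ((N : ℕ) : ZMod p) ^ f = 1 := by
    have h1 := (ZMod.natCast_eq_zero_iff _ _).mpr hd'
    rwa [Nat.cast_sub (Nat.one_le_iff_ne_zero.mpr (pow_ne_zero _ hN0)), Nat.cast_pow, Nat.cast_one, sub_eq_zero] at h1
  have hpm : ((N : ℕ) : ZMod p) = 1 ∨ ((N : ℕ) : ZMod p) = -1 := by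
    interval_cases f
    · exfalso
      rw [pow_zero] at hQN
      exact hQ.ne_top (Ideal.absNorm_eq_one_iff.mp hQN)
    · exact Or.inl (by simpa using hN1)
    · exact mul_self_eq_one_iff.mp (by rwa [← sq])
  rcases hpm with h | h
  · left
    rw [← ZMod.val_natCast, h, ZMod.val_one_eq_one_mod, Nat.one_mod_eq_one.mpr hp.ne_one]
  · right
    obtain ⟨r, rfl⟩ : ∃ r, p = r + 1 := ⟨p - 1, by have := hp.one_le; omega⟩
    rw [← ZMod.val_natCast, h, ZMod.val_neg_one, Nat.add_sub_cancel]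

/-- The prime over `p` is principal. -/
theorem isPrincipal_of_natCast_mem (h3 : 3 ≤ p) {P : Ideal (𝓞 L)} [P.IsPrime] (hpP : (p : 𝓞 L) ∈ P) :
    P.IsPrincipal := by
  have hp : p.Prime := Fact.out
  obtain ⟨r, ⟨u, hu⟩, hN⟩ := exists_real_prime_element p K h3
  have h := congrArg (fun x : 𝓞 L => Ideal.absNorm (Ideal.span {x})) hu
  simp only [← Ideal.span_singleton_mul_span_singleton, ← Ideal.span_singleton_pow, map_mul, map_pow, hN] at h
  rw [Ideal.absNorm_span_singleton, ← map_natCast (algebraMap ℤ (𝓞 L)) p, Algebra.norm_algebraMap, Int.natAbs_pow,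
    Int.natAbs_natCast, RingOfIntegers.rank] at h
  have hfin : Module.finrank ℚ L = (p - 1) / 2 := by
    have h := Module.finrank_mul_finrank ℚ L K
    rw [Algebra.IsQuadraticExtension.finrank_eq_two L K, IsCyclotomicExtension.Rat.finrank p K,
      Nat.totient_prime hp] at h
    omega
  rw [hfin, eq_comm, Nat.mul_eq_left (pow_ne_zero _ hp.ne_zero), Ideal.absNorm_eq_one_iff,
    Ideal.span_singleton_eq_top] at h
  have hr : r ∈ P := by
    rw [hu] at hpP
    exact ‹P.IsPrime›.mem_of_pow_mem _ ((‹P.IsPrime›.mem_or_mem hpP).resolve_right fun h' =>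
      ‹P.IsPrime›.ne_top (Ideal.eq_top_of_isUnit_mem _ h' h))
  have hmax : (Ideal.span {r}).IsMaximal := by
    refine Ideal.IsPrime.isMaximal (Ideal.isPrime_of_irreducible_absNorm (hN.symm ▸ hp)) ?_
    intro e
    rw [e, Ideal.absNorm_bot] at hN
    exact hp.ne_zero hN.symm
  exact ⟨⟨r, (hmax.eq_of_le ‹P.IsPrime›.ne_top ((Ideal.span_singleton_le_iff_mem _).mpr hr)).symm⟩⟩

open scoped Real in
/-- **The criterion**: all prime powers `≡ ± 1` up to Minkowski's bound are covered. -/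
theorem classNumber_real_eq_one {B : ℕ} (h3 : 3 ≤ p) {m : ℕ} (hm : p = 2 * m + 1)
    (hB : (Nat.factorial m) ^ 2 * p ^ (m - 1) < (B + 1) ^ 2 * (m ^ m) ^ 2)
    (hcov : ∀ N ≤ B, (N % p = 1 ∨ N % p = p - 1) → IsPrimePow N →
      ∃ (c : ZMod p → ℤ) (d : Fin m → (ZMod p)ˣ) (s : ℤ), (∀ i, c (-i) = c i) ∧ s.natAbs = N ∧
        ∏ k, sigma p K (d k) (ev K c) = (s : 𝓞 K)) :
    classNumber L = 1 := by
  have hp : p.Prime := Fact.out
  rw [classNumber_eq_one_iff]
  refine RingOfIntegers.isPrincipalIdealRing_of_isPrincipal_of_norm_le_of_isPrime fun I hI hle => ?_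
  have := hI
  set P := (I : Ideal (𝓞 L))
  have hP : P ≠ ⊥ := nonZeroDivisors.coe_ne_zero I
  by_cases hpP : (p : 𝓞 L) ∈ P
  · exact isPrincipal_of_natCast_mem h3 hpP
  have hfin : Module.finrank ℚ L = m := by
    have h := Module.finrank_mul_finrank ℚ L K
    rw [Algebra.IsQuadraticExtension.finrank_eq_two L K, IsCyclotomicExtension.Rat.finrank p K,
      Nat.totient_prime hp] at h
    omega
  have hbound : Ideal.absNorm P ≤ B := by
    rw [IsTotallyReal.nrComplexPlaces_eq_zero, pow_zero, one_mul, hfin, ← Int.cast_abs, Int.abs_eq_natAbs,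
      natAbs_discr_real p K h3, show (p - 3) / 2 = m - 1 by omega] at hle
    push_cast at hle
    have hm0 : (0 : ℝ) < (m : ℝ) ^ m := by
      have : 0 < m := by omega
      positivity
    rw [div_mul_eq_mul_div, le_div_iff₀ hm0] at hle
    have h2 := pow_le_pow_left₀ (by positivity) hle 2
    rw [mul_pow, mul_pow, Real.sq_sqrt (by positivity)] at h2
    by_contra hlt
    rw [not_le] at hlt
    have h3' : ((B + 1 : ℕ) : ℝ) ^ 2 * (((m ^ m : ℕ) : ℝ)) ^ 2 ≤ (Ideal.absNorm P : ℝ) ^ 2 * ((m : ℝ) ^ m) ^ 2 := by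
      push_cast
      gcongr
      exact_mod_cast hlt
    have hB' : ((Nat.factorial m : ℕ) : ℝ) ^ 2 * ((p : ℝ) ^ (m - 1)) < ((B + 1 : ℕ) : ℝ) ^ 2 * (((m ^ m : ℕ) : ℝ)) ^ 2 := by
      exact_mod_cast hB
    linarith
  have hpp : IsPrimePow (Ideal.absNorm P) := by
    have : P.IsMaximal := Ideal.IsPrime.isMaximal inferInstance hP
    let _ : Field (𝓞 L ⧸ P) := Ideal.Quotient.field P
    have : Finite (𝓞 L ⧸ P) := Ideal.finiteQuotientOfFreeOfNeBot P hP
    let _ : Fintype (𝓞 L ⧸ P) := Fintype.ofFinite _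
    rw [Ideal.absNorm_apply, Submodule.cardQuot_apply, Nat.card_eq_fintype_card]
    exact FiniteField.isPrimePow_card (𝓞 L ⧸ P)
  obtain ⟨c, d, s, hc, hs, hprod⟩ := hcov _ hbound (absNorm_mod_of_prime hP hpP) hpp
  exact isPrincipal_of_conjugates hm rfl c hc d hs hprod

omit [IsCMField K] in
/-- A certificate: the partial products of the conjugates. -/
theorem prod_conjugates_of_cert {m : ℕ} (c : ZMod p → ℤ) (d : Fin m → (ZMod p)ˣ) (Y : Fin m → ZMod p → ℤ)
    (V : Fin (m + 1) → ZMod p → ℤ) {s t : ℤ} (hY : ∀ k i, Y k ((d k : ZMod p) * i) = c i)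
    (hV0 : ∀ i, V 0 i = if i = 0 then 1 else 0)
    (hV : ∀ k : Fin m, ∀ i, V k.succ i = ∑ j, V k.castSucc j * Y k (i - j))
    (hend : ∀ i, V (Fin.last m) i = if i = 0 then s + t else t) :
    ∏ k, sigma p K (d k) (ev K c) = (s : 𝓞 K) := by
  induction m generalizing s t with
  | zero =>
    rw [Finset.univ_eq_empty, Finset.prod_empty]
    have h1 : ev K (V 0) = ((1 : ℤ) : 𝓞 K) := ev_of_const (t := 0) (by rw [hV0, if_pos rfl, add_zero]) fun i hi => by
      rw [hV0, if_neg hi]
    have h2 : ev K (V 0) = (s : 𝓞 K) := ev_of_const (t := t) (by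
      have := hend 0
      rw [if_pos rfl] at this
      exact this) fun i hi => by
      have := hend i
      rw [if_neg hi] at this
      exact this
    rw [← h2, h1, Int.cast_one]
  | succ n ih =>
    have key : ∀ k : Fin (n + 2), ev K (V k) = ∏ l ∈ univ.filter (fun l : Fin (n + 1) => l.1 < k.1), ev K (Y l) := by
      intro k
      induction k using Fin.induction with
      | zero =>
        rw [Finset.filter_false_of_mem (fun l _ => by simp), prod_empty, ← Int.cast_one]
        exact ev_of_const (t := 0) (by rw [hV0, if_pos rfl, add_zero]) fun i hi => by rw [hV0, if_neg hi]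
      | succ k hk =>
        rw [ev_mul (hV k), hk, show (univ.filter fun l : Fin (n + 1) => l.1 < (k.succ : Fin (n + 2)).1) =
          insert k (univ.filter fun l : Fin (n + 1) => l.1 < (k.castSucc : Fin (n + 2)).1) by
            ext l; simp only [mem_filter, mem_univ, true_and, Fin.val_succ, mem_insert, Fin.val_castSucc, Fin.ext_iff]
            omega, prod_insert (by simp), mul_comm]
    rw [Finset.prod_congr rfl fun l _ => sigma_ev (d l) (hY l)]
    have h := key (Fin.last (n + 1))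
    rw [Finset.filter_true_of_mem (fun l _ => l.2)] at h
    rw [← h]
    exact ev_of_const (t := t) (by rw [hend, if_pos rfl]) fun i hi => by rw [hend, if_neg hi]

end FA.CycloIndex
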