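import Fermat.Agent.CycloIndex.RealClassNumber

/-!
# `h(ℚ(ζ_p)⁺) = 1` for `p ≤ 23`

For each prime power `N ≡ ± 1 (mod p)` below Minkowski's bound a real element whose conjugates multiply to `± N`,
with the partial products; checked by the kernel.
-/

set_option autoImplicit false

noncomputable section

open NumberField FA.Ext

namespace FA.CycloIndex

theorem not_isPrimePow_of_coprime {N a : ℕ} (ha : 2 ≤ a) (hd : a ∣ N) (hb : 2 ≤ N / a) (hc : Nat.gcd a (N / a) = 1) :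
    ¬ IsPrimePow N := fun h => by
  obtain ⟨q, -, huniq⟩ := isPrimePow_iff_unique_prime_dvd.mp h
  obtain ⟨r, hr, hra⟩ := Nat.exists_prime_and_dvd (show a ≠ 1 by omega)
  obtain ⟨s, hs, hsb⟩ := Nat.exists_prime_and_dvd (show N / a ≠ 1 by omega)
  have e : r = s := (huniq r ⟨hr, hra.trans hd⟩).trans (huniq s ⟨hs, hsb.trans (Nat.div_dvd_of_dvd hd)⟩).symm
  subst e
  exact hr.not_dvd_one (hc ▸ Nat.dvd_gcd hra hsb)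

/-- `N = a * b` with coprime `a, b ≥ 2` and `a < 31`. -/
def hasCoprimeSplit (N : ℕ) : Bool :=
  (List.range 31).any fun a => decide (2 ≤ a) && decide (a ∣ N) && decide (2 ≤ N / a) &&
    decide (Nat.gcd a (N / a) = 1)

theorem not_isPrimePow_of_split {N : ℕ} (h : hasCoprimeSplit N = true) : ¬ IsPrimePow N := by
  simp only [hasCoprimeSplit, List.any_eq_true, Bool.and_eq_true, decide_eq_true_eq] at h
  obtain ⟨a, -, ⟨⟨h1, h2⟩, h3⟩, h4⟩ := h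
  exact not_isPrimePow_of_coprime h1 h2 h3 h4

/-- The units `1, …, m`. -/
def smallUnit {p m : ℕ} [Fact p.Prime] (hm : p = 2 * m + 1) (k : Fin m) : (ZMod p)ˣ :=
  Units.mk0 ((k.1 + 1 : ℕ) : ZMod p) (halfVal_ne_zero hm k)

theorem classNumber_real_5 {K : Type*} [Field K] [NumberField K] [IsCMField K] [Fact (Nat.Prime 5)]
    [IsCyclotomicExtension {5} ℚ K] : classNumber (maximalRealSubfield K) = 1 := by
  refine classNumber_real_eq_one (p := 5) (m := 2) (B := 1) (by norm_num) rfl (by norm_num [Nat.factorial])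
    fun N hN hmod hpp => ?_
  have key : ∀ N < 2, 2 ≤ N → (N % 5 = 1 ∨ N % 5 = 5 - 1) →
      N ∈ ([] : List ℕ) ∨ hasCoprimeSplit N = true := by decide +kernel
  rcases key N (by omega) hpp.one_lt hmod with hmem | hsplit
  ·
    exact absurd hmem List.not_mem_nil
  · exact absurd hpp (not_isPrimePow_of_split hsplit)

theorem classNumber_real_7 {K : Type*} [Field K] [NumberField K] [IsCMField K] [Fact (Nat.Prime 7)]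
    [IsCyclotomicExtension {7} ℚ K] : classNumber (maximalRealSubfield K) = 1 := by
  refine classNumber_real_eq_one (p := 7) (m := 3) (B := 1) (by norm_num) rfl (by norm_num [Nat.factorial])
    fun N hN hmod hpp => ?_
  have key : ∀ N < 2, 2 ≤ N → (N % 7 = 1 ∨ N % 7 = 7 - 1) →
      N ∈ ([] : List ℕ) ∨ hasCoprimeSplit N = true := by decide +kernel
  rcases key N (by omega) hpp.one_lt hmod with hmem | hsplit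
  ·
    exact absurd hmem List.not_mem_nil
  · exact absurd hpp (not_isPrimePow_of_split hsplit)

theorem classNumber_real_11 {K : Type*} [Field K] [NumberField K] [IsCMField K] [Fact (Nat.Prime 11)]
    [IsCyclotomicExtension {11} ℚ K] : classNumber (maximalRealSubfield K) = 1 := by
  refine classNumber_real_eq_one (p := 11) (m := 5) (B := 4) (by norm_num) rfl (by norm_num [Nat.factorial])
    fun N hN hmod hpp => ?_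
  have key : ∀ N < 5, 2 ≤ N → (N % 11 = 1 ∨ N % 11 = 11 - 1) →
      N ∈ ([] : List ℕ) ∨ hasCoprimeSplit N = true := by decide +kernel
  rcases key N (by omega) hpp.one_lt hmod with hmem | hsplit
  ·
    exact absurd hmem List.not_mem_nil
  · exact absurd hpp (not_isPrimePow_of_split hsplit)

theorem classNumber_real_13 {K : Type*} [Field K] [NumberField K] [IsCMField K] [Fact (Nat.Prime 13)]
    [IsCyclotomicExtension {13} ℚ K] : classNumber (maximalRealSubfield K) = 1 := by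
  refine classNumber_real_eq_one (p := 13) (m := 6) (B := 9) (by norm_num) rfl (by norm_num [Nat.factorial])
    fun N hN hmod hpp => ?_
  have key : ∀ N < 10, 2 ≤ N → (N % 13 = 1 ∨ N % 13 = 13 - 1) →
      N ∈ ([] : List ℕ) ∨ hasCoprimeSplit N = true := by decide +kernel
  rcases key N (by omega) hpp.one_lt hmod with hmem | hsplit
  ·
    exact absurd hmem List.not_mem_nil
  · exact absurd hpp (not_isPrimePow_of_split hsplit)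

private def c17_16 : ZMod 17 → ℤ :=
  ![1, 0, 0, 0, 0, 0, 1, 1, 0, 0, 1, 1, 0, 0, 0, 0, 0]

private def Y17_16 : Fin 8 → ZMod 17 → ℤ :=
  ![![1, 0, 0, 0, 0, 0, 1, 1, 0, 0, 1, 1, 0, 0, 0, 0, 0],
    ![1, 0, 0, 1, 0, 1, 0, 0, 0, 0, 0, 0, 1, 0, 1, 0, 0],
    ![1, 1, 0, 0, 1, 0, 0, 0, 0, 0, 0, 0, 0, 1, 0, 0, 1],
    ![1, 0, 0, 0, 0, 0, 1, 1, 0, 0, 1, 1, 0, 0, 0, 0, 0],
    ![1, 1, 0, 0, 1, 0, 0, 0, 0, 0, 0, 0, 0, 1, 0, 0, 1],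
    ![1, 0, 1, 0, 0, 0, 0, 0, 1, 1, 0, 0, 0, 0, 0, 1, 0],
    ![1, 0, 1, 0, 0, 0, 0, 0, 1, 1, 0, 0, 0, 0, 0, 1, 0],
    ![1, 0, 0, 1, 0, 1, 0, 0, 0, 0, 0, 0, 1, 0, 1, 0, 0]]

private def V17_16 : Fin 9 → ZMod 17 → ℤ :=
  ![![1, 0, 0, 0, 0, 0, 0, 0, 0, 0, 0, 0, 0, 0, 0, 0, 0],
    ![1, 0, 0, 0, 0, 0, 1, 1, 0, 0, 1, 1, 0, 0, 0, 0, 0],
    ![1, 1, 1, 2, 1, 2, 2, 2, 1, 1, 2, 2, 2, 1, 2, 1, 1],
    ![5, 7, 7, 7, 7, 7, 9, 9, 7, 7, 9, 9, 7, 7, 7, 7, 7],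
    ![41, 39, 35, 37, 39, 37, 35, 35, 35, 35, 35, 35, 37, 39, 37, 35, 39],
    ![197, 189, 181, 185, 189, 185, 177, 177, 181, 181, 177, 177, 185, 189, 185, 181, 189],
    ![921, 921, 921, 921, 921, 921, 913, 913, 921, 921, 913, 913, 921, 921, 921, 921, 921],
    ![4605, 4597, 4589, 4597, 4597, 4597, 4597, 4597, 4589, 4589, 4597, 4597, 4597, 4597, 4597, 4589, 4597],
    ![22993, 22977, 22977, 22977, 22977, 22977, 22977, 22977, 22977, 22977, 22977, 22977, 22977, 22977, 22977, 22977, 22977]]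

private theorem check17_16 : (∀ i, c17_16 (-i) = c17_16 i) ∧
    (∀ (k : Fin 8) i, Y17_16 k (((k.1 + 1 : ℕ) : ZMod 17) * i) = c17_16 i) ∧
    (∀ i, V17_16 0 i = if i = 0 then 1 else 0) ∧
    (∀ (k : Fin 8) i, V17_16 k.succ i = ∑ j, V17_16 k.castSucc j * Y17_16 k (i - j)) ∧
    (∀ i, V17_16 (Fin.last 8) i = if i = 0 then 16 + 22977 else 22977) := by decide +kernel

theorem conjugates_17_16 {K : Type*} [Field K] [NumberField K] [Fact (Nat.Prime 17)] [IsCyclotomicExtension {17} ℚ K] :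
    ∃ (c : ZMod 17 → ℤ) (d : Fin 8 → (ZMod 17)ˣ) (s : ℤ), (∀ i, c (-i) = c i) ∧ s.natAbs = 16 ∧
      ∏ k, sigma 17 K (d k) (ev K c) = (s : 𝓞 K) :=
  ⟨c17_16, smallUnit rfl, 16, check17_16.1, rfl, prod_conjugates_of_cert _ _ Y17_16 V17_16
    check17_16.2.1 check17_16.2.2.1 check17_16.2.2.2.1 check17_16.2.2.2.2⟩

theorem classNumber_real_17 {K : Type*} [Field K] [NumberField K] [IsCMField K] [Fact (Nat.Prime 17)]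
    [IsCyclotomicExtension {17} ℚ K] : classNumber (maximalRealSubfield K) = 1 := by
  refine classNumber_real_eq_one (p := 17) (m := 8) (B := 48) (by norm_num) rfl (by norm_num [Nat.factorial])
    fun N hN hmod hpp => ?_
  have key : ∀ N < 49, 2 ≤ N → (N % 17 = 1 ∨ N % 17 = 17 - 1) →
      N ∈ ([16] : List ℕ) ∨ hasCoprimeSplit N = true := by decide +kernel
  rcases key N (by omega) hpp.one_lt hmod with hmem | hsplit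
  ·
    simp only [List.mem_cons, List.not_mem_nil, or_false] at hmem
    rcases hmem with rfl
    · exact conjugates_17_16
  · exact absurd hpp (not_isPrimePow_of_split hsplit)

private def c19_37 : ZMod 19 → ℤ :=
  ![2, 0, 0, 0, 0, 0, 0, 0, 1, 1, 1, 1, 0, 0, 0, 0, 0, 0, 0]

private def Y19_37 : Fin 9 → ZMod 19 → ℤ :=
  ![![2, 0, 0, 0, 0, 0, 0, 0, 1, 1, 1, 1, 0, 0, 0, 0, 0, 0, 0],
    ![2, 1, 0, 1, 0, 0, 0, 0, 0, 0, 0, 0, 0, 0, 0, 0, 1, 0, 1],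
    ![2, 0, 0, 0, 0, 1, 0, 0, 1, 0, 0, 1, 0, 0, 1, 0, 0, 0, 0],
    ![2, 0, 1, 0, 0, 0, 1, 0, 0, 0, 0, 0, 0, 1, 0, 0, 0, 1, 0],
    ![2, 0, 1, 0, 0, 0, 0, 1, 0, 0, 0, 0, 1, 0, 0, 0, 0, 1, 0],
    ![2, 0, 0, 1, 0, 0, 0, 0, 0, 1, 1, 0, 0, 0, 0, 0, 1, 0, 0],
    ![2, 1, 0, 0, 0, 0, 1, 0, 0, 0, 0, 0, 0, 1, 0, 0, 0, 0, 1],
    ![2, 0, 0, 0, 1, 0, 0, 1, 0, 0, 0, 0, 1, 0, 0, 1, 0, 0, 0],
    ![2, 0, 0, 0, 1, 1, 0, 0, 0, 0, 0, 0, 0, 0, 1, 1, 0, 0, 0]]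

private def V19_37 : Fin 10 → ZMod 19 → ℤ :=
  ![![1, 0, 0, 0, 0, 0, 0, 0, 0, 0, 0, 0, 0, 0, 0, 0, 0, 0, 0],
    ![2, 0, 0, 0, 0, 0, 0, 0, 1, 1, 1, 1, 0, 0, 0, 0, 0, 0, 0],
    ![4, 2, 0, 2, 0, 1, 1, 2, 4, 4, 4, 4, 2, 1, 1, 0, 2, 0, 2],
    ![18, 11, 9, 13, 8, 13, 9, 8, 17, 11, 11, 17, 8, 9, 13, 8, 13, 9, 11],
    ![72, 67, 69, 74, 54, 75, 69, 60, 76, 68, 68, 76, 60, 69, 75, 54, 74, 69, 67],
    ![402, 420, 407, 412, 396, 413, 404, 410, 410, 415, 415, 410, 410, 404, 413, 396, 412, 407, 420],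
    ![2458, 2468, 2467, 2444, 2439, 2452, 2443, 2450, 2470, 2466, 2466, 2470, 2450, 2443, 2452, 2439, 2444, 2467, 2468],
    ![14738, 14763, 14755, 14704, 14707, 14724, 14696, 14724, 14775, 14751, 14751, 14775, 14724, 14696, 14724, 14707, 14704, 14755, 14763],
    ![88338, 88425, 88436, 88353, 88406, 88441, 88357, 88389, 88451, 88381, 88381, 88451, 88389, 88357, 88441, 88406, 88353, 88436, 88425],
    ![530370, 530407, 530407, 530407, 530407, 530407, 530407, 530407, 530407, 530407, 530407, 530407, 530407, 530407, 530407, 530407, 530407, 530407, 530407]]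

private theorem check19_37 : (∀ i, c19_37 (-i) = c19_37 i) ∧
    (∀ (k : Fin 9) i, Y19_37 k (((k.1 + 1 : ℕ) : ZMod 19) * i) = c19_37 i) ∧
    (∀ i, V19_37 0 i = if i = 0 then 1 else 0) ∧
    (∀ (k : Fin 9) i, V19_37 k.succ i = ∑ j, V19_37 k.castSucc j * Y19_37 k (i - j)) ∧
    (∀ i, V19_37 (Fin.last 9) i = if i = 0 then -37 + 530407 else 530407) := by decide +kernel

theorem conjugates_19_37 {K : Type*} [Field K] [NumberField K] [Fact (Nat.Prime 19)] [IsCyclotomicExtension {19} ℚ K] :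
    ∃ (c : ZMod 19 → ℤ) (d : Fin 9 → (ZMod 19)ˣ) (s : ℤ), (∀ i, c (-i) = c i) ∧ s.natAbs = 37 ∧
      ∏ k, sigma 19 K (d k) (ev K c) = (s : 𝓞 K) :=
  ⟨c19_37, smallUnit rfl, -37, check19_37.1, rfl, prod_conjugates_of_cert _ _ Y19_37 V19_37
    check19_37.2.1 check19_37.2.2.1 check19_37.2.2.2.1 check19_37.2.2.2.2⟩

private def c19_113 : ZMod 19 → ℤ :=
  ![-1, 0, 0, 0, 0, 0, 0, 1, -1, 0, 0, -1, 1, 0, 0, 0, 0, 0, 0]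

private def Y19_113 : Fin 9 → ZMod 19 → ℤ :=
  ![![-1, 0, 0, 0, 0, 0, 0, 1, -1, 0, 0, -1, 1, 0, 0, 0, 0, 0, 0],
    ![-1, 0, 0, -1, 0, 1, 0, 0, 0, 0, 0, 0, 0, 0, 1, 0, -1, 0, 0],
    ![-1, 0, 1, 0, 0, -1, 0, 0, 0, 0, 0, 0, 0, 0, -1, 0, 0, 1, 0],
    ![-1, 0, 0, 0, 0, 0, -1, 0, 0, 1, 1, 0, 0, -1, 0, 0, 0, 0, 0],
    ![-1, 0, -1, 1, 0, 0, 0, 0, 0, 0, 0, 0, 0, 0, 0, 0, 1, -1, 0],
    ![-1, 0, 0, 0, 1, 0, 0, 0, 0, -1, -1, 0, 0, 0, 0, 1, 0, 0, 0],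
    ![-1, -1, 0, 0, 0, 0, 0, 0, 1, 0, 0, 1, 0, 0, 0, 0, 0, 0, -1],
    ![-1, 1, 0, 0, 0, 0, 0, -1, 0, 0, 0, 0, -1, 0, 0, 0, 0, 0, 1],
    ![-1, 0, 0, 0, -1, 0, 1, 0, 0, 0, 0, 0, 0, 1, 0, -1, 0, 0, 0]]

private def V19_113 : Fin 10 → ZMod 19 → ℤ :=
  ![![1, 0, 0, 0, 0, 0, 0, 0, 0, 0, 0, 0, 0, 0, 0, 0, 0, 0, 0],
    ![-1, 0, 0, 0, 0, 0, 0, 1, -1, 0, 0, -1, 1, 0, 0, 0, 0, 0, 0],
    ![1, 0, 1, 0, -1, 0, -1, 0, 2, -1, -1, 2, 0, -1, 0, -1, 0, 1, 0],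
    ![1, 2, -1, -3, 2, 0, 0, -2, -3, 4, 4, -3, -2, 0, 0, 2, -3, -1, 2],
    ![7, 1, -3, 0, -5, 3, 0, -4, 5, 0, 0, 5, -4, 0, 3, -5, 0, -3, 1],
    ![-1, -10, 5, 3, 5, 3, 0, -4, 3, -5, -5, 3, -4, 0, 3, 5, 3, 5, -10],
    ![21, 18, 1, -13, -6, -26, -8, 2, 3, 19, 19, 3, 2, -8, -26, -6, -13, 1, 18],
    ![-51, -19, 5, -5, 41, 19, 7, 15, -16, -22, -22, -16, 15, 7, 19, 41, -5, 5, -19],
    ![-17, -18, -26, 32, -6, 9, 39, 8, -13, -16, -16, -13, 8, 39, 9, -6, 32, -26, -18],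
    ![107, -6, -6, -6, -6, -6, -6, -6, -6, -6, -6, -6, -6, -6, -6, -6, -6, -6, -6]]

private theorem check19_113 : (∀ i, c19_113 (-i) = c19_113 i) ∧
    (∀ (k : Fin 9) i, Y19_113 k (((k.1 + 1 : ℕ) : ZMod 19) * i) = c19_113 i) ∧
    (∀ i, V19_113 0 i = if i = 0 then 1 else 0) ∧
    (∀ (k : Fin 9) i, V19_113 k.succ i = ∑ j, V19_113 k.castSucc j * Y19_113 k (i - j)) ∧
    (∀ i, V19_113 (Fin.last 9) i = if i = 0 then 113 + -6 else -6) := by decide +kernel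

theorem conjugates_19_113 {K : Type*} [Field K] [NumberField K] [Fact (Nat.Prime 19)] [IsCyclotomicExtension {19} ℚ K] :
    ∃ (c : ZMod 19 → ℤ) (d : Fin 9 → (ZMod 19)ˣ) (s : ℤ), (∀ i, c (-i) = c i) ∧ s.natAbs = 113 ∧
      ∏ k, sigma 19 K (d k) (ev K c) = (s : 𝓞 K) :=
  ⟨c19_113, smallUnit rfl, 113, check19_113.1, rfl, prod_conjugates_of_cert _ _ Y19_113 V19_113
    check19_113.2.1 check19_113.2.2.1 check19_113.2.2.2.1 check19_113.2.2.2.2⟩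

theorem classNumber_real_19 {K : Type*} [Field K] [NumberField K] [IsCMField K] [Fact (Nat.Prime 19)]
    [IsCyclotomicExtension {19} ℚ K] : classNumber (maximalRealSubfield K) = 1 := by
  refine classNumber_real_eq_one (p := 19) (m := 9) (B := 122) (by norm_num) rfl (by norm_num [Nat.factorial])
    fun N hN hmod hpp => ?_
  have key : ∀ N < 123, 2 ≤ N → (N % 19 = 1 ∨ N % 19 = 19 - 1) →
      N ∈ ([37, 113] : List ℕ) ∨ hasCoprimeSplit N = true := by decide +kernel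
  rcases key N (by omega) hpp.one_lt hmod with hmem | hsplit
  ·
    simp only [List.mem_cons, List.not_mem_nil, or_false] at hmem
    rcases hmem with rfl | rfl
    · exact conjugates_19_37
    · exact conjugates_19_113
  · exact absurd hpp (not_isPrimePow_of_split hsplit)

private def c23_47 : ZMod 23 → ℤ :=
  ![-1, 0, 0, 0, 0, 0, 0, 0, 0, 0, 1, -1, -1, 1, 0, 0, 0, 0, 0, 0, 0, 0, 0]

private def Y23_47 : Fin 11 → ZMod 23 → ℤ :=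
  ![![-1, 0, 0, 0, 0, 0, 0, 0, 0, 0, 1, -1, -1, 1, 0, 0, 0, 0, 0, 0, 0, 0, 0],
    ![-1, -1, 0, 1, 0, 0, 0, 0, 0, 0, 0, 0, 0, 0, 0, 0, 0, 0, 0, 0, 1, 0, -1],
    ![-1, 0, 0, 0, 0, 0, 0, 1, 0, 0, -1, 0, 0, -1, 0, 0, 1, 0, 0, 0, 0, 0, 0],
    ![-1, 0, -1, 0, 0, 0, 1, 0, 0, 0, 0, 0, 0, 0, 0, 0, 0, 1, 0, 0, 0, -1, 0],
    ![-1, 0, 0, 0, 1, 0, 0, 0, 0, -1, 0, 0, 0, 0, -1, 0, 0, 0, 0, 1, 0, 0, 0],
    ![-1, 0, 0, -1, 0, 0, 0, 0, 0, 1, 0, 0, 0, 0, 1, 0, 0, 0, 0, 0, -1, 0, 0],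
    ![-1, 1, 0, 0, 0, 0, 0, 0, -1, 0, 0, 0, 0, 0, 0, -1, 0, 0, 0, 0, 0, 0, 1],
    ![-1, 0, 0, 0, -1, 0, 0, 0, 0, 0, 0, 1, 1, 0, 0, 0, 0, 0, 0, -1, 0, 0, 0],
    ![-1, 0, 1, 0, 0, 0, 0, -1, 0, 0, 0, 0, 0, 0, 0, 0, -1, 0, 0, 0, 0, 1, 0],
    ![-1, 0, 0, 0, 0, -1, 0, 0, 1, 0, 0, 0, 0, 0, 0, 1, 0, 0, -1, 0, 0, 0, 0],
    ![-1, 0, 0, 0, 0, 1, -1, 0, 0, 0, 0, 0, 0, 0, 0, 0, 0, -1, 1, 0, 0, 0, 0]]

private def V23_47 : Fin 12 → ZMod 23 → ℤ :=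
  ![![1, 0, 0, 0, 0, 0, 0, 0, 0, 0, 0, 0, 0, 0, 0, 0, 0, 0, 0, 0, 0, 0, 0],
    ![-1, 0, 0, 0, 0, 0, 0, 0, 0, 0, 1, -1, -1, 1, 0, 0, 0, 0, 0, 0, 0, 0, 0],
    ![1, 1, 0, -1, 0, 0, 0, 1, -1, -2, 1, 1, 1, 1, -2, -1, 1, 0, 0, 0, -1, 0, 1],
    ![-1, -1, -2, 0, 2, 2, 1, -1, 1, 2, -2, -2, -2, -2, 2, 1, -1, 1, 2, 2, 0, -2, -1],
    ![7, 3, 4, 1, -5, -4, -7, -6, 0, 2, 4, 5, 5, 4, 2, 0, -6, -7, -4, -5, 1, 4, 3],
    ![-21, -10, -6, -2, 12, 12, 14, 14, 4, -5, -7, -16, -16, -7, -5, 4, 14, 14, 12, 12, -2, -6, -10],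
    ![15, 1, 2, 7, -11, -3, -5, -11, 4, -2, 2, 9, 9, 2, -2, 4, -11, -5, -3, -11, 7, 2, 1],
    ![-21, 29, 9, -22, 17, -22, -9, 5, -21, 12, 6, 6, 6, 6, 12, -21, 5, -9, -22, 17, -22, 9, 29],
    ![-1, 27, 9, -21, 9, -23, -37, 6, -7, -9, 29, 18, 18, 29, -9, -7, 6, -37, -23, 9, -21, 9, 27],
    ![7, 23, 31, -13, -34, -19, -17, -28, -21, 18, 40, 16, 16, 40, 18, -21, -28, -17, -19, -34, -13, 31, 23],
    ![-11, 18, 33, 0, -25, -1, 27, -17, -27, 4, 12, -18, -18, 12, 4, -27, -17, 27, -1, -25, 0, 33, 18],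
    ![-45, 2, 2, 2, 2, 2, 2, 2, 2, 2, 2, 2, 2, 2, 2, 2, 2, 2, 2, 2, 2, 2, 2]]

private theorem check23_47 : (∀ i, c23_47 (-i) = c23_47 i) ∧
    (∀ (k : Fin 11) i, Y23_47 k (((k.1 + 1 : ℕ) : ZMod 23) * i) = c23_47 i) ∧
    (∀ i, V23_47 0 i = if i = 0 then 1 else 0) ∧
    (∀ (k : Fin 11) i, V23_47 k.succ i = ∑ j, V23_47 k.castSucc j * Y23_47 k (i - j)) ∧
    (∀ i, V23_47 (Fin.last 11) i = if i = 0 then -47 + 2 else 2) := by decide +kernel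

theorem conjugates_23_47 {K : Type*} [Field K] [NumberField K] [Fact (Nat.Prime 23)] [IsCyclotomicExtension {23} ℚ K] :
    ∃ (c : ZMod 23 → ℤ) (d : Fin 11 → (ZMod 23)ˣ) (s : ℤ), (∀ i, c (-i) = c i) ∧ s.natAbs = 47 ∧
      ∏ k, sigma 23 K (d k) (ev K c) = (s : 𝓞 K) :=
  ⟨c23_47, smallUnit rfl, -47, check23_47.1, rfl, prod_conjugates_of_cert _ _ Y23_47 V23_47
    check23_47.2.1 check23_47.2.2.1 check23_47.2.2.2.1 check23_47.2.2.2.2⟩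

private def c23_137 : ZMod 23 → ℤ :=
  ![-2, 0, 0, 0, 0, 0, 0, 0, 0, 1, -1, -1, -1, -1, 1, 0, 0, 0, 0, 0, 0, 0, 0]

private def Y23_137 : Fin 11 → ZMod 23 → ℤ :=
  ![![-2, 0, 0, 0, 0, 0, 0, 0, 0, 1, -1, -1, -1, -1, 1, 0, 0, 0, 0, 0, 0, 0, 0],
    ![-2, -1, 0, -1, 0, 1, 0, 0, 0, 0, 0, 0, 0, 0, 0, 0, 0, 0, 1, 0, -1, 0, -1],
    ![-2, 0, 0, 0, 1, 0, 0, -1, 0, 0, -1, 0, 0, -1, 0, 0, -1, 0, 0, 1, 0, 0, 0],
    ![-2, 0, -1, 0, 0, 0, -1, 0, 0, 0, 1, 0, 0, 1, 0, 0, 0, -1, 0, 0, 0, -1, 0],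
    ![-2, 1, 0, 0, -1, 0, 0, 0, 0, -1, 0, 0, 0, 0, -1, 0, 0, 0, 0, -1, 0, 0, 1],
    ![-2, 0, 0, -1, 0, 0, 0, 0, 1, -1, 0, 0, 0, 0, -1, 1, 0, 0, 0, 0, -1, 0, 0],
    ![-2, -1, 0, 0, 0, 0, 1, 0, -1, 0, 0, 0, 0, 0, 0, -1, 0, 1, 0, 0, 0, 0, -1],
    ![-2, 0, 0, 1, -1, 0, 0, 0, 0, 0, 0, -1, -1, 0, 0, 0, 0, 0, 0, -1, 1, 0, 0],
    ![-2, 0, -1, 0, 0, 0, 0, -1, 0, 0, 0, 1, 1, 0, 0, 0, -1, 0, 0, 0, 0, -1, 0],
    ![-2, 0, 1, 0, 0, -1, 0, 0, -1, 0, 0, 0, 0, 0, 0, -1, 0, 0, -1, 0, 0, 1, 0],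
    ![-2, 0, 0, 0, 0, -1, -1, 1, 0, 0, 0, 0, 0, 0, 0, 0, 1, -1, -1, 0, 0, 0, 0]]

private def V23_137 : Fin 12 → ZMod 23 → ℤ :=
  ![![1, 0, 0, 0, 0, 0, 0, 0, 0, 0, 0, 0, 0, 0, 0, 0, 0, 0, 0, 0, 0, 0, 0],
    ![-2, 0, 0, 0, 0, 0, 0, 0, 0, 1, -1, -1, -1, -1, 1, 0, 0, 0, 0, 0, 0, 0, 0],
    ![4, 2, 0, 2, 1, -3, -2, 0, -1, 1, 3, 3, 3, 3, 1, -1, 0, -2, -3, 1, 2, 0, 2],
    ![-12, -6, -2, -9, -3, 10, 1, 0, 8, -5, -13, -7, -7, -13, -5, 8, 0, 1, 10, -3, -9, -2, -6],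
    ![0, 5, 15, 15, 18, 20, 9, 6, 11, 9, 7, 13, 13, 7, 9, 11, 6, 9, 20, 18, 15, 15, 5],
    ![-44, -48, -53, -30, -39, -54, -40, -41, -52, -47, -33, -53, -53, -33, -47, -52, -41, -40, -54, -39, -30, -53, -48],
    ![138, 185, 229, 130, 162, 236, 139, 148, 214, 197, 120, 219, 219, 120, 197, 214, 148, 139, 236, 162, 130, 229, 185],
    ![-796, -698, -656, -779, -722, -619, -731, -743, -633, -708, -811, -694, -694, -811, -708, -633, -743, -731, -619, -722, -779, -656, -698],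
    ![2866, 2921, 2901, 2813, 2808, 2829, 2792, 2767, 2870, 2856, 2861, 2917, 2917, 2861, 2856, 2870, 2767, 2792, 2829, 2808, 2813, 2901, 2921],
    ![-11234, -11460, -11444, -11319, -11402, -11497, -11423, -11304, -11563, -11350, -11292, -11401, -11401, -11292, -11350, -11563, -11304, -11423, -11497, -11402, -11319, -11444, -11460],
    ![45700, 45620, 45590, 45586, 45550, 45508, 45536, 45629, 45560, 45630, 45621, 45608, 45608, 45621, 45630, 45560, 45629, 45536, 45508, 45550, 45586, 45590, 45620],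
    ![-182230, -182367, -182367, -182367, -182367, -182367, -182367, -182367, -182367, -182367, -182367, -182367, -182367, -182367, -182367, -182367, -182367, -182367, -182367, -182367, -182367, -182367, -182367]]

private theorem check23_137 : (∀ i, c23_137 (-i) = c23_137 i) ∧
    (∀ (k : Fin 11) i, Y23_137 k (((k.1 + 1 : ℕ) : ZMod 23) * i) = c23_137 i) ∧
    (∀ i, V23_137 0 i = if i = 0 then 1 else 0) ∧
    (∀ (k : Fin 11) i, V23_137 k.succ i = ∑ j, V23_137 k.castSucc j * Y23_137 k (i - j)) ∧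
    (∀ i, V23_137 (Fin.last 11) i = if i = 0 then 137 + -182367 else -182367) := by decide +kernel

theorem conjugates_23_137 {K : Type*} [Field K] [NumberField K] [Fact (Nat.Prime 23)] [IsCyclotomicExtension {23} ℚ K] :
    ∃ (c : ZMod 23 → ℤ) (d : Fin 11 → (ZMod 23)ˣ) (s : ℤ), (∀ i, c (-i) = c i) ∧ s.natAbs = 137 ∧
      ∏ k, sigma 23 K (d k) (ev K c) = (s : 𝓞 K) :=
  ⟨c23_137, smallUnit rfl, 137, check23_137.1, rfl, prod_conjugates_of_cert _ _ Y23_137 V23_137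
    check23_137.2.1 check23_137.2.2.1 check23_137.2.2.2.1 check23_137.2.2.2.2⟩

private def c23_139 : ZMod 23 → ℤ :=
  ![1, 0, 0, 0, 0, 0, 0, 0, 0, 0, 1, -1, -1, 1, 0, 0, 0, 0, 0, 0, 0, 0, 0]

private def Y23_139 : Fin 11 → ZMod 23 → ℤ :=
  ![![1, 0, 0, 0, 0, 0, 0, 0, 0, 0, 1, -1, -1, 1, 0, 0, 0, 0, 0, 0, 0, 0, 0],
    ![1, -1, 0, 1, 0, 0, 0, 0, 0, 0, 0, 0, 0, 0, 0, 0, 0, 0, 0, 0, 1, 0, -1],
    ![1, 0, 0, 0, 0, 0, 0, 1, 0, 0, -1, 0, 0, -1, 0, 0, 1, 0, 0, 0, 0, 0, 0],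
    ![1, 0, -1, 0, 0, 0, 1, 0, 0, 0, 0, 0, 0, 0, 0, 0, 0, 1, 0, 0, 0, -1, 0],
    ![1, 0, 0, 0, 1, 0, 0, 0, 0, -1, 0, 0, 0, 0, -1, 0, 0, 0, 0, 1, 0, 0, 0],
    ![1, 0, 0, -1, 0, 0, 0, 0, 0, 1, 0, 0, 0, 0, 1, 0, 0, 0, 0, 0, -1, 0, 0],
    ![1, 1, 0, 0, 0, 0, 0, 0, -1, 0, 0, 0, 0, 0, 0, -1, 0, 0, 0, 0, 0, 0, 1],
    ![1, 0, 0, 0, -1, 0, 0, 0, 0, 0, 0, 1, 1, 0, 0, 0, 0, 0, 0, -1, 0, 0, 0],
    ![1, 0, 1, 0, 0, 0, 0, -1, 0, 0, 0, 0, 0, 0, 0, 0, -1, 0, 0, 0, 0, 1, 0],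
    ![1, 0, 0, 0, 0, -1, 0, 0, 1, 0, 0, 0, 0, 0, 0, 1, 0, 0, -1, 0, 0, 0, 0],
    ![1, 0, 0, 0, 0, 1, -1, 0, 0, 0, 0, 0, 0, 0, 0, 0, 0, -1, 1, 0, 0, 0, 0]]

private def V23_139 : Fin 12 → ZMod 23 → ℤ :=
  ![![1, 0, 0, 0, 0, 0, 0, 0, 0, 0, 0, 0, 0, 0, 0, 0, 0, 0, 0, 0, 0, 0, 0],
    ![1, 0, 0, 0, 0, 0, 0, 0, 0, 0, 1, -1, -1, 1, 0, 0, 0, 0, 0, 0, 0, 0, 0],
    ![1, -1, 0, 1, 0, 0, 0, 1, -1, -2, 3, -1, -1, 3, -2, -1, 1, 0, 0, 0, 1, 0, -1],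
    ![-3, 1, 0, 0, 2, 0, 1, -1, -3, 0, 2, 0, 0, 2, 0, -3, -1, 1, 0, 2, 0, 0, 1],
    ![-1, -1, 0, -1, 3, 2, -1, 2, -6, -2, 6, -1, -1, 6, -2, -6, 2, -1, 2, 3, -1, 0, -1],
    ![9, 0, -2, 2, -12, -2, 12, -2, -2, 5, 1, -4, -4, 1, 5, -2, -2, 12, -2, -12, 2, -2, 0],
    ![15, 13, -6, -11, -11, -5, 5, 5, 16, 4, -10, -7, -7, -10, 4, 16, 5, 5, -5, -11, -11, -6, 13],
    ![9, 13, 1, -16, -9, 10, 7, -3, 5, -8, -2, -2, -2, -2, -8, 5, -3, 7, 10, -9, -16, 1, 13],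
    ![23, 15, -17, -29, -21, 9, 25, 16, -9, -31, 13, 18, 18, 13, -31, -9, 16, 25, 9, -21, -29, -17, 15],
    ![-43, -15, 7, 3, -2, -5, -33, 2, 23, 4, 26, 12, 12, 26, 4, 23, 2, -33, -5, -2, 3, 7, -15],
    ![13, 26, -5, -20, 19, 41, -19, -9, -47, -46, 10, 44, 44, 10, -46, -47, -9, -19, 41, 19, -20, -5, 26],
    ![133, -6, -6, -6, -6, -6, -6, -6, -6, -6, -6, -6, -6, -6, -6, -6, -6, -6, -6, -6, -6, -6, -6]]

private theorem check23_139 : (∀ i, c23_139 (-i) = c23_139 i) ∧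
    (∀ (k : Fin 11) i, Y23_139 k (((k.1 + 1 : ℕ) : ZMod 23) * i) = c23_139 i) ∧
    (∀ i, V23_139 0 i = if i = 0 then 1 else 0) ∧
    (∀ (k : Fin 11) i, V23_139 k.succ i = ∑ j, V23_139 k.castSucc j * Y23_139 k (i - j)) ∧
    (∀ i, V23_139 (Fin.last 11) i = if i = 0 then 139 + -6 else -6) := by decide +kernel

theorem conjugates_23_139 {K : Type*} [Field K] [NumberField K] [Fact (Nat.Prime 23)] [IsCyclotomicExtension {23} ℚ K] :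
    ∃ (c : ZMod 23 → ℤ) (d : Fin 11 → (ZMod 23)ˣ) (s : ℤ), (∀ i, c (-i) = c i) ∧ s.natAbs = 139 ∧
      ∏ k, sigma 23 K (d k) (ev K c) = (s : 𝓞 K) :=
  ⟨c23_139, smallUnit rfl, 139, check23_139.1, rfl, prod_conjugates_of_cert _ _ Y23_139 V23_139
    check23_139.2.1 check23_139.2.2.1 check23_139.2.2.2.1 check23_139.2.2.2.2⟩

private def c23_229 : ZMod 23 → ℤ :=
  ![-2, 0, 0, 0, 0, 0, 0, 0, 1, 1, 1, 0, 0, 1, 1, 1, 0, 0, 0, 0, 0, 0, 0]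

private def Y23_229 : Fin 11 → ZMod 23 → ℤ :=
  ![![-2, 0, 0, 0, 0, 0, 0, 0, 1, 1, 1, 0, 0, 1, 1, 1, 0, 0, 0, 0, 0, 0, 0],
    ![-2, 0, 0, 1, 0, 1, 0, 1, 0, 0, 0, 0, 0, 0, 0, 0, 1, 0, 1, 0, 1, 0, 0],
    ![-2, 1, 0, 0, 1, 0, 0, 1, 0, 0, 0, 0, 0, 0, 0, 0, 1, 0, 0, 1, 0, 0, 1],
    ![-2, 0, 0, 0, 0, 0, 1, 0, 0, 1, 1, 0, 0, 1, 1, 0, 0, 1, 0, 0, 0, 0, 0],
    ![-2, 1, 0, 0, 1, 0, 1, 0, 0, 0, 0, 0, 0, 0, 0, 0, 0, 1, 0, 1, 0, 0, 1],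
    ![-2, 0, 1, 0, 0, 0, 0, 0, 1, 1, 0, 0, 0, 0, 1, 1, 0, 0, 0, 0, 0, 1, 0],
    ![-2, 1, 0, 0, 0, 0, 1, 0, 0, 0, 1, 0, 0, 1, 0, 0, 0, 1, 0, 0, 0, 0, 1],
    ![-2, 0, 0, 1, 0, 1, 0, 0, 0, 0, 0, 1, 1, 0, 0, 0, 0, 0, 1, 0, 1, 0, 0],
    ![-2, 0, 1, 1, 0, 0, 0, 0, 0, 0, 0, 1, 1, 0, 0, 0, 0, 0, 0, 0, 1, 1, 0],
    ![-2, 0, 1, 0, 0, 0, 0, 0, 1, 0, 0, 1, 1, 0, 0, 1, 0, 0, 0, 0, 0, 1, 0],
    ![-2, 0, 0, 0, 1, 1, 0, 1, 0, 0, 0, 0, 0, 0, 0, 0, 1, 0, 1, 1, 0, 0, 0]]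

private def V23_229 : Fin 12 → ZMod 23 → ℤ :=
  ![![1, 0, 0, 0, 0, 0, 0, 0, 0, 0, 0, 0, 0, 0, 0, 0, 0, 0, 0, 0, 0, 0, 0],
    ![-2, 0, 0, 0, 0, 0, 0, 0, 1, 1, 1, 0, 0, 1, 1, 1, 0, 0, 0, 0, 0, 0, 0],
    ![4, 1, 1, 0, 1, 0, 2, 0, 0, -1, 0, 2, 2, 0, -1, 0, 0, 2, 0, 1, 0, 1, 1],
    ![-4, 5, 1, 4, 4, 6, -2, 7, 3, 3, 4, -1, -1, 4, 3, 3, 7, -2, 6, 4, 4, 1, 5],
    ![18, 12, 13, 7, 8, 8, 17, 5, 8, 12, 12, 17, 17, 12, 12, 8, 5, 17, 8, 8, 7, 13, 12],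
    ![38, 35, 39, 43, 50, 62, 39, 63, 51, 31, 47, 33, 33, 47, 31, 51, 63, 39, 62, 50, 43, 39, 35],
    ![166, 200, 192, 178, 170, 153, 187, 155, 159, 208, 176, 187, 187, 176, 208, 159, 155, 187, 153, 170, 178, 192, 200],
    ![794, 661, 669, 723, 754, 750, 612, 777, 790, 626, 712, 721, 721, 712, 626, 790, 777, 612, 750, 754, 723, 669, 661],
    ![2800, 2900, 2911, 2835, 2784, 2854, 2869, 2806, 2803, 2853, 2935, 2818, 2818, 2935, 2853, 2803, 2806, 2869, 2854, 2784, 2835, 2911, 2900],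
    ![11528, 11383, 11304, 11409, 11527, 11322, 11260, 11452, 11489, 11351, 11303, 11508, 11508, 11303, 11351, 11489, 11452, 11260, 11322, 11527, 11409, 11304, 11383],
    ![45546, 45640, 45664, 45557, 45486, 45641, 45733, 45490, 45501, 45614, 45704, 45485, 45485, 45704, 45614, 45501, 45490, 45733, 45641, 45486, 45557, 45664, 45640],
    ![182142, 182371, 182371, 182371, 182371, 182371, 182371, 182371, 182371, 182371, 182371, 182371, 182371, 182371, 182371, 182371, 182371, 182371, 182371, 182371, 182371, 182371, 182371]]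

private theorem check23_229 : (∀ i, c23_229 (-i) = c23_229 i) ∧
    (∀ (k : Fin 11) i, Y23_229 k (((k.1 + 1 : ℕ) : ZMod 23) * i) = c23_229 i) ∧
    (∀ i, V23_229 0 i = if i = 0 then 1 else 0) ∧
    (∀ (k : Fin 11) i, V23_229 k.succ i = ∑ j, V23_229 k.castSucc j * Y23_229 k (i - j)) ∧
    (∀ i, V23_229 (Fin.last 11) i = if i = 0 then -229 + 182371 else 182371) := by decide +kernel

theorem conjugates_23_229 {K : Type*} [Field K] [NumberField K] [Fact (Nat.Prime 23)] [IsCyclotomicExtension {23} ℚ K] :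
    ∃ (c : ZMod 23 → ℤ) (d : Fin 11 → (ZMod 23)ˣ) (s : ℤ), (∀ i, c (-i) = c i) ∧ s.natAbs = 229 ∧
      ∏ k, sigma 23 K (d k) (ev K c) = (s : 𝓞 K) :=
  ⟨c23_229, smallUnit rfl, -229, check23_229.1, rfl, prod_conjugates_of_cert _ _ Y23_229 V23_229
    check23_229.2.1 check23_229.2.2.1 check23_229.2.2.2.1 check23_229.2.2.2.2⟩

private def c23_277 : ZMod 23 → ℤ :=
  ![2, 0, 0, 0, 0, 0, 0, 0, 1, 0, 0, 1, 1, 0, 0, 1, 0, 0, 0, 0, 0, 0, 0]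

private def Y23_277 : Fin 11 → ZMod 23 → ℤ :=
  ![![2, 0, 0, 0, 0, 0, 0, 0, 1, 0, 0, 1, 1, 0, 0, 1, 0, 0, 0, 0, 0, 0, 0],
    ![2, 1, 0, 0, 0, 0, 0, 1, 0, 0, 0, 0, 0, 0, 0, 0, 1, 0, 0, 0, 0, 0, 1],
    ![2, 1, 0, 0, 0, 0, 0, 0, 0, 0, 1, 0, 0, 1, 0, 0, 0, 0, 0, 0, 0, 0, 1],
    ![2, 0, 1, 0, 0, 0, 0, 0, 0, 1, 0, 0, 0, 0, 1, 0, 0, 0, 0, 0, 0, 1, 0],
    ![2, 0, 0, 0, 0, 0, 1, 0, 0, 1, 0, 0, 0, 0, 1, 0, 0, 1, 0, 0, 0, 0, 0],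
    ![2, 0, 1, 1, 0, 0, 0, 0, 0, 0, 0, 0, 0, 0, 0, 0, 0, 0, 0, 0, 1, 1, 0],
    ![2, 0, 0, 0, 0, 0, 0, 0, 1, 0, 1, 0, 0, 1, 0, 1, 0, 0, 0, 0, 0, 0, 0],
    ![2, 0, 0, 0, 1, 1, 0, 0, 0, 0, 0, 0, 0, 0, 0, 0, 0, 0, 1, 1, 0, 0, 0],
    ![2, 0, 0, 1, 0, 0, 0, 1, 0, 0, 0, 0, 0, 0, 0, 0, 1, 0, 0, 0, 1, 0, 0],
    ![2, 0, 0, 0, 0, 1, 0, 0, 0, 0, 0, 1, 1, 0, 0, 0, 0, 0, 1, 0, 0, 0, 0],
    ![2, 0, 0, 0, 1, 0, 1, 0, 0, 0, 0, 0, 0, 0, 0, 0, 0, 1, 0, 1, 0, 0, 0]]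

private def V23_277 : Fin 12 → ZMod 23 → ℤ :=
  ![![1, 0, 0, 0, 0, 0, 0, 0, 0, 0, 0, 0, 0, 0, 0, 0, 0, 0, 0, 0, 0, 0, 0],
    ![2, 0, 0, 0, 0, 0, 0, 0, 1, 0, 0, 1, 1, 0, 0, 1, 0, 0, 0, 0, 0, 0, 0],
    ![4, 3, 0, 0, 1, 1, 0, 3, 3, 1, 1, 3, 3, 1, 1, 3, 3, 0, 1, 1, 0, 0, 3],
    ![16, 14, 9, 5, 4, 7, 8, 9, 11, 10, 10, 13, 13, 10, 10, 11, 9, 8, 7, 4, 5, 9, 14],
    ![70, 68, 60, 52, 42, 42, 47, 53, 62, 65, 62, 60, 60, 62, 65, 62, 53, 47, 42, 42, 52, 60, 68],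
    ![364, 355, 337, 328, 310, 319, 338, 349, 364, 356, 329, 321, 321, 329, 356, 364, 349, 338, 319, 310, 328, 337, 355],
    ![2058, 2040, 2022, 2032, 1999, 2016, 2034, 2012, 2035, 2041, 2021, 2047, 2047, 2021, 2041, 2035, 2012, 2034, 2016, 1999, 2032, 2022, 2040],
    ![12228, 12221, 12181, 12160, 12119, 12136, 12142, 12165, 12178, 12195, 12170, 12187, 12187, 12170, 12195, 12178, 12165, 12142, 12136, 12119, 12160, 12181, 12221],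
    ![72966, 72999, 73010, 73065, 73060, 73086, 73043, 73045, 72992, 73010, 72991, 73024, 73024, 72991, 73010, 72992, 73045, 73043, 73086, 73060, 73065, 73010, 72999],
    ![438152, 438103, 438201, 438190, 438253, 438208, 438151, 438117, 438085, 438142, 438126, 438196, 438196, 438126, 438142, 438085, 438117, 438151, 438208, 438253, 438190, 438201, 438103],
    ![2629112, 2628932, 2628977, 2628893, 2628953, 2628962, 2628960, 2629092, 2628929, 2629070, 2628849, 2628915, 2628915, 2628849, 2629070, 2628929, 2629092, 2628960, 2628962, 2628953, 2628893, 2628977, 2628932],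
    ![15774050, 15773773, 15773773, 15773773, 15773773, 15773773, 15773773, 15773773, 15773773, 15773773, 15773773, 15773773, 15773773, 15773773, 15773773, 15773773, 15773773, 15773773, 15773773, 15773773, 15773773, 15773773, 15773773]]

private theorem check23_277 : (∀ i, c23_277 (-i) = c23_277 i) ∧
    (∀ (k : Fin 11) i, Y23_277 k (((k.1 + 1 : ℕ) : ZMod 23) * i) = c23_277 i) ∧
    (∀ i, V23_277 0 i = if i = 0 then 1 else 0) ∧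
    (∀ (k : Fin 11) i, V23_277 k.succ i = ∑ j, V23_277 k.castSucc j * Y23_277 k (i - j)) ∧
    (∀ i, V23_277 (Fin.last 11) i = if i = 0 then 277 + 15773773 else 15773773) := by decide +kernel

theorem conjugates_23_277 {K : Type*} [Field K] [NumberField K] [Fact (Nat.Prime 23)] [IsCyclotomicExtension {23} ℚ K] :
    ∃ (c : ZMod 23 → ℤ) (d : Fin 11 → (ZMod 23)ˣ) (s : ℤ), (∀ i, c (-i) = c i) ∧ s.natAbs = 277 ∧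
      ∏ k, sigma 23 K (d k) (ev K c) = (s : 𝓞 K) :=
  ⟨c23_277, smallUnit rfl, 277, check23_277.1, rfl, prod_conjugates_of_cert _ _ Y23_277 V23_277
    check23_277.2.1 check23_277.2.2.1 check23_277.2.2.2.1 check23_277.2.2.2.2⟩

private def c23_367 : ZMod 23 → ℤ :=
  ![-2, 0, 0, 0, 0, 0, 0, 0, 0, 0, 1, -1, -1, 1, 0, 0, 0, 0, 0, 0, 0, 0, 0]

private def Y23_367 : Fin 11 → ZMod 23 → ℤ :=
  ![![-2, 0, 0, 0, 0, 0, 0, 0, 0, 0, 1, -1, -1, 1, 0, 0, 0, 0, 0, 0, 0, 0, 0],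
    ![-2, -1, 0, 1, 0, 0, 0, 0, 0, 0, 0, 0, 0, 0, 0, 0, 0, 0, 0, 0, 1, 0, -1],
    ![-2, 0, 0, 0, 0, 0, 0, 1, 0, 0, -1, 0, 0, -1, 0, 0, 1, 0, 0, 0, 0, 0, 0],
    ![-2, 0, -1, 0, 0, 0, 1, 0, 0, 0, 0, 0, 0, 0, 0, 0, 0, 1, 0, 0, 0, -1, 0],
    ![-2, 0, 0, 0, 1, 0, 0, 0, 0, -1, 0, 0, 0, 0, -1, 0, 0, 0, 0, 1, 0, 0, 0],
    ![-2, 0, 0, -1, 0, 0, 0, 0, 0, 1, 0, 0, 0, 0, 1, 0, 0, 0, 0, 0, -1, 0, 0],
    ![-2, 1, 0, 0, 0, 0, 0, 0, -1, 0, 0, 0, 0, 0, 0, -1, 0, 0, 0, 0, 0, 0, 1],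
    ![-2, 0, 0, 0, -1, 0, 0, 0, 0, 0, 0, 1, 1, 0, 0, 0, 0, 0, 0, -1, 0, 0, 0],
    ![-2, 0, 1, 0, 0, 0, 0, -1, 0, 0, 0, 0, 0, 0, 0, 0, -1, 0, 0, 0, 0, 1, 0],
    ![-2, 0, 0, 0, 0, -1, 0, 0, 1, 0, 0, 0, 0, 0, 0, 1, 0, 0, -1, 0, 0, 0, 0],
    ![-2, 0, 0, 0, 0, 1, -1, 0, 0, 0, 0, 0, 0, 0, 0, 0, 0, -1, 1, 0, 0, 0, 0]]

private def V23_367 : Fin 12 → ZMod 23 → ℤ :=
  ![![1, 0, 0, 0, 0, 0, 0, 0, 0, 0, 0, 0, 0, 0, 0, 0, 0, 0, 0, 0, 0, 0, 0],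
    ![-2, 0, 0, 0, 0, 0, 0, 0, 0, 0, 1, -1, -1, 1, 0, 0, 0, 0, 0, 0, 0, 0, 0],
    ![4, 2, 0, -2, 0, 0, 0, 1, -1, -2, 0, 2, 2, 0, -2, -1, 1, 0, 0, 0, -2, 0, 2],
    ![-6, -5, -3, 3, 2, 3, 1, 2, 3, 3, -4, -6, -6, -4, 3, 3, 2, 1, 3, 2, 3, -3, -5],
    ![20, 17, 15, 2, -9, -22, -19, -19, -3, 4, 15, 17, 17, 15, 4, -3, -19, -19, -22, -9, 2, 15, 17],
    ![-66, -66, -32, -4, 42, 70, 69, 61, 16, -13, -53, -73, -73, -53, -13, 16, 61, 69, 70, 42, -4, -32, -66],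
    ![114, 85, 48, 1, -62, -95, -109, -82, -26, 34, 74, 107, 107, 74, 34, -26, -82, -109, -95, -62, 1, 48, 85],
    ![-6, 40, 25, -28, -15, -56, -41, -30, -28, 4, 40, 28, 28, 40, 4, -28, -30, -41, -56, -15, -28, 25, 40],
    ![98, 72, 10, 22, 6, -3, -80, -11, 0, 5, 22, 36, 36, 22, 5, 0, -11, -80, -3, 6, 22, 10, 72],
    ![-154, 30, 82, -3, -140, -29, 72, -79, -130, 16, 50, -48, -48, 50, 16, -130, -79, 72, -29, -140, -3, 82, 30],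
    ![106, -55, 40, -23, 46, 209, -28, 24, -20, 194, 112, -40, -40, 112, 194, -20, 24, -28, 209, 46, -23, 40, -55],
    ![262, -105, -105, -105, -105, -105, -105, -105, -105, -105, -105, -105, -105, -105, -105, -105, -105, -105, -105, -105, -105, -105, -105]]

private theorem check23_367 : (∀ i, c23_367 (-i) = c23_367 i) ∧
    (∀ (k : Fin 11) i, Y23_367 k (((k.1 + 1 : ℕ) : ZMod 23) * i) = c23_367 i) ∧
    (∀ i, V23_367 0 i = if i = 0 then 1 else 0) ∧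
    (∀ (k : Fin 11) i, V23_367 k.succ i = ∑ j, V23_367 k.castSucc j * Y23_367 k (i - j)) ∧
    (∀ i, V23_367 (Fin.last 11) i = if i = 0 then 367 + -105 else -105) := by decide +kernel

theorem conjugates_23_367 {K : Type*} [Field K] [NumberField K] [Fact (Nat.Prime 23)] [IsCyclotomicExtension {23} ℚ K] :
    ∃ (c : ZMod 23 → ℤ) (d : Fin 11 → (ZMod 23)ˣ) (s : ℤ), (∀ i, c (-i) = c i) ∧ s.natAbs = 367 ∧
      ∏ k, sigma 23 K (d k) (ev K c) = (s : 𝓞 K) :=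
  ⟨c23_367, smallUnit rfl, 367, check23_367.1, rfl, prod_conjugates_of_cert _ _ Y23_367 V23_367
    check23_367.2.1 check23_367.2.2.1 check23_367.2.2.2.1 check23_367.2.2.2.2⟩

private def c23_461 : ZMod 23 → ℤ :=
  ![0, 0, 0, 0, 0, 0, 0, 1, 0, 0, -1, 1, 1, -1, 0, 0, 1, 0, 0, 0, 0, 0, 0]

private def Y23_461 : Fin 11 → ZMod 23 → ℤ :=
  ![![0, 0, 0, 0, 0, 0, 0, 1, 0, 0, -1, 1, 1, -1, 0, 0, 1, 0, 0, 0, 0, 0, 0],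
    ![0, 1, 0, -1, 0, 0, 0, 0, 0, 1, 0, 0, 0, 0, 1, 0, 0, 0, 0, 0, -1, 0, 1],
    ![0, 0, 1, 0, 0, 0, 0, -1, 0, 0, 1, 0, 0, 1, 0, 0, -1, 0, 0, 0, 0, 1, 0],
    ![0, 0, 1, 0, 0, 1, -1, 0, 0, 0, 0, 0, 0, 0, 0, 0, 0, -1, 1, 0, 0, 1, 0],
    ![0, 0, 0, 0, -1, 0, 0, 0, 0, 1, 0, 1, 1, 0, 1, 0, 0, 0, 0, -1, 0, 0, 0],
    ![0, 0, 0, 1, 1, 0, 0, 0, 0, -1, 0, 0, 0, 0, -1, 0, 0, 0, 0, 1, 1, 0, 0],
    ![0, -1, 0, 1, 0, 0, 0, 0, 1, 0, 0, 0, 0, 0, 0, 1, 0, 0, 0, 0, 1, 0, -1],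
    ![0, 0, 0, 0, 1, 0, 0, 0, 0, 0, 1, -1, -1, 1, 0, 0, 0, 0, 0, 1, 0, 0, 0],
    ![0, 0, -1, 0, 0, 0, 1, 1, 0, 0, 0, 0, 0, 0, 0, 0, 1, 1, 0, 0, 0, -1, 0],
    ![0, 1, 0, 0, 0, 1, 0, 0, -1, 0, 0, 0, 0, 0, 0, -1, 0, 0, 1, 0, 0, 0, 1],
    ![0, 0, 0, 0, 0, -1, 1, 0, 1, 0, 0, 0, 0, 0, 0, 1, 0, 1, -1, 0, 0, 0, 0]]

private def V23_461 : Fin 12 → ZMod 23 → ℤ :=
  ![![1, 0, 0, 0, 0, 0, 0, 0, 0, 0, 0, 0, 0, 0, 0, 0, 0, 0, 0, 0, 0, 0, 0],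
    ![0, 0, 0, 0, 0, 0, 0, 1, 0, 0, -1, 1, 1, -1, 0, 0, 1, 0, 0, 0, 0, 0, 0],
    ![0, -1, 2, 1, -2, 0, 1, 2, 0, -2, 1, 0, 0, 1, -2, 0, 2, 1, 0, -2, 1, 2, -1],
    ![2, -3, 0, 3, 1, 1, -2, 2, 5, -5, -1, 2, 2, -1, -5, 5, 2, -2, 1, 1, 3, 0, -3],
    ![6, -4, 2, 5, -9, 7, 1, 2, 4, -8, 10, -5, -5, 10, -8, 4, 2, 1, 7, -9, 5, 2, -4],
    ![-8, 7, -4, -6, 13, -2, 5, 2, 7, 3, -8, 3, 3, -8, 3, 7, 2, 5, -2, 13, -6, -4, 7],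
    ![8, 2, 1, -2, 18, -3, -16, 4, 5, 8, -18, 29, 29, -18, 8, 5, 4, -16, -3, 18, -2, 1, 2],
    ![2, 22, -35, -1, 58, -16, 14, 18, 26, 12, -53, 18, 18, -53, 12, 26, 18, 14, -16, 58, -1, -35, 22],
    ![-26, 48, 64, -33, 10, 12, -10, -12, -32, 47, 40, 7, 7, 40, 47, -32, -12, -10, 12, 10, -33, 64, 48],
    ![-172, -57, 53, 4, 24, 171, 91, 50, 97, -8, -20, -63, -63, -20, -8, 97, 50, 91, 171, 24, 4, 53, -57],
    ![34, -46, -70, 119, 149, -61, 56, 138, 148, 59, -27, 30, 30, -27, 59, 148, 138, 56, -61, 149, 119, -70, -46],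
    ![530, 69, 69, 69, 69, 69, 69, 69, 69, 69, 69, 69, 69, 69, 69, 69, 69, 69, 69, 69, 69, 69, 69]]

private theorem check23_461 : (∀ i, c23_461 (-i) = c23_461 i) ∧
    (∀ (k : Fin 11) i, Y23_461 k (((k.1 + 1 : ℕ) : ZMod 23) * i) = c23_461 i) ∧
    (∀ i, V23_461 0 i = if i = 0 then 1 else 0) ∧
    (∀ (k : Fin 11) i, V23_461 k.succ i = ∑ j, V23_461 k.castSucc j * Y23_461 k (i - j)) ∧
    (∀ i, V23_461 (Fin.last 11) i = if i = 0 then 461 + 69 else 69) := by decide +kernel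

theorem conjugates_23_461 {K : Type*} [Field K] [NumberField K] [Fact (Nat.Prime 23)] [IsCyclotomicExtension {23} ℚ K] :
    ∃ (c : ZMod 23 → ℤ) (d : Fin 11 → (ZMod 23)ˣ) (s : ℤ), (∀ i, c (-i) = c i) ∧ s.natAbs = 461 ∧
      ∏ k, sigma 23 K (d k) (ev K c) = (s : 𝓞 K) :=
  ⟨c23_461, smallUnit rfl, 461, check23_461.1, rfl, prod_conjugates_of_cert _ _ Y23_461 V23_461
    check23_461.2.1 check23_461.2.2.1 check23_461.2.2.2.1 check23_461.2.2.2.2⟩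

private def c23_599 : ZMod 23 → ℤ :=
  ![2, 0, 0, 0, 0, 0, 0, 0, 0, 1, 0, -1, -1, 0, 1, 0, 0, 0, 0, 0, 0, 0, 0]

private def Y23_599 : Fin 11 → ZMod 23 → ℤ :=
  ![![2, 0, 0, 0, 0, 0, 0, 0, 0, 1, 0, -1, -1, 0, 1, 0, 0, 0, 0, 0, 0, 0, 0],
    ![2, -1, 0, 0, 0, 1, 0, 0, 0, 0, 0, 0, 0, 0, 0, 0, 0, 0, 1, 0, 0, 0, -1],
    ![2, 0, 0, 0, 1, 0, 0, 0, 0, 0, -1, 0, 0, -1, 0, 0, 0, 0, 0, 1, 0, 0, 0],
    ![2, 0, -1, 0, 0, 0, 0, 0, 0, 0, 1, 0, 0, 1, 0, 0, 0, 0, 0, 0, 0, -1, 0],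
    ![2, 1, 0, 0, 0, 0, 0, 0, 0, -1, 0, 0, 0, 0, -1, 0, 0, 0, 0, 0, 0, 0, 1],
    ![2, 0, 0, -1, 0, 0, 0, 0, 1, 0, 0, 0, 0, 0, 0, 1, 0, 0, 0, 0, -1, 0, 0],
    ![2, 0, 0, 0, 0, 0, 1, 0, -1, 0, 0, 0, 0, 0, 0, -1, 0, 1, 0, 0, 0, 0, 0],
    ![2, 0, 0, 1, -1, 0, 0, 0, 0, 0, 0, 0, 0, 0, 0, 0, 0, 0, 0, -1, 1, 0, 0],
    ![2, 0, 0, 0, 0, 0, 0, -1, 0, 0, 0, 1, 1, 0, 0, 0, -1, 0, 0, 0, 0, 0, 0],
    ![2, 0, 1, 0, 0, -1, 0, 0, 0, 0, 0, 0, 0, 0, 0, 0, 0, 0, -1, 0, 0, 1, 0],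
    ![2, 0, 0, 0, 0, 0, -1, 1, 0, 0, 0, 0, 0, 0, 0, 0, 1, -1, 0, 0, 0, 0, 0]]

private def V23_599 : Fin 12 → ZMod 23 → ℤ :=
  ![![1, 0, 0, 0, 0, 0, 0, 0, 0, 0, 0, 0, 0, 0, 0, 0, 0, 0, 0, 0, 0, 0, 0],
    ![2, 0, 0, 0, 0, 0, 0, 0, 0, 1, 0, -1, -1, 0, 1, 0, 0, 0, 0, 0, 0, 0, 0],
    ![4, -2, 0, 0, 1, 2, -1, -1, -1, 3, 0, -1, -1, 0, 3, -1, -1, -1, 2, 1, 0, 0, -2],
    ![10, -4, 1, -2, 3, 4, -2, -2, -4, 9, -2, -2, -2, -2, 9, -4, -2, -2, 4, 3, -2, 1, -4],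
    ![14, 5, -17, -8, 14, 12, -2, -21, 1, 21, 10, -14, -14, 10, 21, 1, -21, -2, 12, 14, -8, -17, 5],
    ![-4, -4, -2, -3, 10, 1, -6, -5, -1, 27, 8, -7, -7, 8, 27, -1, -5, -6, 1, 10, -3, -2, -4],
    ![-4, 6, 1, -2, 32, 10, -11, -33, -5, 57, 12, -33, -33, 12, 57, -5, -33, -11, 10, 32, -2, 1, 6],
    ![-20, -35, 28, 74, 78, -17, -117, -49, 85, 112, 12, -97, -97, 12, 112, 85, -49, -117, -17, 78, 74, 28, -35],
    ![-48, -21, 93, 95, 7, 2, -88, 15, 75, 15, -8, -33, -33, -8, 15, 75, 15, -88, 2, 7, 95, 93, -21],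
    ![-192, -70, 176, 281, 42, -129, -233, 72, 198, 110, 49, -144, -144, 49, 110, 198, 72, -233, -129, 42, 281, 176, -70],
    ![226, 262, -151, -11, -13, 238, -12, 93, -118, -4, 83, 32, 32, 83, -4, -118, 93, -12, 238, -13, -11, -151, 262],
    ![662, 63, 63, 63, 63, 63, 63, 63, 63, 63, 63, 63, 63, 63, 63, 63, 63, 63, 63, 63, 63, 63, 63]]

private theorem check23_599 : (∀ i, c23_599 (-i) = c23_599 i) ∧
    (∀ (k : Fin 11) i, Y23_599 k (((k.1 + 1 : ℕ) : ZMod 23) * i) = c23_599 i) ∧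
    (∀ i, V23_599 0 i = if i = 0 then 1 else 0) ∧
    (∀ (k : Fin 11) i, V23_599 k.succ i = ∑ j, V23_599 k.castSucc j * Y23_599 k (i - j)) ∧
    (∀ i, V23_599 (Fin.last 11) i = if i = 0 then 599 + 63 else 63) := by decide +kernel

theorem conjugates_23_599 {K : Type*} [Field K] [NumberField K] [Fact (Nat.Prime 23)] [IsCyclotomicExtension {23} ℚ K] :
    ∃ (c : ZMod 23 → ℤ) (d : Fin 11 → (ZMod 23)ˣ) (s : ℤ), (∀ i, c (-i) = c i) ∧ s.natAbs = 599 ∧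
      ∏ k, sigma 23 K (d k) (ev K c) = (s : 𝓞 K) :=
  ⟨c23_599, smallUnit rfl, 599, check23_599.1, rfl, prod_conjugates_of_cert _ _ Y23_599 V23_599
    check23_599.2.1 check23_599.2.2.1 check23_599.2.2.2.1 check23_599.2.2.2.2⟩

private def c23_643 : ZMod 23 → ℤ :=
  ![2, 0, 0, 0, 0, 0, 0, 0, 1, 1, -1, 0, 0, -1, 1, 1, 0, 0, 0, 0, 0, 0, 0]

private def Y23_643 : Fin 11 → ZMod 23 → ℤ :=
  ![![2, 0, 0, 0, 0, 0, 0, 0, 1, 1, -1, 0, 0, -1, 1, 1, 0, 0, 0, 0, 0, 0, 0],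
    ![2, 0, 0, -1, 0, 1, 0, 1, 0, 0, 0, 0, 0, 0, 0, 0, 1, 0, 1, 0, -1, 0, 0],
    ![2, 1, 0, 0, 1, 0, 0, -1, 0, 0, 0, 0, 0, 0, 0, 0, -1, 0, 0, 1, 0, 0, 1],
    ![2, 0, 0, 0, 0, 0, -1, 0, 0, 1, 1, 0, 0, 1, 1, 0, 0, -1, 0, 0, 0, 0, 0],
    ![2, 1, 0, 0, -1, 0, 1, 0, 0, 0, 0, 0, 0, 0, 0, 0, 0, 1, 0, -1, 0, 0, 1],
    ![2, 0, 1, 0, 0, 0, 0, 0, 1, -1, 0, 0, 0, 0, -1, 1, 0, 0, 0, 0, 0, 1, 0],
    ![2, -1, 0, 0, 0, 0, 1, 0, 0, 0, 1, 0, 0, 1, 0, 0, 0, 1, 0, 0, 0, 0, -1],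
    ![2, 0, 0, 1, 0, 1, 0, 0, 0, 0, 0, -1, -1, 0, 0, 0, 0, 0, 1, 0, 1, 0, 0],
    ![2, 0, -1, 1, 0, 0, 0, 0, 0, 0, 0, 1, 1, 0, 0, 0, 0, 0, 0, 0, 1, -1, 0],
    ![2, 0, 1, 0, 0, 0, 0, 0, -1, 0, 0, 1, 1, 0, 0, -1, 0, 0, 0, 0, 0, 1, 0],
    ![2, 0, 0, 0, 1, -1, 0, 1, 0, 0, 0, 0, 0, 0, 0, 0, 1, 0, -1, 1, 0, 0, 0]]

private def V23_643 : Fin 12 → ZMod 23 → ℤ :=
  ![![1, 0, 0, 0, 0, 0, 0, 0, 0, 0, 0, 0, 0, 0, 0, 0, 0, 0, 0, 0, 0, 0, 0],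
    ![2, 0, 0, 0, 0, 0, 0, 0, 1, 1, -1, 0, 0, -1, 1, 1, 0, 0, 0, 0, 0, 0, 0],
    ![4, 1, 1, -2, 1, 0, -2, 4, 2, 3, 0, -2, -2, 0, 3, 2, 4, -2, 0, 1, -2, 1, 1],
    ![4, 5, -3, 2, 10, 4, 0, -3, 7, 3, 6, -1, -1, 6, 3, 7, -3, 0, 4, 10, 2, -3, 5],
    ![26, 24, -21, 1, 30, 28, 13, -21, 20, 20, 26, -5, -5, 26, 20, 20, -21, 13, 28, 30, 1, -21, 24],
    ![66, 31, 41, 29, 48, 74, 49, 45, 13, 53, 43, 53, 53, 43, 53, 13, 45, 49, 74, 48, 29, 41, 31],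
    ![134, 164, 190, 188, 170, 193, 211, 175, 149, 144, 188, 209, 209, 188, 144, 149, 175, 211, 193, 170, 188, 190, 164],
    ![738, 725, 705, 711, 692, 720, 742, 741, 696, 622, 690, 779, 779, 690, 622, 696, 741, 742, 720, 692, 711, 705, 725],
    ![2780, 2812, 2995, 2985, 2760, 2786, 2859, 2936, 2889, 2663, 2797, 2896, 2896, 2797, 2663, 2889, 2936, 2859, 2786, 2760, 2985, 2995, 2812],
    ![11332, 11275, 11508, 11563, 11239, 11330, 11362, 11526, 11549, 11229, 11349, 11476, 11476, 11349, 11229, 11549, 11526, 11362, 11330, 11239, 11563, 11508, 11275],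
    ![45534, 45458, 45454, 45703, 45708, 45725, 45467, 45356, 45753, 45894, 45668, 45335, 45335, 45668, 45894, 45753, 45356, 45467, 45725, 45708, 45703, 45454, 45458],
    ![181746, 182389, 182389, 182389, 182389, 182389, 182389, 182389, 182389, 182389, 182389, 182389, 182389, 182389, 182389, 182389, 182389, 182389, 182389, 182389, 182389, 182389, 182389]]

private theorem check23_643 : (∀ i, c23_643 (-i) = c23_643 i) ∧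
    (∀ (k : Fin 11) i, Y23_643 k (((k.1 + 1 : ℕ) : ZMod 23) * i) = c23_643 i) ∧
    (∀ i, V23_643 0 i = if i = 0 then 1 else 0) ∧
    (∀ (k : Fin 11) i, V23_643 k.succ i = ∑ j, V23_643 k.castSucc j * Y23_643 k (i - j)) ∧
    (∀ i, V23_643 (Fin.last 11) i = if i = 0 then -643 + 182389 else 182389) := by decide +kernel

theorem conjugates_23_643 {K : Type*} [Field K] [NumberField K] [Fact (Nat.Prime 23)] [IsCyclotomicExtension {23} ℚ K] :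
    ∃ (c : ZMod 23 → ℤ) (d : Fin 11 → (ZMod 23)ˣ) (s : ℤ), (∀ i, c (-i) = c i) ∧ s.natAbs = 643 ∧
      ∏ k, sigma 23 K (d k) (ev K c) = (s : 𝓞 K) :=
  ⟨c23_643, smallUnit rfl, -643, check23_643.1, rfl, prod_conjugates_of_cert _ _ Y23_643 V23_643
    check23_643.2.1 check23_643.2.2.1 check23_643.2.2.2.1 check23_643.2.2.2.2⟩

private def c23_691 : ZMod 23 → ℤ :=
  ![2, 0, 0, 0, 0, 0, 0, 0, 0, 1, 0, 1, 1, 0, 1, 0, 0, 0, 0, 0, 0, 0, 0]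

private def Y23_691 : Fin 11 → ZMod 23 → ℤ :=
  ![![2, 0, 0, 0, 0, 0, 0, 0, 0, 1, 0, 1, 1, 0, 1, 0, 0, 0, 0, 0, 0, 0, 0],
    ![2, 1, 0, 0, 0, 1, 0, 0, 0, 0, 0, 0, 0, 0, 0, 0, 0, 0, 1, 0, 0, 0, 1],
    ![2, 0, 0, 0, 1, 0, 0, 0, 0, 0, 1, 0, 0, 1, 0, 0, 0, 0, 0, 1, 0, 0, 0],
    ![2, 0, 1, 0, 0, 0, 0, 0, 0, 0, 1, 0, 0, 1, 0, 0, 0, 0, 0, 0, 0, 1, 0],
    ![2, 1, 0, 0, 0, 0, 0, 0, 0, 1, 0, 0, 0, 0, 1, 0, 0, 0, 0, 0, 0, 0, 1],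
    ![2, 0, 0, 1, 0, 0, 0, 0, 1, 0, 0, 0, 0, 0, 0, 1, 0, 0, 0, 0, 1, 0, 0],
    ![2, 0, 0, 0, 0, 0, 1, 0, 1, 0, 0, 0, 0, 0, 0, 1, 0, 1, 0, 0, 0, 0, 0],
    ![2, 0, 0, 1, 1, 0, 0, 0, 0, 0, 0, 0, 0, 0, 0, 0, 0, 0, 0, 1, 1, 0, 0],
    ![2, 0, 0, 0, 0, 0, 0, 1, 0, 0, 0, 1, 1, 0, 0, 0, 1, 0, 0, 0, 0, 0, 0],
    ![2, 0, 1, 0, 0, 1, 0, 0, 0, 0, 0, 0, 0, 0, 0, 0, 0, 0, 1, 0, 0, 1, 0],
    ![2, 0, 0, 0, 0, 0, 1, 1, 0, 0, 0, 0, 0, 0, 0, 0, 1, 1, 0, 0, 0, 0, 0]]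

private def V23_691 : Fin 12 → ZMod 23 → ℤ :=
  ![![1, 0, 0, 0, 0, 0, 0, 0, 0, 0, 0, 0, 0, 0, 0, 0, 0, 0, 0, 0, 0, 0, 0],
    ![2, 0, 0, 0, 0, 0, 0, 0, 0, 1, 0, 1, 1, 0, 1, 0, 0, 0, 0, 0, 0, 0, 0],
    ![4, 2, 0, 0, 1, 2, 1, 1, 1, 3, 2, 3, 3, 2, 3, 1, 1, 1, 2, 1, 0, 0, 2],
    ![14, 12, 5, 6, 11, 12, 6, 6, 8, 13, 12, 10, 10, 12, 13, 8, 6, 6, 12, 11, 6, 5, 12],
    ![62, 65, 53, 54, 52, 56, 48, 49, 51, 65, 62, 62, 62, 62, 65, 51, 49, 48, 56, 52, 54, 53, 65],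
    ![384, 358, 336, 323, 332, 329, 306, 299, 329, 361, 368, 355, 355, 368, 361, 329, 299, 306, 329, 332, 323, 336, 358],
    ![2072, 2044, 2033, 2020, 2008, 2014, 1993, 1985, 2025, 2047, 2068, 2055, 2055, 2068, 2047, 2025, 1985, 1993, 2014, 2008, 2020, 2033, 2044],
    ![12180, 12119, 12160, 12176, 12180, 12215, 12193, 12151, 12187, 12176, 12176, 12145, 12145, 12176, 12176, 12187, 12151, 12193, 12215, 12180, 12176, 12160, 12119],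
    ![73072, 72969, 73007, 72995, 72997, 73072, 73074, 72979, 73059, 73081, 73048, 72991, 72991, 73048, 73081, 73059, 72979, 73074, 73072, 72997, 72995, 73007, 72969],
    ![438084, 438110, 438296, 438175, 438018, 438195, 438311, 438180, 438138, 438150, 438141, 438092, 438092, 438141, 438150, 438138, 438180, 438311, 438195, 438018, 438175, 438296, 438110],
    ![2629150, 2628834, 2629049, 2629089, 2628903, 2628970, 2628980, 2629093, 2629044, 2628740, 2628845, 2628966, 2628966, 2628845, 2628740, 2629044, 2629093, 2628980, 2628970, 2628903, 2629089, 2629049, 2628834],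
    ![15774446, 15773755, 15773755, 15773755, 15773755, 15773755, 15773755, 15773755, 15773755, 15773755, 15773755, 15773755, 15773755, 15773755, 15773755, 15773755, 15773755, 15773755, 15773755, 15773755, 15773755, 15773755, 15773755]]

private theorem check23_691 : (∀ i, c23_691 (-i) = c23_691 i) ∧
    (∀ (k : Fin 11) i, Y23_691 k (((k.1 + 1 : ℕ) : ZMod 23) * i) = c23_691 i) ∧
    (∀ i, V23_691 0 i = if i = 0 then 1 else 0) ∧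
    (∀ (k : Fin 11) i, V23_691 k.succ i = ∑ j, V23_691 k.castSucc j * Y23_691 k (i - j)) ∧
    (∀ i, V23_691 (Fin.last 11) i = if i = 0 then 691 + 15773755 else 15773755) := by decide +kernel

theorem conjugates_23_691 {K : Type*} [Field K] [NumberField K] [Fact (Nat.Prime 23)] [IsCyclotomicExtension {23} ℚ K] :
    ∃ (c : ZMod 23 → ℤ) (d : Fin 11 → (ZMod 23)ˣ) (s : ℤ), (∀ i, c (-i) = c i) ∧ s.natAbs = 691 ∧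
      ∏ k, sigma 23 K (d k) (ev K c) = (s : 𝓞 K) :=
  ⟨c23_691, smallUnit rfl, 691, check23_691.1, rfl, prod_conjugates_of_cert _ _ Y23_691 V23_691
    check23_691.2.1 check23_691.2.2.1 check23_691.2.2.2.1 check23_691.2.2.2.2⟩

private def c23_827 : ZMod 23 → ℤ :=
  ![1, 0, 0, 0, 0, 0, 0, 1, 0, 1, 1, -1, -1, 1, 1, 0, 1, 0, 0, 0, 0, 0, 0]

private def Y23_827 : Fin 11 → ZMod 23 → ℤ :=
  ![![1, 0, 0, 0, 0, 0, 0, 1, 0, 1, 1, -1, -1, 1, 1, 0, 1, 0, 0, 0, 0, 0, 0],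
    ![1, -1, 0, 1, 0, 1, 0, 0, 0, 1, 0, 0, 0, 0, 1, 0, 0, 0, 1, 0, 1, 0, -1],
    ![1, 0, 1, 0, 1, 0, 0, 1, 0, 0, -1, 0, 0, -1, 0, 0, 1, 0, 0, 1, 0, 1, 0],
    ![1, 0, -1, 0, 0, 1, 1, 0, 0, 0, 1, 0, 0, 1, 0, 0, 0, 1, 1, 0, 0, -1, 0],
    ![1, 1, 0, 0, 1, 0, 0, 0, 0, -1, 0, 1, 1, 0, -1, 0, 0, 0, 0, 1, 0, 0, 1],
    ![1, 0, 0, -1, 1, 0, 0, 0, 1, 1, 0, 0, 0, 0, 1, 1, 0, 0, 0, 1, -1, 0, 0],
    ![1, 1, 0, 1, 0, 0, 1, 0, -1, 0, 0, 0, 0, 0, 0, -1, 0, 1, 0, 0, 1, 0, 1],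
    ![1, 0, 0, 1, -1, 0, 0, 0, 0, 0, 1, 1, 1, 1, 0, 0, 0, 0, 0, -1, 1, 0, 0],
    ![1, 0, 1, 0, 0, 0, 1, -1, 0, 0, 0, 1, 1, 0, 0, 0, -1, 1, 0, 0, 0, 1, 0],
    ![1, 1, 1, 0, 0, -1, 0, 0, 1, 0, 0, 0, 0, 0, 0, 1, 0, 0, -1, 0, 0, 1, 1],
    ![1, 0, 0, 0, 0, 1, -1, 1, 1, 0, 0, 0, 0, 0, 0, 1, 1, -1, 1, 0, 0, 0, 0]]

private def V23_827 : Fin 12 → ZMod 23 → ℤ :=
  ![![1, 0, 0, 0, 0, 0, 0, 0, 0, 0, 0, 0, 0, 0, 0, 0, 0, 0, 0, 0, 0, 0, 0],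
    ![1, 0, 0, 0, 0, 0, 0, 1, 0, 1, 1, -1, -1, 1, 1, 0, 1, 0, 0, 0, 0, 0, 0],
    ![3, 0, 1, 0, 3, 3, -1, 2, -2, 1, 3, 1, 1, 3, 1, -2, 2, -1, 3, 3, 0, 1, 0],
    ![9, -2, 12, 6, 5, 7, 2, 12, -2, 10, -2, 10, 10, -2, 10, -2, 12, 2, 7, 5, 6, 12, -2],
    ![-1, 40, 27, 37, 21, 9, 43, 21, 43, 10, 27, 35, 35, 27, 10, 43, 21, 43, 9, 21, 37, 27, 40],
    ![171, 104, 155, 121, 137, 156, 99, 161, 105, 172, 131, 136, 136, 131, 172, 105, 161, 99, 156, 137, 121, 155, 104],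
    ![757, 658, 676, 643, 708, 733, 645, 675, 621, 754, 662, 659, 659, 662, 754, 621, 675, 645, 733, 708, 643, 676, 658],
    ![3407, 3454, 3390, 3434, 3388, 3395, 3436, 3352, 3440, 3302, 3386, 3382, 3382, 3386, 3302, 3440, 3352, 3436, 3395, 3388, 3434, 3390, 3454],
    ![17035, 16855, 16923, 16951, 16877, 17092, 16967, 16963, 17054, 17005, 17071, 17037, 17037, 17071, 17005, 17054, 16963, 16967, 17092, 16877, 16951, 16923, 16855],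
    ![84963, 84803, 84745, 84965, 84790, 84868, 85103, 84915, 84939, 84998, 84862, 85093, 85093, 84862, 84998, 84939, 84915, 85103, 84868, 84790, 84965, 84745, 84803],
    ![424201, 424299, 424351, 424448, 424553, 424643, 424462, 424727, 424868, 424925, 424791, 424645, 424645, 424791, 424925, 424868, 424727, 424462, 424643, 424553, 424448, 424351, 424299],
    ![2123753, 2122926, 2122926, 2122926, 2122926, 2122926, 2122926, 2122926, 2122926, 2122926, 2122926, 2122926, 2122926, 2122926, 2122926, 2122926, 2122926, 2122926, 2122926, 2122926, 2122926, 2122926, 2122926]]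

private theorem check23_827 : (∀ i, c23_827 (-i) = c23_827 i) ∧
    (∀ (k : Fin 11) i, Y23_827 k (((k.1 + 1 : ℕ) : ZMod 23) * i) = c23_827 i) ∧
    (∀ i, V23_827 0 i = if i = 0 then 1 else 0) ∧
    (∀ (k : Fin 11) i, V23_827 k.succ i = ∑ j, V23_827 k.castSucc j * Y23_827 k (i - j)) ∧
    (∀ i, V23_827 (Fin.last 11) i = if i = 0 then 827 + 2122926 else 2122926) := by decide +kernel

theorem conjugates_23_827 {K : Type*} [Field K] [NumberField K] [Fact (Nat.Prime 23)] [IsCyclotomicExtension {23} ℚ K] :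
    ∃ (c : ZMod 23 → ℤ) (d : Fin 11 → (ZMod 23)ˣ) (s : ℤ), (∀ i, c (-i) = c i) ∧ s.natAbs = 827 ∧
      ∏ k, sigma 23 K (d k) (ev K c) = (s : 𝓞 K) :=
  ⟨c23_827, smallUnit rfl, 827, check23_827.1, rfl, prod_conjugates_of_cert _ _ Y23_827 V23_827
    check23_827.2.1 check23_827.2.2.1 check23_827.2.2.2.1 check23_827.2.2.2.2⟩

private def c23_829 : ZMod 23 → ℤ :=
  ![0, 0, 0, 0, 0, 0, 0, 0, 1, -1, -1, -1, -1, -1, -1, 1, 0, 0, 0, 0, 0, 0, 0]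

private def Y23_829 : Fin 11 → ZMod 23 → ℤ :=
  ![![0, 0, 0, 0, 0, 0, 0, 0, 1, -1, -1, -1, -1, -1, -1, 1, 0, 0, 0, 0, 0, 0, 0],
    ![0, -1, 0, -1, 0, -1, 0, 1, 0, 0, 0, 0, 0, 0, 0, 0, 1, 0, -1, 0, -1, 0, -1],
    ![0, 1, 0, 0, -1, 0, 0, -1, 0, 0, -1, 0, 0, -1, 0, 0, -1, 0, 0, -1, 0, 0, 1],
    ![0, 0, -1, 0, 0, 0, -1, 0, 0, 1, -1, 0, 0, -1, 1, 0, 0, -1, 0, 0, 0, -1, 0],
    ![0, -1, 0, 0, -1, 0, 1, 0, 0, -1, 0, 0, 0, 0, -1, 0, 0, 1, 0, -1, 0, 0, -1],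
    ![0, 0, 1, -1, 0, 0, 0, 0, -1, -1, 0, 0, 0, 0, -1, -1, 0, 0, 0, 0, -1, 1, 0],
    ![0, -1, 0, 0, 0, 0, -1, 0, -1, 0, 1, 0, 0, 1, 0, -1, 0, -1, 0, 0, 0, 0, -1],
    ![0, 0, 0, -1, -1, 1, 0, 0, 0, 0, 0, -1, -1, 0, 0, 0, 0, 0, 1, -1, -1, 0, 0],
    ![0, 0, -1, 1, 0, 0, 0, -1, 0, 0, 0, -1, -1, 0, 0, 0, -1, 0, 0, 0, 1, -1, 0],
    ![0, 0, -1, 0, 0, -1, 0, 0, -1, 0, 0, 1, 1, 0, 0, -1, 0, 0, -1, 0, 0, -1, 0],
    ![0, 0, 0, 0, 1, -1, -1, -1, 0, 0, 0, 0, 0, 0, 0, 0, -1, -1, -1, 1, 0, 0, 0]]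

private def V23_829 : Fin 12 → ZMod 23 → ℤ :=
  ![![1, 0, 0, 0, 0, 0, 0, 0, 0, 0, 0, 0, 0, 0, 0, 0, 0, 0, 0, 0, 0, 0, 0],
    ![0, 0, 0, 0, 0, 0, 0, 0, 1, -1, -1, -1, -1, -1, -1, 1, 0, 0, 0, 0, 0, 0, 0],
    ![0, 1, -1, -2, 0, -1, 1, 0, 4, 2, 2, 2, 2, 2, 2, 4, 0, 1, -1, 0, -2, -1, 1],
    ![-2, -7, -8, -6, -10, -6, -5, 4, -3, 5, 4, 1, 1, 4, 5, -3, 4, -5, -6, -10, -6, -8, -7],
    ![28, 10, 32, 2, 15, 12, 11, 11, 6, 13, -1, 3, 3, -1, 13, 6, 11, 11, 12, 15, 2, 32, 10],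
    ![-54, -56, -48, -67, -28, -64, -31, -56, -18, -48, -39, -30, -30, -39, -48, -18, -56, -31, -64, -28, -67, -48, -56],
    ![170, 114, 194, 120, 194, 125, 250, 133, 221, 180, 243, 189, 189, 243, 180, 221, 133, 250, 125, 194, 120, 194, 114],
    ![-684, -566, -732, -626, -635, -764, -664, -793, -671, -861, -725, -813, -813, -725, -861, -671, -793, -664, -764, -635, -626, -732, -566],
    ![2620, 2996, 2893, 2836, 2751, 2878, 2993, 2653, 2935, 2828, 2906, 2789, 2789, 2906, 2828, 2935, 2653, 2993, 2878, 2751, 2836, 2893, 2996],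
    ![-10998, -11811, -10937, -11681, -11450, -10989, -11795, -11126, -11750, -10935, -11883, -11216, -11216, -11883, -10935, -11750, -11126, -11795, -10989, -11450, -11681, -10937, -11811],
    ![44920, 45699, 46115, 45007, 45268, 46331, 45315, 45199, 46235, 45715, 44883, 46061, 46061, 44883, 45715, 46235, 45199, 45315, 46331, 45268, 45007, 46115, 45699],
    ![-183154, -182325, -182325, -182325, -182325, -182325, -182325, -182325, -182325, -182325, -182325, -182325, -182325, -182325, -182325, -182325, -182325, -182325, -182325, -182325, -182325, -182325, -182325]]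

private theorem check23_829 : (∀ i, c23_829 (-i) = c23_829 i) ∧
    (∀ (k : Fin 11) i, Y23_829 k (((k.1 + 1 : ℕ) : ZMod 23) * i) = c23_829 i) ∧
    (∀ i, V23_829 0 i = if i = 0 then 1 else 0) ∧
    (∀ (k : Fin 11) i, V23_829 k.succ i = ∑ j, V23_829 k.castSucc j * Y23_829 k (i - j)) ∧
    (∀ i, V23_829 (Fin.last 11) i = if i = 0 then -829 + -182325 else -182325) := by decide +kernel

theorem conjugates_23_829 {K : Type*} [Field K] [NumberField K] [Fact (Nat.Prime 23)] [IsCyclotomicExtension {23} ℚ K] :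
    ∃ (c : ZMod 23 → ℤ) (d : Fin 11 → (ZMod 23)ˣ) (s : ℤ), (∀ i, c (-i) = c i) ∧ s.natAbs = 829 ∧
      ∏ k, sigma 23 K (d k) (ev K c) = (s : 𝓞 K) :=
  ⟨c23_829, smallUnit rfl, -829, check23_829.1, rfl, prod_conjugates_of_cert _ _ Y23_829 V23_829
    check23_829.2.1 check23_829.2.2.1 check23_829.2.2.2.1 check23_829.2.2.2.2⟩

theorem classNumber_real_23 {K : Type*} [Field K] [NumberField K] [IsCMField K] [Fact (Nat.Prime 23)]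
    [IsCyclotomicExtension {23} ℚ K] : classNumber (maximalRealSubfield K) = 1 := by
  refine classNumber_real_eq_one (p := 23) (m := 11) (B := 900) (by norm_num) rfl (by norm_num [Nat.factorial])
    fun N hN hmod hpp => ?_
  have key : ∀ N < 901, 2 ≤ N → (N % 23 = 1 ∨ N % 23 = 23 - 1) →
      N ∈ ([47, 137, 139, 229, 277, 367, 461, 599, 643, 691, 827, 829] : List ℕ) ∨ hasCoprimeSplit N = true := by decide +kernel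
  rcases key N (by omega) hpp.one_lt hmod with hmem | hsplit
  ·
    simp only [List.mem_cons, List.not_mem_nil, or_false] at hmem
    rcases hmem with rfl | rfl | rfl | rfl | rfl | rfl | rfl | rfl | rfl | rfl | rfl | rfl
    · exact conjugates_23_47
    · exact conjugates_23_137
    · exact conjugates_23_139
    · exact conjugates_23_229
    · exact conjugates_23_277
    · exact conjugates_23_367
    · exact conjugates_23_461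
    · exact conjugates_23_599
    · exact conjugates_23_643
    · exact conjugates_23_691
    · exact conjugates_23_827
    · exact conjugates_23_829
  · exact absurd hpp (not_isPrimePow_of_split hsplit)

end FA.CycloIndex
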